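import Fermat.Agent.DuffinSchaeffer.Flat
import Mathlib.Analysis.SpecialFunctions.Pow.Real
import Mathlib.Analysis.PSeries

/-!
# The bilinear bound for weighted pairs

Induction on the set of primes. A small prime costs a constant factor; at a large prime either the
bound passes to the rest, or both masses concentrate at one exponent up to a share `O (1/p)`. If
all primes concentrate, at exponents forming `a`, the pairs agreeing with `a` are bounded directly
and the others carry `∑ O (p ^ (-3/2))` of the bound. Scaling gives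
`∑ μ v μ w ≤ C √y exp (-t s) (μ V μ W) ^ (3/4)` over the pairs with parameter `≤ y` and `L ≥ s`.
-/

set_option autoImplicit false

noncomputable section

namespace FA.DuffinSchaeffer

open Finset

theorem pw_sq_eq {c : ℝ} (hc : 0 ≤ c) : pw c * pw c = c * Real.sqrt c := by rw [← sq, pw_sq hc]

/-- The cost of an exceptional prime. -/
def tailTerm (p : ℕ) : ℝ := 55 * (2 * flatConst / p * Real.sqrt (2 * flatConst / p))

theorem tailTerm_nonneg (p : ℕ) : 0 ≤ tailTerm p := by
  unfold tailTerm flatConst; positivity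

theorem summable_tailTerm : Summable tailTerm := by
  have h : Summable fun n : ℕ => 55 * (2 * flatConst * Real.sqrt (2 * flatConst)) *
      ((n : ℝ) ^ (3 / 2 : ℝ))⁻¹ :=
    (Real.summable_nat_rpow_inv.2 (by norm_num)).mul_left _
  refine h.congr fun n => ?_
  have e : (n : ℝ) ^ (3 / 2 : ℝ) = n * Real.sqrt n := by
    rw [Real.sqrt_eq_rpow, show (3 / 2 : ℝ) = 1 + 1 / 2 by norm_num,
      Real.rpow_add' (Nat.cast_nonneg n) (by norm_num), Real.rpow_one]
  rw [tailTerm, e, Real.sqrt_div' _ (Nat.cast_nonneg n), mul_inv]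
  ring

theorem exists_prime_cutoff :
    ∃ P₀ : ℕ, 16 ≤ P₀ ∧ ∀ s : Finset ℕ, (∀ p ∈ s, P₀ < p) → ∑ p ∈ s, tailTerm p ≤ 1 / 2 := by
  obtain ⟨s₀, hs₀⟩ := summable_iff_vanishing.1 summable_tailTerm (Set.Iio (1 / 2))
    (Iio_mem_nhds (by norm_num))
  refine ⟨s₀.sup id + 16, by omega, fun s hs => (hs₀ s ?_).le⟩
  rw [disjoint_left]
  intro p hp hp'
  have h1 : p ≤ s₀.sup id := le_sup (f := id) hp'
  have h2 := hs p hp
  omega

open Classical in
/-- **The flat case.** -/
theorem flat_case_le {t : ℕ} (ht : 1 ≤ t) {S : Finset ℕ} (hS : ∀ p ∈ S, p.Prime) {K : ℝ}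
    (hK : 0 ≤ K) (hrec : ∀ p ∈ S, PairBound t (S.erase p) K) {f g : ℕ → ℝ} (hf : ∀ v, 0 ≤ f v)
    (hg : ∀ w, 0 ≤ g w) {V W : Finset ℕ} (hV : ∀ v ∈ V, 0 < v ∧ v.primeFactors ⊆ S)
    (hW : ∀ w ∈ W, 0 < w ∧ w.primeFactors ⊆ S) (k : ℕ → ℕ)
    (hk : ∀ p ∈ S, mass f (V.filter fun v => v.factorization p ≠ k p) ≤
        2 * flatConst / p * mass f V ∧
      mass g (W.filter fun w => w.factorization p ≠ k p) ≤ 2 * flatConst / p * mass g W) :
    pairSum t f g V W ≤
      (singleConst + K * ∑ p ∈ S, tailTerm p) * (pw (mass f V) * pw (mass g W)) := by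
  obtain ⟨a, hadef⟩ : ∃ a, a = ∏ p ∈ S, p ^ k p := ⟨_, rfl⟩
  have ha : 0 < a := hadef ▸ prod_pos fun p hp => pow_pos (hS p hp).pos _
  have hfa : ∀ q, a.factorization q = if q ∈ S then k q else 0 := by
    intro q
    rw [hadef, Nat.factorization_prod fun p hp => pow_ne_zero _ (hS p hp).ne_zero,
      Finsupp.finsetSum_apply, sum_congr rfl fun p hp => by
        rw [(hS p hp).factorization_pow, Finsupp.single_apply], sum_ite_eq']
  have hout : ∀ v : ℕ, v.primeFactors ⊆ S → ∀ q, q ∉ S → v.factorization q = 0 := by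
    intro v hv q hq
    by_contra h
    exact hq (hv (mem_primeFactors_iff_factorization.2 h))
  have hterm : ∀ v ∈ V, ∀ w ∈ W, pairTerm t f g v w ≤
      (if Single a v w then pairTerm t f g v w else 0) + ∑ p ∈ S,
        if v.factorization p ≠ k p ∧ w.factorization p ≠ k p then pairTerm t f g v w else 0 := by
    intro v hv w hw
    have hnn := pairTerm_nonneg (t := t) hf hg v w
    have hsum : ∀ p ∈ S, (0 : ℝ) ≤
        if v.factorization p ≠ k p ∧ w.factorization p ≠ k p then pairTerm t f g v w else 0 :=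
      fun p _ => by split_ifs <;> simp [hnn]
    by_cases hs : Single a v w
    · rw [if_pos hs]
      exact le_add_of_nonneg_right (sum_nonneg hsum)
    · rw [if_neg hs, zero_add]
      simp only [Single, not_forall, not_or] at hs
      obtain ⟨q, hq1, hq2⟩ := hs
      have hqS : q ∈ S := by
        by_contra h
        rw [hfa, if_neg h] at hq1
        exact hq1 (hout v (hV v hv).2 q h)
      rw [hfa, if_pos hqS] at hq1 hq2
      exact le_of_eq_of_le (if_pos ⟨hq1, hq2⟩).symm (single_le_sum hsum hqS)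
  have hdouble : ∀ p ∈ S, ∑ v ∈ V, ∑ w ∈ W,
      (if v.factorization p ≠ k p ∧ w.factorization p ≠ k p then pairTerm t f g v w else 0) ≤
        K * tailTerm p * (pw (mass f V) * pw (mass g W)) := by
    intro p hp
    have h := pairSum_le_crude (hS p hp) hK (hrec p hp) (R := 55) (by
        have h9 := primeRoot_le_nine_tenths (hS p hp).two_le
        rw [← le_sub_iff_add_le', div_le_iff₀ (by linarith)]
        linarith [primeRoot_nonneg p]) hf hg
      (V := V.filter fun v => v.factorization p ≠ k p)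
      (W := W.filter fun w => w.factorization p ≠ k p)
      (fun v hv => hV v (mem_filter.1 hv).1) (fun w hw => hW w (mem_filter.1 hw).1)
    calc ∑ v ∈ V, ∑ w ∈ W,
          (if v.factorization p ≠ k p ∧ w.factorization p ≠ k p then pairTerm t f g v w else 0)
        = pairSum t f g (V.filter fun v => v.factorization p ≠ k p)
            (W.filter fun w => w.factorization p ≠ k p) := by
          simp only [pairSum, sum_filter]
          exact sum_congr rfl fun v _ => by split_ifs with h <;> simp [h]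
      _ ≤ _ := h
      _ ≤ K * 55 * (pw (2 * flatConst / p * mass f V) * pw (2 * flatConst / p * mass g W)) :=
          mul_le_mul_of_nonneg_left (mul_le_mul (pw_mono (hk p hp).1) (pw_mono (hk p hp).2)
            (pw_nonneg _) (pw_nonneg _)) (by positivity)
      _ = _ := by
          have hc : (0 : ℝ) ≤ 2 * flatConst / p := by unfold flatConst; positivity
          rw [pw_mul hc, pw_mul hc, tailTerm, ← pw_sq_eq hc]
          ring
  calc pairSum t f g V W
      ≤ ∑ v ∈ V, ∑ w ∈ W, ((if Single a v w then pairTerm t f g v w else 0) + ∑ p ∈ S,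
          if v.factorization p ≠ k p ∧ w.factorization p ≠ k p then pairTerm t f g v w else 0) :=
        sum_le_sum fun v hv => sum_le_sum fun w hw => hterm v hv w hw
    _ = ∑ v ∈ V, ∑ w ∈ W, (if Single a v w then pairTerm t f g v w else 0) + ∑ p ∈ S,
          ∑ v ∈ V, ∑ w ∈ W,
            if v.factorization p ≠ k p ∧ w.factorization p ≠ k p then pairTerm t f g v w else 0 :=
            by
        simp only [sum_add_distrib]
        congr 1
        rw [sum_comm (s := S)]
        exact sum_congr rfl fun v _ => sum_comm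
    _ ≤ singleConst * (pw (mass f V) * pw (mass g W)) +
          ∑ p ∈ S, K * tailTerm p * (pw (mass f V) * pw (mass g W)) :=
        add_le_add (single_sum_le ht ha hf hg (fun v hv => (hV v hv).1) fun w hw => (hW w hw).1)
          (sum_le_sum hdouble)
    _ = _ := by rw [add_mul, ← sum_mul, mul_sum]

/-- **The bilinear bound.** -/
theorem exists_pair_bound : ∃ C : ℝ, 0 ≤ C ∧ ∀ (t : ℕ), 1 ≤ t → ∀ (f g : ℕ → ℝ),
    (∀ v, 0 ≤ f v) → (∀ w, 0 ≤ g w) → ∀ V W : Finset ℕ, (∀ v ∈ V, 0 < v) → (∀ w ∈ W, 0 < w) →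
      pairSum t f g V W ≤ C * (pw (mass f V) * pw (mass g W)) := by
  obtain ⟨P₀, h16, htail⟩ := exists_prime_cutoff
  obtain ⟨K, hKdef⟩ : ∃ K : ℝ, K = 2 * singleConst := ⟨_, rfl⟩
  have hK : 0 ≤ K := hKdef ▸ mul_nonneg zero_le_two singleConst_nonneg
  refine ⟨K * 55 ^ (P₀ + 1), by positivity, fun t ht f g hf hg V W hV hW => ?_⟩
  suffices key : ∀ S : Finset ℕ, (∀ p ∈ S, p.Prime) →
      PairBound t S (K * 55 ^ (S.filter fun p => p ≤ P₀).card) by
    obtain ⟨S, hSdef⟩ : ∃ S, S = (V ∪ W).biUnion Nat.primeFactors := ⟨_, rfl⟩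
    refine (key S (fun p hp => ?_) f g V W hf hg
      (fun v hv => ⟨hV v hv, hSdef ▸ subset_biUnion_of_mem _ (mem_union_left _ hv)⟩)
      fun w hw => ⟨hW w hw, hSdef ▸ subset_biUnion_of_mem _ (mem_union_right _ hw)⟩).trans ?_
    · rw [hSdef, mem_biUnion] at hp
      obtain ⟨n, -, hn⟩ := hp
      exact Nat.prime_of_mem_primeFactors hn
    · refine mul_le_mul_of_nonneg_right (mul_le_mul_of_nonneg_left
        (pow_le_pow_right₀ (by norm_num) ?_) hK) (mul_nonneg (pw_nonneg _) (pw_nonneg _))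
      refine (card_le_card fun p hp => ?_).trans (card_range _).le
      exact mem_range.2 (Nat.lt_succ_of_le (mem_filter.1 hp).2)
  intro S
  induction S using Finset.strongInduction with
  | _ S ih =>
    intro hS f g V W hf hg hV hW
    have hsub : ∀ p, ∀ q ∈ S.erase p, q.Prime := fun p q hq => hS q (mem_of_mem_erase hq)
    by_cases hsmall : ∃ p ∈ S, p ≤ P₀
    · obtain ⟨p, hp, hle⟩ := hsmall
      have h := pairSum_le_crude (hS p hp) (by positivity) (ih _ (erase_ssubset hp) (hsub p))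
        (R := 55) (by
          have h9 := primeRoot_le_nine_tenths (hS p hp).two_le
          rw [← le_sub_iff_add_le', div_le_iff₀ (by linarith)]
          linarith [primeRoot_nonneg p]) hf hg hV hW
      refine h.trans (le_of_eq ?_)
      rw [filter_erase, card_erase_of_mem (mem_filter.2 ⟨hp, hle⟩), mul_assoc K, ← pow_succ]
      congr 3
      have hm : p ∈ S.filter fun p => p ≤ P₀ := mem_filter.2 ⟨hp, hle⟩
      have := card_pos.2 ⟨p, hm⟩
      omega
    push Not at hsmall
    have hempty : ∀ T ⊆ S, (T.filter fun p => p ≤ P₀) = ∅ := fun T hT =>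
      filter_eq_empty_iff.2 fun p hp => not_le.2 (hsmall p (hT hp))
    have hrec : ∀ p ∈ S, PairBound t (S.erase p) K := fun p hp => by
      have h := ih _ (erase_ssubset hp) (hsub p)
      rwa [hempty _ (erase_subset p S), card_empty, pow_zero, mul_one] at h
    rw [hempty S Subset.rfl, card_empty, pow_zero, mul_one]
    by_cases hgood : ∃ p ∈ S, pairSum t f g V W ≤ K * (pw (mass f V) * pw (mass g W))
    · obtain ⟨p, -, h⟩ := hgood
      exact h
    have hex : ∀ p ∈ S, ∃ k : ℕ, mass f (V.filter fun v => v.factorization p ≠ k) ≤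
          2 * flatConst / p * mass f V ∧
        mass g (W.filter fun w => w.factorization p ≠ k) ≤ 2 * flatConst / p * mass g W :=
      fun p hp => (pairSum_le_or_flat (hS p hp) (h16.trans (hsmall p hp).le) hK (hrec p hp)
        hf hg hV hW).resolve_left fun h => hgood ⟨p, hp, h⟩
    choose! k hk using hex
    refine (flat_case_le ht hS hK hrec hf hg hV hW k hk).trans (mul_le_mul_of_nonneg_right ?_
      (mul_nonneg (pw_nonneg _) (pw_nonneg _)))
    linarith [mul_le_mul_of_nonneg_left (htail S hsmall) hK]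

theorem mu_div (f : ℕ → ℝ) (y : ℝ) (v : ℕ) : mu (fun x => f x / y) v = mu f v / y := by
  simp only [mu]; ring

theorem pairWeight_eq_exp (t v w : ℕ) :
    pairWeight t v w =
      Real.exp (t * ∑ p ∈ (diffPrimes v w).filter (t ≤ ·), (1 : ℝ) / p) := by
  rw [pairWeight, mul_sum, Real.exp_sum]
  exact prod_congr rfl fun p _ => by rw [mul_one_div]

open Classical in
/-- **The weighted pairs with large gcd and many differing primes.** -/
theorem exists_gcd_pairs_bound : ∃ C : ℝ, 0 ≤ C ∧ ∀ (t : ℕ), 1 ≤ t → ∀ (ψ : ℕ → ℝ),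
    (∀ v, 0 ≤ ψ v) → ∀ (y s : ℝ), 0 < y → ∀ V W : Finset ℕ, (∀ v ∈ V, 0 < v) →
      (∀ w ∈ W, 0 < w) →
      ∑ v ∈ V, ∑ w ∈ W, (if ψ v * w ≤ y * (Nat.gcd v w : ℕ) ∧ ψ w * v ≤ y * (Nat.gcd v w : ℕ) ∧
          s ≤ ∑ p ∈ (diffPrimes v w).filter (t ≤ ·), (1 : ℝ) / p then mu ψ v * mu ψ w else 0) ≤
        C * Real.sqrt y * Real.exp (-(t * s)) * (pw (mass ψ V) * pw (mass ψ W)) := by
  obtain ⟨C, hC, hb⟩ := exists_pair_bound
  refine ⟨C, hC, fun t ht ψ hψ y s hy V W hV hW => ?_⟩
  obtain ⟨f, hf⟩ : ∃ f : ℕ → ℝ, f = fun x => ψ x / y := ⟨_, rfl⟩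
  have hf0 : ∀ x, 0 ≤ f x := fun x => hf ▸ div_nonneg (hψ x) hy.le
  have hmu : ∀ x, mu ψ x = y * mu f x := fun x => by
    rw [hf, mu_div, mul_div_cancel₀ _ hy.ne']
  have hmass : ∀ U, mass f U = y⁻¹ * mass ψ U := fun U => by
    rw [mass, mass, mul_sum]
    exact sum_congr rfl fun x _ => by rw [hmu, inv_mul_cancel_left₀ hy.ne']
  have hterm : ∀ v w,
      (if ψ v * w ≤ y * (Nat.gcd v w : ℕ) ∧ ψ w * v ≤ y * (Nat.gcd v w : ℕ) ∧
        s ≤ ∑ p ∈ (diffPrimes v w).filter (t ≤ ·), (1 : ℝ) / p then mu ψ v * mu ψ w else 0) ≤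
        y ^ 2 * Real.exp (-(t * s)) * pairTerm t f f v w := by
    intro v w
    split_ifs with h
    · obtain ⟨h1, h2, h3⟩ := h
      have hadm : Admissible f f v w := by
        rw [hf]
        constructor <;> simp only [] <;> rw [div_mul_eq_mul_div, div_le_iff₀ hy] <;> linarith
      rw [pairTerm, if_pos hadm, hmu, hmu, pairWeight_eq_exp]
      rw [show y ^ 2 * Real.exp (-(t * s)) * (mu f v * mu f w *
          Real.exp (t * ∑ p ∈ (diffPrimes v w).filter (t ≤ ·), (1 : ℝ) / p)) =
        y * mu f v * (y * mu f w) * (Real.exp (-(t * s)) *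
          Real.exp (t * ∑ p ∈ (diffPrimes v w).filter (t ≤ ·), (1 : ℝ) / p)) by ring]
      refine le_mul_of_one_le_right (mul_nonneg (mul_nonneg hy.le (mu_nonneg hf0 v))
        (mul_nonneg hy.le (mu_nonneg hf0 w))) ?_
      rw [← Real.exp_add]
      exact Real.one_le_exp (by
        linarith [mul_le_mul_of_nonneg_left h3 (Nat.cast_nonneg (α := ℝ) t)])
    · exact mul_nonneg (by positivity) (pairTerm_nonneg hf0 hf0 v w)
  refine (sum_le_sum fun v _ => sum_le_sum fun w _ => hterm v w).trans ?_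
  simp only [← mul_sum]
  refine (mul_le_mul_of_nonneg_left (hb t ht f f hf0 hf0 V W hV hW) (by positivity)).trans
    (le_of_eq ?_)
  have hyi : 0 ≤ y⁻¹ := inv_nonneg.2 hy.le
  rw [hmass, hmass, pw_mul hyi, pw_mul hyi, mul_mul_mul_comm (pw y⁻¹), pw_sq_eq hyi,
    Real.sqrt_inv]
  have hs : Real.sqrt y ≠ 0 := (Real.sqrt_pos.2 hy).ne'
  field_simp
  rw [Real.sq_sqrt hy.le]
  ring

end FA.DuffinSchaeffer
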