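import Fermat.Agent.DuffinSchaeffer.Pairs
import Mathlib.Data.Nat.Log
import Mathlib.Data.Nat.Squarefree
import Mathlib.Analysis.PSeries

/-!
# Pairs agreeing with a fixed number

Fix `a`. For pairs `(v, w)` such that at every prime one of `v`, `w` has the valuation of `a`, write
`v = a A⁺ / A⁻`. The condition on the pair gives `A⁺ w ≤ F v` and `A⁺ v ≤ F w` with
`F v = 1 / (f v A⁻)`. Cutting dyadically in `A⁺` and `F`, a block carries mass
`≪ 2 ^ (log A⁺ - log F)`, and Schur's test closes the bound `(μ V μ W) ^ (3/4)`.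
-/

set_option autoImplicit false

noncomputable section

namespace FA.DuffinSchaeffer

open Finset

/-- The part of `v` beyond `a`. -/
def excess (a v : ℕ) : ℕ := v / Nat.gcd v a

/-- The part of `a` missing in `v`. -/
def deficit (a v : ℕ) : ℕ := a / Nat.gcd v a

theorem excess_pos {a v : ℕ} (hv : 0 < v) : 0 < excess a v :=
  Nat.div_pos (Nat.le_of_dvd hv (Nat.gcd_dvd_left v a)) (Nat.gcd_pos_of_pos_left a hv)

theorem deficit_pos {a v : ℕ} (ha : 0 < a) : 0 < deficit a v :=
  Nat.div_pos (Nat.le_of_dvd ha (Nat.gcd_dvd_right v a)) (Nat.gcd_pos_of_pos_right v ha)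

theorem factorization_excess {a v : ℕ} (hv : 0 < v) (ha : 0 < a) (p : ℕ) :
    (excess a v).factorization p = v.factorization p - a.factorization p := by
  rw [excess, Nat.factorization_div (Nat.gcd_dvd_left v a), Nat.factorization_gcd hv.ne' ha.ne',
    Finsupp.tsub_apply, Finsupp.inf_apply]
  omega

theorem factorization_deficit {a v : ℕ} (hv : 0 < v) (ha : 0 < a) (p : ℕ) :
    (deficit a v).factorization p = a.factorization p - v.factorization p := by
  rw [deficit, Nat.factorization_div (Nat.gcd_dvd_right v a), Nat.factorization_gcd hv.ne' ha.ne',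
    Finsupp.tsub_apply, Finsupp.inf_apply]
  omega

theorem excess_deficit_injective {a v w : ℕ} (hv : 0 < v) (hw : 0 < w) (ha : 0 < a)
    (h1 : excess a v = excess a w) (h2 : deficit a v = deficit a w) : v = w := by
  refine Nat.eq_of_factorization_eq hv.ne' hw.ne' fun p => ?_
  have e1 := congrArg (fun n => n.factorization p) h1
  have e2 := congrArg (fun n => n.factorization p) h2
  simp only [factorization_excess hv ha, factorization_excess hw ha, factorization_deficit hv ha,
    factorization_deficit hw ha] at e1 e2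
  omega

theorem mem_primeFactors_iff_factorization {n p : ℕ} :
    p ∈ n.primeFactors ↔ n.factorization p ≠ 0 := by
  rw [← Nat.support_factorization, Finsupp.mem_support_iff]

/-- At every prime one of `v`, `w` has the valuation of `a`. -/
def Single (a v w : ℕ) : Prop :=
  ∀ p, v.factorization p = a.factorization p ∨ w.factorization p = a.factorization p

theorem gcd_mul_deficit_mul_excess_le {a v w : ℕ} (hv : 0 < v) (hw : 0 < w) (ha : 0 < a)
    (h : Single a v w) : Nat.gcd v w * deficit a v * excess a w ≤ w := by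
  refine Nat.le_of_dvd hw ((Nat.factorization_le_iff_dvd ?_ hw.ne').1 fun p => ?_)
  · have h1 := Nat.gcd_pos_of_pos_left w hv
    have h2 := deficit_pos (v := v) ha
    have h3 := excess_pos (a := a) hw
    positivity
  · rw [Nat.factorization_mul (mul_ne_zero (Nat.gcd_pos_of_pos_left w hv).ne' (deficit_pos ha).ne')
        (excess_pos hw).ne',
      Nat.factorization_mul (Nat.gcd_pos_of_pos_left w hv).ne' (deficit_pos ha).ne',
      Finsupp.add_apply, Finsupp.add_apply, Nat.factorization_gcd hv.ne' hw.ne', Finsupp.inf_apply,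
      factorization_deficit hv ha, factorization_excess hw ha]
    rcases h p with h | h <;> omega

theorem diffPrimes_eq_union {a v : ℕ} (hv : 0 < v) (ha : 0 < a) :
    diffPrimes v a = (excess a v).primeFactors ∪ (deficit a v).primeFactors := by
  ext p
  simp only [diffPrimes, mem_filter, mem_union, mem_primeFactors_iff_factorization,
    factorization_excess hv ha, factorization_deficit hv ha]
  omega

theorem disjoint_excess_deficit {a v : ℕ} (hv : 0 < v) (ha : 0 < a) :
    Disjoint (excess a v).primeFactors (deficit a v).primeFactors := by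
  rw [disjoint_left]
  intro p h1 h2
  simp only [mem_primeFactors_iff_factorization, factorization_excess hv ha,
    factorization_deficit hv ha] at h1 h2
  omega

theorem one_le_prod_exp (s : Finset ℕ) (t : ℕ) : 1 ≤ ∏ p ∈ s, Real.exp (t / p : ℝ) :=
  one_le_prod fun p _ => Real.one_le_exp (by positivity)

theorem pairWeight_le_mul (t a v w : ℕ) :
    pairWeight t v w ≤ pairWeight t v a * pairWeight t w a := by
  have hsub : (diffPrimes v w).filter (t ≤ ·) ⊆
      (diffPrimes v a).filter (t ≤ ·) ∪ (diffPrimes w a).filter (t ≤ ·) := by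
    intro p
    simp only [diffPrimes, mem_filter, mem_union, mem_primeFactors_iff_factorization]
    omega
  rw [pairWeight, pairWeight, pairWeight, ← prod_union_inter]
  exact (prod_le_prod_of_subset_of_one_le hsub (fun p _ => (Real.exp_pos _).le)
    fun p _ _ => Real.one_le_exp (by positivity)).trans
      (le_mul_of_one_le_right (prod_nonneg fun p _ => (Real.exp_pos _).le) (one_le_prod_exp _ t))

/-- The fourth power of the weight of one number. -/
def fourWeight (t n : ℕ) : ℝ :=
  ∏ p ∈ n.primeFactors, if t ≤ p then Real.exp (t / p : ℝ) ^ 4 else 1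

theorem fourWeight_nonneg (t n : ℕ) : 0 ≤ fourWeight t n :=
  prod_nonneg fun p _ => by split_ifs <;> positivity

theorem pairWeight_pow_four {a v : ℕ} (hv : 0 < v) (ha : 0 < a) (t : ℕ) :
    pairWeight t v a ^ 4 = fourWeight t (excess a v) * fourWeight t (deficit a v) := by
  rw [fourWeight, fourWeight, ← prod_union (disjoint_excess_deficit hv ha),
    ← diffPrimes_eq_union hv ha, pairWeight, ← prod_pow, prod_filter]

theorem sum_inv_sq_ge {t : ℕ} (ht : 1 ≤ t) (s : Finset ℕ) (hs : ∀ n ∈ s, t ≤ n) :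
    ∑ n ∈ s, ((n : ℝ) ^ 2)⁻¹ ≤ 2 / t := by
  obtain ⟨N, hN⟩ : ∃ N, ∀ n ∈ s, n ≤ N := ⟨s.sup id, fun n hn => le_sup (f := id) hn⟩
  have ht' : (1 : ℝ) ≤ t := by exact_mod_cast ht
  have hle : s ⊆ insert t (Ioc t (max N t)) := fun n hn => by
    have := hs n hn
    have := hN n hn
    simp only [mem_insert, mem_Ioc]
    omega
  refine (sum_le_sum_of_subset_of_nonneg hle fun n _ _ => by positivity).trans ?_
  rw [sum_insert (by simp)]
  have h := sum_Ioc_inv_sq_le_sub (α := ℝ) (k := t) (n := max N t) (by omega) (le_max_right _ _)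
  have h1 : ((t : ℝ) ^ 2)⁻¹ ≤ (t : ℝ)⁻¹ := inv_anti₀ (by linarith) (le_self_pow₀ ht' two_ne_zero)
  have h2 : (0 : ℝ) ≤ ((max N t : ℕ) : ℝ)⁻¹ := by positivity
  rw [show (2 : ℝ) / t = 2 * (t : ℝ)⁻¹ from div_eq_mul_inv _ _]
  linarith

theorem exp_quad_sub_one_le {t p : ℕ} (htp : t ≤ p) :
    Real.exp (t / p : ℝ) ^ 4 - 1 ≤ 324 * ((t : ℝ) / p) := by
  have hx0 : (0 : ℝ) ≤ t / p := by positivity
  have hx1 : (t : ℝ) / p ≤ 1 := div_le_one_of_le₀ (Nat.cast_le.2 htp) (Nat.cast_nonneg p)
  rw [← Real.exp_nat_mul]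
  push_cast
  obtain ⟨x, hx⟩ : ∃ x, x = 4 * ((t : ℝ) / p) := ⟨_, rfl⟩
  rw [← hx, show 324 * ((t : ℝ) / p) = x * 81 by rw [hx]; ring]
  have h1 := Real.add_one_le_exp (-x)
  have h2 : Real.exp x ≤ 81 := by
    refine (Real.exp_le_exp.2 (show x ≤ ((4 : ℕ) : ℝ) * 1 by push_cast; linarith)).trans ?_
    rw [Real.exp_nat_mul]
    refine (pow_le_pow_left₀ (Real.exp_pos 1).le (show Real.exp 1 ≤ 3 by
      linarith [Real.exp_one_lt_d9]) 4).trans (by norm_num)
  have hprod : Real.exp x * Real.exp (-x) = 1 := by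
    rw [← Real.exp_add, add_neg_cancel, Real.exp_zero]
  nlinarith [Real.exp_pos x, hx0]

theorem sum_fourWeight_le {t : ℕ} (ht : 1 ≤ t) (N : ℕ) :
    ∑ n ∈ Icc 1 N, fourWeight t n ≤ (N : ℝ) * Real.exp 648 := by
  obtain ⟨P, hP⟩ : ∃ P : Finset ℕ, P = (range (N + 1)).filter fun p => p.Prime ∧ t ≤ p := ⟨_, rfl⟩
  obtain ⟨b, hb⟩ : ∃ b : ℕ → ℝ, b = fun p : ℕ => Real.exp (t / p : ℝ) ^ 4 - 1 := ⟨_, rfl⟩
  have hb0 : ∀ p, 0 ≤ b p := fun p => by
    rw [hb]; exact sub_nonneg.2 (one_le_pow₀ (Real.one_le_exp (by positivity)))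
  have hexp : ∀ n ∈ Icc 1 N, fourWeight t n ≤
      ∑ T ∈ P.powerset, if (∏ p ∈ T, p) ∣ n then ∏ p ∈ T, b p else 0 := by
    intro n hn
    rw [mem_Icc] at hn
    obtain ⟨U, hU⟩ : ∃ U, U = n.primeFactors.filter (t ≤ ·) := ⟨_, rfl⟩
    have e : fourWeight t n = ∏ p ∈ U, (1 + b p) := by
      rw [fourWeight, hU, prod_filter]
      exact prod_congr rfl fun p _ => by rw [hb]; simp
    have hUP : U ⊆ P := fun p hp => by
      rw [hU, mem_filter, Nat.mem_primeFactors] at hp
      rw [hP, mem_filter, mem_range]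
      have := Nat.le_of_dvd (by omega) hp.1.2.1
      exact ⟨by omega, hp.1.1, hp.2⟩
    rw [e, prod_one_add]
    refine le_trans (sum_le_sum fun T hT => ?_)
      (sum_le_sum_of_subset_of_nonneg (powerset_mono.2 hUP) fun T _ _ => ?_)
    · rw [if_pos]
      rw [mem_powerset, hU] at hT
      refine dvd_trans (prod_dvd_prod_of_subset _ _ _ (hT.trans (filter_subset _ _))) ?_
      exact Nat.prod_primeFactors_dvd n
    · split_ifs
      · exact prod_nonneg fun p _ => hb0 p
      · exact le_rfl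
  refine (sum_le_sum hexp).trans ?_
  rw [sum_comm]
  have hcount : ∀ T ∈ P.powerset,
      ∑ n ∈ Icc 1 N, (if (∏ p ∈ T, p) ∣ n then ∏ p ∈ T, b p else 0) ≤
        (N : ℝ) * ∏ p ∈ T, b p / p := by
    intro T hT
    rw [← sum_filter, sum_const, nsmul_eq_mul, prod_div_distrib, ← Nat.cast_prod,
      mul_div_assoc', mul_comm (N : ℝ), mul_div_assoc, mul_comm]
    refine mul_le_mul_of_nonneg_left ?_ (prod_nonneg fun p _ => hb0 p)
    rw [show Icc 1 N = Ioc 0 N by ext; simp only [mem_Icc, mem_Ioc]; omega,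
      Nat.Ioc_filter_dvd_card_eq_div]
    exact Nat.cast_div_le
  refine (sum_le_sum hcount).trans ?_
  rw [← mul_sum, ← prod_one_add]
  refine mul_le_mul_of_nonneg_left ?_ (Nat.cast_nonneg N)
  refine ((prod_le_prod (fun p _ => by have := hb0 p; positivity) fun p hp =>
    (add_comm _ _).trans_le (Real.add_one_le_exp _)).trans (le_of_eq (Real.exp_sum _ _).symm)).trans
      (Real.exp_le_exp.2 ?_)
  have hle : ∀ p ∈ P, b p / p ≤ 324 * t * ((p : ℝ) ^ 2)⁻¹ := fun p hp => by
    rw [hP, mem_filter] at hp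
    have hp0 : (0 : ℝ) < p := Nat.cast_pos.2 hp.2.1.pos
    rw [hb]
    refine (div_le_div_of_nonneg_right (exp_quad_sub_one_le hp.2.2) hp0.le).trans (le_of_eq ?_)
    field_simp
  refine (sum_le_sum hle).trans ?_
  rw [← mul_sum]
  refine (mul_le_mul_of_nonneg_left (sum_inv_sq_ge ht P fun p hp => by
    rw [hP, mem_filter] at hp; exact hp.2.2) (by positivity)).trans (le_of_eq ?_)
  have : (0 : ℝ) < t := by exact_mod_cast ht
  field_simp
  norm_num

/-- The local factor of the sum over divisors. -/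
def localTerm (t p e : ℕ) : ℝ :=
  if e = 0 then 1 - 1 / (p : ℝ)
  else (if t ≤ p then Real.exp (t / p : ℝ) ^ 4 else 1) / (p : ℝ) ^ e

theorem localTerm_nonneg (t : ℕ) {p : ℕ} (hp : p.Prime) (e : ℕ) : 0 ≤ localTerm t p e := by
  rw [localTerm]
  split_ifs
  · rw [sub_nonneg]
    exact div_le_one_of_le₀ (by exact_mod_cast hp.one_le) (Nat.cast_nonneg p)
  all_goals positivity

theorem local_sum_le {t p : ℕ} (hp : p.Prime) (k : ℕ) :
    ∑ e ∈ range (k + 1), localTerm t p e ≤
      Real.exp (2 * ((p : ℝ) ^ 2)⁻¹ + if t ≤ p then 648 * t * ((p : ℝ) ^ 2)⁻¹ else 0) := by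
  obtain ⟨β, hβ⟩ : ∃ β : ℝ, β = if t ≤ p then Real.exp (t / p : ℝ) ^ 4 else 1 := ⟨_, rfl⟩
  have hβ0 : 0 ≤ β := by rw [hβ]; split_ifs <;> positivity
  have hp2 : (2 : ℝ) ≤ p := by exact_mod_cast hp.two_le
  have e1 : ∀ e ∈ range k, localTerm t p (e + 1) = β / p * (1 / (p : ℝ)) ^ e := fun e _ => by
    rw [localTerm, if_neg (Nat.succ_ne_zero e), ← hβ, one_div_pow, pow_succ']
    field_simp
  rw [sum_range_succ', sum_congr rfl e1, ← mul_sum, localTerm, if_pos rfl]
  have hgeo : ∑ e ∈ range k, (1 / (p : ℝ)) ^ e ≤ 1 / (1 - 1 / p) :=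
    sum_pow_image (by positivity) (by rw [div_lt_one (by linarith)]; linarith) _ id
      (Set.injOn_id _)
  refine le_trans (add_le_add (mul_le_mul_of_nonneg_left hgeo (div_nonneg hβ0 (by linarith)))
    le_rfl) ?_
  have key : β / p * (1 / (1 - 1 / (p : ℝ))) + (1 - 1 / (p : ℝ)) =
      1 / ((p : ℝ) * (p - 1)) + (β - 1) / ((p : ℝ) - 1) + 1 := by
    have : (p : ℝ) - 1 ≠ 0 := by linarith
    field_simp
    ring
  have hsq : 1 / ((p : ℝ) * (p - 1)) ≤ 2 * ((p : ℝ) ^ 2)⁻¹ := by
    rw [← div_eq_mul_inv, div_le_div_iff₀ (by nlinarith) (by positivity)]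
    nlinarith
  rw [key]
  refine (Real.add_one_le_exp _).trans ?_
  refine Real.exp_le_exp.2 (add_le_add ?_ ?_)
  · exact hsq
  · rw [hβ]
    split_ifs with htp
    · refine (div_le_div_of_nonneg_right (exp_quad_sub_one_le htp) (by linarith)).trans ?_
      rw [show 324 * ((t : ℝ) / p) / ((p : ℝ) - 1) = 324 * t * (1 / ((p : ℝ) * (p - 1))) by
        field_simp, show 648 * (t : ℝ) * ((p : ℝ) ^ 2)⁻¹ = 324 * t * (2 * ((p : ℝ) ^ 2)⁻¹) by ring]
      exact mul_le_mul_of_nonneg_left hsq (by positivity)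
    · rw [sub_self, zero_div]

theorem prod_localTerm {a d : ℕ} (t : ℕ) (hd : d ∈ a.divisors) :
    ∏ p ∈ a.primeFactors, localTerm t p (d.factorization p) =
      fourWeight t d / d * ∏ p ∈ a.primeFactors \ d.primeFactors, (1 - 1 / (p : ℝ)) := by
  obtain ⟨hda, ha⟩ := Nat.mem_divisors.1 hd
  have hd0 : d ≠ 0 := fun h => by subst h; exact ha (Nat.eq_zero_of_zero_dvd hda)
  have hsub : d.primeFactors ⊆ a.primeFactors := Nat.primeFactors_mono hda ha
  rw [← prod_sdiff hsub, mul_comm]
  congr 1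
  · have e : (d : ℝ) = ∏ p ∈ d.primeFactors, (p : ℝ) ^ d.factorization p := by
      conv_lhs => rw [← Nat.prod_factorization_pow_eq_self hd0]
      rw [Finsupp.prod, Nat.support_factorization]
      push_cast
      rfl
    rw [fourWeight, e, ← prod_div_distrib]
    exact prod_congr rfl fun p hp => by
      rw [localTerm, if_neg (mem_primeFactors_iff_factorization.1 hp)]
  · refine prod_congr rfl fun p hp => ?_
    rw [mem_sdiff, mem_primeFactors_iff_factorization (n := d), not_not] at hp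
    rw [localTerm, if_pos hp.2]

theorem sum_divisors_le {t : ℕ} (ht : 1 ≤ t) {a : ℕ} (ha : 0 < a) :
    ∑ d ∈ a.divisors, fourWeight t d / d *
      ∏ p ∈ a.primeFactors \ d.primeFactors, (1 - 1 / (p : ℝ)) ≤ Real.exp 1300 := by
  rw [← sum_congr rfl fun d hd => prod_localTerm t hd]
  have hmap : Set.InjOn (fun d => fun p (_ : p ∈ a.primeFactors) => d.factorization p)
      (a.divisors : Set ℕ) := by
    intro d hd e he h
    rw [mem_coe, Nat.mem_divisors] at hd he
    have hd0 : d ≠ 0 := fun h => by subst h; exact ha.ne' (Nat.eq_zero_of_zero_dvd hd.1)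
    have he0 : e ≠ 0 := fun h => by subst h; exact ha.ne' (Nat.eq_zero_of_zero_dvd he.1)
    refine Nat.eq_of_factorization_eq hd0 he0 fun p => ?_
    by_cases hp : p ∈ a.primeFactors
    · exact congrFun (congrFun h p) hp
    · have h1 : p ∉ d.primeFactors := fun h => hp (Nat.primeFactors_mono hd.1 ha.ne' h)
      have h2 : p ∉ e.primeFactors := fun h => hp (Nat.primeFactors_mono he.1 ha.ne' h)
      rw [mem_primeFactors_iff_factorization, not_not] at h1 h2
      rw [h1, h2]
  calc ∑ d ∈ a.divisors, ∏ p ∈ a.primeFactors, localTerm t p (d.factorization p)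
      = ∑ d ∈ a.divisors, ∏ q ∈ a.primeFactors.attach,
          localTerm t q.1 ((fun p (_ : p ∈ a.primeFactors) => d.factorization p) q.1 q.2) :=
        sum_congr rfl fun d _ =>
          (prod_attach a.primeFactors fun p => localTerm t p (d.factorization p)).symm
    _ ≤ ∑ φ ∈ a.primeFactors.pi fun p => range (a.factorization p + 1),
          ∏ q ∈ a.primeFactors.attach, localTerm t q.1 (φ q.1 q.2) := by
        rw [← sum_image (f := fun φ : (p : ℕ) → p ∈ a.primeFactors → ℕ =>
          ∏ q ∈ a.primeFactors.attach, localTerm t q.1 (φ q.1 q.2)) hmap]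
        refine sum_le_sum_of_subset_of_nonneg (fun φ hφ => ?_) fun φ _ _ =>
          prod_nonneg fun q _ => localTerm_nonneg t (Nat.prime_of_mem_primeFactors q.2) _
        obtain ⟨d, hd, rfl⟩ := mem_image.1 hφ
        rw [Nat.mem_divisors] at hd
        have hd0 : d ≠ 0 := fun h => by subst h; exact ha.ne' (Nat.eq_zero_of_zero_dvd hd.1)
        refine mem_pi.2 fun p _ => mem_range.2 (Nat.lt_succ_of_le ?_)
        exact (Nat.factorization_le_iff_dvd hd0 ha.ne').2 hd.1 p
    _ = ∏ p ∈ a.primeFactors, ∑ e ∈ range (a.factorization p + 1), localTerm t p e :=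
        (prod_sum _ _ _).symm
    _ ≤ ∏ p ∈ a.primeFactors,
          Real.exp (2 * ((p : ℝ) ^ 2)⁻¹ + if t ≤ p then 648 * t * ((p : ℝ) ^ 2)⁻¹ else 0) :=
        prod_le_prod (fun p hp => sum_nonneg fun e _ =>
          localTerm_nonneg t (Nat.prime_of_mem_primeFactors hp) e)
          fun p hp => local_sum_le (Nat.prime_of_mem_primeFactors hp) _
    _ ≤ Real.exp 1300 := by
        rw [← Real.exp_sum, sum_add_distrib, ← mul_sum, ← sum_filter, ← mul_sum]
        refine Real.exp_le_exp.2 ?_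
        have h1 := sum_inv_sq_ge le_rfl a.primeFactors fun p hp =>
          (Nat.prime_of_mem_primeFactors hp).one_le
        have h2 := mul_le_mul_of_nonneg_left (sum_inv_sq_ge ht (a.primeFactors.filter (t ≤ ·))
          fun p hp => (mem_filter.1 hp).2) (show (0 : ℝ) ≤ 648 * t by positivity)
        have h3 : 648 * (t : ℝ) * (2 / t) = 1296 := by
          have : (0 : ℝ) < t := by exact_mod_cast ht
          field_simp
          norm_num
        rw [h3] at h2
        norm_num at h1
        linarith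

theorem totient_ratio_le {a v : ℕ} (hv : 0 < v) (ha : 0 < a) :
    (v.totient : ℝ) / v ≤
      ∏ p ∈ a.primeFactors \ (deficit a v).primeFactors, (1 - 1 / (p : ℝ)) := by
  have h := congrArg (Rat.cast (K := ℝ)) (Nat.totient_eq_mul_prod_factors v)
  push_cast at h
  rw [h, mul_div_cancel_left₀ _ (Nat.cast_ne_zero.2 hv.ne')]
  have h01 : ∀ p ∈ v.primeFactors, 0 ≤ 1 - ((p : ℕ) : ℝ)⁻¹ ∧ 1 - ((p : ℕ) : ℝ)⁻¹ ≤ 1 :=
    fun p hp => ⟨sub_nonneg.2 (inv_le_one_of_one_le₀
      (by exact_mod_cast (Nat.prime_of_mem_primeFactors hp).one_le)),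
      sub_le_self _ (inv_nonneg.2 (Nat.cast_nonneg p))⟩
  have hsub : a.primeFactors \ (deficit a v).primeFactors ⊆ v.primeFactors := fun p hp => by
    simp only [mem_sdiff, mem_primeFactors_iff_factorization, factorization_deficit hv ha] at hp
    rw [mem_primeFactors_iff_factorization]
    omega
  rw [← prod_sdiff hsub]
  simp only [one_div]
  exact mul_le_of_le_one_left (prod_nonneg fun p hp => (h01 p (hsub hp)).1)
    (prod_le_one (fun p hp => (h01 p (mem_sdiff.1 hp).1).1) fun p hp =>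
      (h01 p (mem_sdiff.1 hp).1).2)

/-- The dyadic block of a number. -/
def block (a : ℕ) (f : ℕ → ℝ) (v : ℕ) : ℕ × ℕ :=
  (Nat.log 2 (excess a v), Nat.log 2 ⌊(f v * (deficit a v : ℕ))⁻¹⌋₊)

/-- The constant of a block. -/
def blockConst : ℝ := 2 * Real.exp 648 * Real.exp 1300

open Classical in
/-- The numbers which occur in some pair. -/
def activeSet (a : ℕ) (f : ℕ → ℝ) (V : Finset ℕ) : Finset ℕ :=
  V.filter fun v => 0 < f v ∧ f v * (deficit a v : ℕ) ≤ 1

theorem block_mass_le {t a : ℕ} (ht : 1 ≤ t) (ha : 0 < a) {f : ℕ → ℝ}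
    {V : Finset ℕ} (hV : ∀ v ∈ V, 0 < v) (b : ℕ × ℕ) :
    ∑ v ∈ (activeSet a f V).filter (fun v => block a f v = b), mu f v * pairWeight t v a ^ 4 ≤
      blockConst * ((2 : ℝ) ^ b.1 / 2 ^ b.2) := by
  obtain ⟨B, hB⟩ : ∃ B, B = (activeSet a f V).filter (fun v => block a f v = b) := ⟨_, rfl⟩
  have hBv : ∀ v ∈ B, 0 < v := fun v hv => by
    rw [hB, mem_filter, activeSet, mem_filter] at hv; exact hV v hv.1.1
  obtain ⟨G, hG⟩ : ∃ G : ℕ × ℕ → ℝ, G = fun q => fourWeight t q.1 * (fourWeight t q.2 / q.2 *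
      ∏ p ∈ a.primeFactors \ q.2.primeFactors, (1 - 1 / (p : ℝ))) := ⟨_, rfl⟩
  have hρ : ∀ q : ℕ, (0 : ℝ) ≤ ∏ p ∈ a.primeFactors \ q.primeFactors, (1 - 1 / (p : ℝ)) :=
    fun q => prod_nonneg fun p hp => sub_nonneg.2 (div_le_one_of_le₀
      (by exact_mod_cast (Nat.prime_of_mem_primeFactors (mem_sdiff.1 hp).1).one_le)
      (Nat.cast_nonneg p))
  have hG0 : ∀ q, 0 ≤ G q := fun q => by
    rw [hG]
    exact mul_nonneg (fourWeight_nonneg _ _)
      (mul_nonneg (div_nonneg (fourWeight_nonneg _ _) (Nat.cast_nonneg _)) (hρ _))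
  have hone : ∀ v ∈ B, mu f v * pairWeight t v a ^ 4 ≤
      ((2 : ℝ) ^ b.2)⁻¹ * G (excess a v, deficit a v) := by
    intro v hv
    have hv' := hv
    rw [hB, mem_filter, activeSet, mem_filter] at hv'
    obtain ⟨⟨-, hf0, hf1⟩, hb⟩ := hv'
    have hd : (0 : ℝ) < (deficit a v : ℕ) := Nat.cast_pos.2 (deficit_pos ha)
    have hfl : ⌊(f v * (deficit a v : ℕ))⁻¹⌋₊ ≠ 0 :=
      (Nat.floor_pos.2 (one_le_inv_iff₀.2 ⟨mul_pos hf0 hd, hf1⟩)).ne'
    have h2 : (2 : ℝ) ^ b.2 ≤ (f v * (deficit a v : ℕ))⁻¹ := by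
      refine le_trans ?_ (Nat.floor_le (inv_nonneg.2 (mul_nonneg hf0.le hd.le)))
      rw [← hb]
      exact_mod_cast Nat.pow_log_le_self 2 hfl
    have hfv : f v ≤ ((2 : ℝ) ^ b.2)⁻¹ / (deficit a v : ℕ) := by
      rw [le_div_iff₀ hd]
      exact (le_inv_comm₀ (by positivity) (mul_pos hf0 hd)).1 h2
    rw [mu, pairWeight_pow_four (hBv v hv) ha, hG]
    refine (mul_le_mul_of_nonneg_right (mul_le_mul hfv (totient_ratio_le (hBv v hv) ha)
      (by positivity) (by positivity)) (mul_nonneg (fourWeight_nonneg _ _)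
        (fourWeight_nonneg _ _))).trans (le_of_eq ?_)
    ring
  rw [← hB]
  refine (sum_le_sum hone).trans ?_
  rw [← mul_sum, ← sum_image (f := G) fun v hv w hw h =>
    excess_deficit_injective (hBv v hv) (hBv w hw) ha (Prod.ext_iff.1 h).1 (Prod.ext_iff.1 h).2]
  have hsub : B.image (fun v => (excess a v, deficit a v)) ⊆
      Icc 1 (2 ^ (b.1 + 1)) ×ˢ a.divisors := by
    intro q hq
    obtain ⟨v, hv, rfl⟩ := mem_image.1 hq
    have hb : block a f v = b := by rw [hB, mem_filter] at hv; exact hv.2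
    refine mem_product.2 ⟨mem_Icc.2 ⟨excess_pos (hBv v hv), ?_⟩,
      Nat.mem_divisors.2 ⟨Nat.div_dvd_of_dvd (Nat.gcd_dvd_right v a), ha.ne'⟩⟩
    rw [← hb]
    exact (Nat.lt_pow_succ_log_self one_lt_two _).le
  refine (mul_le_mul_of_nonneg_left (sum_le_sum_of_subset_of_nonneg hsub fun q _ _ => hG0 q)
    (by positivity)).trans ?_
  have hprod : ∑ q ∈ Icc 1 (2 ^ (b.1 + 1)) ×ˢ a.divisors, G q ≤
      ((2 ^ (b.1 + 1) : ℕ) : ℝ) * Real.exp 648 * Real.exp 1300 := by
    rw [sum_product, hG]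
    simp only [← mul_sum]
    rw [← sum_mul]
    exact mul_le_mul (sum_fourWeight_le ht _) (sum_divisors_le ht ha)
      (sum_nonneg fun d _ => mul_nonneg (div_nonneg (fourWeight_nonneg _ _) (Nat.cast_nonneg _))
        (hρ _)) (by positivity)
  refine (mul_le_mul_of_nonneg_left hprod (by positivity)).trans (le_of_eq ?_)
  rw [blockConst]
  push_cast
  rw [pow_succ]
  field_simp

/-- The ratio of the geometric decay between blocks. -/
def blockRatio : ℝ := Real.sqrt (Real.sqrt (1 / 2))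

theorem blockRatio_lt_one : blockRatio < 1 := by
  rw [blockRatio, Real.sqrt_lt' one_pos, Real.sqrt_lt' (by norm_num)]
  norm_num

/-- The constant of the bound. -/
def singleConst : ℝ := Real.sqrt blockConst / (1 - blockRatio) ^ 2

theorem singleConst_nonneg : 0 ≤ singleConst := div_nonneg (Real.sqrt_nonneg _) (sq_nonneg _)

/-- The kernel between blocks. -/
def blockKernel (b c : ℕ × ℕ) : ℝ :=
  if c.1 ≤ b.2 ∧ b.1 ≤ c.2 then blockRatio ^ ((b.2 - c.1) + (c.2 - b.1)) else 0

theorem blockKernel_nonneg (b c : ℕ × ℕ) : 0 ≤ blockKernel b c := by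
  rw [blockKernel]
  split_ifs
  · exact pow_nonneg (Real.sqrt_nonneg _) _
  · exact le_rfl

theorem blockKernel_comm (b c : ℕ × ℕ) : blockKernel b c = blockKernel c b := by
  rw [blockKernel, blockKernel]
  simp only [and_comm (a := c.1 ≤ b.2), add_comm (b.2 - c.1)]

theorem blockKernel_row (b : ℕ × ℕ) (s : Finset (ℕ × ℕ)) :
    ∑ c ∈ s, blockKernel b c ≤ 1 / (1 - blockRatio) ^ 2 := by
  have hr0 : 0 ≤ blockRatio := Real.sqrt_nonneg _
  obtain ⟨m, hm⟩ : ∃ m : ℕ × ℕ → ℕ × ℕ, m = fun c => (b.2 - c.1, c.2 - b.1) := ⟨_, rfl⟩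
  obtain ⟨u, hu⟩ : ∃ u, u = s.filter fun c => c.1 ≤ b.2 ∧ b.1 ≤ c.2 := ⟨_, rfl⟩
  have hinj : Set.InjOn m (u : Set (ℕ × ℕ)) := by
    intro c hc d hd h
    rw [mem_coe, hu, mem_filter] at hc hd
    rw [hm] at h
    simp only [Prod.mk.injEq] at h
    ext <;> omega
  calc ∑ c ∈ s, blockKernel b c = ∑ c ∈ u, blockRatio ^ ((m c).1 + (m c).2) := by
        rw [hu, hm, sum_filter]; rfl
    _ = ∑ q ∈ u.image m, blockRatio ^ (q.1 + q.2) :=
        (sum_image (f := fun q : ℕ × ℕ => blockRatio ^ (q.1 + q.2)) hinj).symm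
    _ ≤ ∑ q ∈ (u.image m).image Prod.fst ×ˢ (u.image m).image Prod.snd,
          blockRatio ^ (q.1 + q.2) :=
        sum_le_sum_of_subset_of_nonneg (fun q hq => mem_product.2
          ⟨mem_image_of_mem _ hq, mem_image_of_mem _ hq⟩) fun q _ _ => pow_nonneg hr0 _
    _ = (∑ i ∈ (u.image m).image Prod.fst, blockRatio ^ i) *
          ∑ j ∈ (u.image m).image Prod.snd, blockRatio ^ j := by
        rw [sum_mul_sum, sum_product]; simp only [pow_add]
    _ ≤ 1 / (1 - blockRatio) * (1 / (1 - blockRatio)) :=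
        mul_le_mul (sum_pow_image hr0 blockRatio_lt_one _ id (Set.injOn_id _))
          (sum_pow_image hr0 blockRatio_lt_one _ id (Set.injOn_id _))
          (sum_nonneg fun j _ => pow_nonneg hr0 _)
          (one_div_nonneg.2 (by linarith [blockRatio_lt_one]))
    _ = _ := by rw [div_mul_div_comm, one_mul, sq]

/-- The weighted mass of a block. -/
theorem block_weighted_le {t a : ℕ} (ht : 1 ≤ t) (ha : 0 < a) {f : ℕ → ℝ} (hf : ∀ v, 0 ≤ f v)
    {V : Finset ℕ} (hV : ∀ v ∈ V, 0 < v) (b : ℕ × ℕ) :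
    ∑ v ∈ (activeSet a f V).filter (fun v => block a f v = b), mu f v * pairWeight t v a ≤
      Real.sqrt (Real.sqrt (blockConst * ((2 : ℝ) ^ b.1 / 2 ^ b.2))) *
        pw (mass f ((activeSet a f V).filter fun v => block a f v = b)) := by
  obtain ⟨B, hB⟩ : ∃ B, B = (activeSet a f V).filter (fun v => block a f v = b) := ⟨_, rfl⟩
  have h4 := block_mass_le (f := f) ht ha hV b
  rw [← hB] at h4 ⊢
  obtain ⟨c, hc⟩ : ∃ c : ℕ → ℝ,
      c = fun v => Real.sqrt (Real.sqrt (mu f v)) * pairWeight t v a := ⟨_, rfl⟩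
  have hcv : ∀ v, c v * pw (mu f v) = mu f v * pairWeight t v a := fun v => by
    rw [hc, pw]
    calc Real.sqrt (Real.sqrt (mu f v)) * pairWeight t v a *
          (Real.sqrt (mu f v) * Real.sqrt (Real.sqrt (mu f v)))
        = (Real.sqrt (Real.sqrt (mu f v)) * Real.sqrt (Real.sqrt (mu f v))) *
            Real.sqrt (mu f v) * pairWeight t v a := by ring
      _ = _ := by rw [Real.mul_self_sqrt (Real.sqrt_nonneg _), Real.mul_self_sqrt (mu_nonneg hf v)]
  have hc4 : ∀ v, c v ^ 4 = mu f v * pairWeight t v a ^ 4 := fun v => by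
    rw [hc, mul_pow, show (4 : ℕ) = 2 * 2 from rfl, pow_mul (Real.sqrt _),
      Real.sq_sqrt (Real.sqrt_nonneg _), Real.sq_sqrt (mu_nonneg hf v)]
  have hh := holder_pw B (b := c) (x := mu f) (fun v _ => by
    rw [hc]; exact mul_nonneg (Real.sqrt_nonneg _) (pairWeight_nonneg t v a))
    fun v _ => mu_nonneg hf v
  simp only [hcv, hc4] at hh
  have hm : 0 ≤ mass f B := mass_nonneg hf B
  have hK : 0 ≤ blockConst * ((2 : ℝ) ^ b.1 / 2 ^ b.2) := by unfold blockConst; positivity
  refine le_of_pow_le_pow_left₀ (by norm_num : (4 : ℕ) ≠ 0)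
    (mul_nonneg (Real.sqrt_nonneg _) (pw_nonneg _)) ?_
  rw [mul_pow, pw_pow_four hm, show (4 : ℕ) = 2 * 2 from rfl, pow_mul (Real.sqrt _),
    Real.sq_sqrt (Real.sqrt_nonneg _), Real.sq_sqrt hK]
  exact hh.trans (mul_le_mul_of_nonneg_right h4 (pow_nonneg hm 3))

open Classical in
/-- **The pairs agreeing with `a`.** -/
theorem single_sum_le {t a : ℕ} (ht : 1 ≤ t) (ha : 0 < a) {f g : ℕ → ℝ} (hf : ∀ v, 0 ≤ f v)
    (hg : ∀ w, 0 ≤ g w) {V W : Finset ℕ} (hV : ∀ v ∈ V, 0 < v) (hW : ∀ w ∈ W, 0 < w) :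
    ∑ v ∈ V, ∑ w ∈ W, (if Single a v w then pairTerm t f g v w else 0) ≤
      singleConst * (pw (mass f V) * pw (mass g W)) := by
  obtain ⟨P, hP⟩ : ∃ P : (ℕ → ℝ) → ℕ → ℝ, P = fun h v => mu h v * pairWeight t v a := ⟨_, rfl⟩
  have hP0 : ∀ (h : ℕ → ℝ), (∀ x, 0 ≤ h x) → ∀ v, 0 ≤ P h v := fun h hh v => by
    rw [hP]; exact mul_nonneg (mu_nonneg hh v) (pairWeight_nonneg t v a)
  obtain ⟨R, hR⟩ : ∃ R : ℕ → ℕ → Prop, R = fun v w =>
      (block a g w).1 ≤ (block a f v).2 ∧ (block a f v).1 ≤ (block a g w).2 := ⟨_, rfl⟩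
  have hfloor : ∀ (h : ℕ → ℝ) (v w n : ℕ), 0 < v → 0 < w → 0 < h v → Single a v w →
      h v * w ≤ (Nat.gcd v w : ℕ) → n = excess a w →
        h v * (deficit a v : ℕ) ≤ 1 ∧ n ≤ ⌊(h v * (deficit a v : ℕ))⁻¹⌋₊ := by
    intro h v w n hv hw hpos hs hcond hn
    have hgpos : (0 : ℝ) < (Nat.gcd v w : ℕ) := Nat.cast_pos.2 (Nat.gcd_pos_of_pos_left w hv)
    have hle : ((Nat.gcd v w : ℕ) : ℝ) * (deficit a v : ℕ) * (excess a w : ℕ) ≤ w := by
      exact_mod_cast gcd_mul_deficit_mul_excess_le hv hw ha hs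
    have h1 : h v * (deficit a v : ℕ) * (excess a w : ℕ) ≤ 1 := by
      refine le_of_mul_le_mul_left ?_ hgpos
      rw [mul_one]
      refine le_trans ?_ hcond
      refine le_of_eq_of_le (by ring) (mul_le_mul_of_nonneg_left hle hpos.le)
    have hd : 0 < h v * (deficit a v : ℕ) := mul_pos hpos (Nat.cast_pos.2 (deficit_pos ha))
    have he : (1 : ℝ) ≤ (excess a w : ℕ) := by exact_mod_cast excess_pos hw
    refine ⟨(le_mul_of_one_le_right hd.le he).trans h1, hn ▸ Nat.le_floor ?_⟩
    rw [inv_eq_one_div, le_div_iff₀ hd]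
    linarith
  have hterm : ∀ v ∈ V, ∀ w ∈ W, (if Single a v w then pairTerm t f g v w else 0) ≤
      if v ∈ activeSet a f V ∧ w ∈ activeSet a g W ∧ R v w then P f v * P g w else 0 := by
    intro v hv w hw
    have hnn : 0 ≤ if v ∈ activeSet a f V ∧ w ∈ activeSet a g W ∧ R v w then
        P f v * P g w else 0 := by
      split_ifs
      · exact mul_nonneg (hP0 f hf v) (hP0 g hg w)
      · exact le_rfl
    by_cases hs : Single a v w
    swap
    · rw [if_neg hs]; exact hnn
    rw [if_pos hs, pairTerm]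
    split_ifs with hadm hgood
    · rw [hP]
      exact (mul_le_mul_of_nonneg_left (pairWeight_le_mul t a v w)
        (mul_nonneg (mu_nonneg hf v) (mu_nonneg hg w))).trans (le_of_eq (by ring))
    · rcases eq_or_lt_of_le (hf v) with h0 | h0
      · simp [mu, ← h0]
      rcases eq_or_lt_of_le (hg w) with h0' | h0'
      · simp [mu, ← h0']
      exfalso
      refine hgood ?_
      obtain ⟨a1, a2⟩ := hfloor f v w _ (hV v hv) (hW w hw) h0 hs hadm.1 rfl
      obtain ⟨b1, b2⟩ := hfloor g w v _ (hW w hw) (hV v hv) h0' (fun p => (hs p).symm)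
        (by rw [Nat.gcd_comm]; exact hadm.2) rfl
      refine ⟨mem_filter.2 ⟨hv, h0, a1⟩, mem_filter.2 ⟨hw, h0', b1⟩, ?_⟩
      rw [hR]
      simp only [block]
      exact ⟨Nat.log_mono_right a2, Nat.log_mono_right b2⟩
    · exact mul_nonneg (hP0 f hf v) (hP0 g hg w)
    · exact le_rfl
  refine (sum_le_sum fun v hv => sum_le_sum fun w hw => hterm v hv w hw).trans ?_
  obtain ⟨V', hV'⟩ : ∃ V', V' = activeSet a f V := ⟨_, rfl⟩
  obtain ⟨W', hW'⟩ : ∃ W', W' = activeSet a g W := ⟨_, rfl⟩
  have hV's : V' ⊆ V := hV' ▸ filter_subset _ _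
  have hW's : W' ⊆ W := hW' ▸ filter_subset _ _
  calc ∑ v ∈ V, ∑ w ∈ W,
        (if v ∈ activeSet a f V ∧ w ∈ activeSet a g W ∧ R v w then P f v * P g w else 0)
      = ∑ v ∈ V', ∑ w ∈ W', if R v w then P f v * P g w else 0 := by
        rw [← hV', ← hW', ← sum_subset hV's fun v _ hv => sum_eq_zero fun w _ => by simp [hv]]
        refine sum_congr rfl fun v hv => ?_
        rw [← sum_subset hW's fun w _ hw => by simp [hw]]
        exact sum_congr rfl fun w hw => by simp [hv, hw]
    _ = ∑ b ∈ V'.image (block a f), ∑ c ∈ W'.image (block a g),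
          (if c.1 ≤ b.2 ∧ b.1 ≤ c.2 then (∑ v ∈ V'.filter (fun v => block a f v = b), P f v) *
            ∑ w ∈ W'.filter (fun w => block a g w = c), P g w else 0) := by
        rw [← sum_fiberwise_of_maps_to (g := block a f) (t := V'.image (block a f))
          fun v hv => mem_image_of_mem _ hv]
        refine sum_congr rfl fun b _ => ?_
        calc ∑ v ∈ V'.filter (fun v => block a f v = b),
              ∑ w ∈ W', (if R v w then P f v * P g w else 0)
            = ∑ c ∈ W'.image (block a g), ∑ v ∈ V'.filter (fun v => block a f v = b),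
                ∑ w ∈ W'.filter (fun w => block a g w = c),
                  (if R v w then P f v * P g w else 0) := by
              rw [sum_comm (s := W'.image (block a g))]
              refine sum_congr rfl fun v _ => ?_
              rw [sum_fiberwise_of_maps_to fun w hw => mem_image_of_mem _ hw]
          _ = _ := by
              refine sum_congr rfl fun c _ => ?_
              split_ifs with hbc
              · rw [sum_mul_sum]
                refine sum_congr rfl fun v hv => sum_congr rfl fun w hw => if_pos ?_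
                rw [hR]; simp only [(mem_filter.1 hv).2, (mem_filter.1 hw).2]; exact hbc
              · refine sum_eq_zero fun v hv => sum_eq_zero fun w hw => if_neg ?_
                rw [hR]; simp only [(mem_filter.1 hv).2, (mem_filter.1 hw).2]; exact hbc
    _ ≤ ∑ b ∈ V'.image (block a f), ∑ c ∈ W'.image (block a g), Real.sqrt blockConst *
          (blockKernel b c * (pw (mass f (V'.filter fun v => block a f v = b)) *
            pw (mass g (W'.filter fun w => block a g w = c)))) := by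
        refine sum_le_sum fun b _ => sum_le_sum fun c _ => ?_
        rw [blockKernel]
        split_ifs with hbc
        · rw [hP, hV', hW']
          refine (mul_le_mul (block_weighted_le ht ha hf hV b) (block_weighted_le ht ha hg hW c)
            (sum_nonneg fun w _ => mul_nonneg (mu_nonneg hg w) (pairWeight_nonneg t w a))
            (mul_nonneg (Real.sqrt_nonneg _) (pw_nonneg _))).trans (le_of_eq ?_)
          have hK : 0 ≤ blockConst := by unfold blockConst; positivity
          have key : Real.sqrt (Real.sqrt (blockConst * ((2 : ℝ) ^ b.1 / 2 ^ b.2))) *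
              Real.sqrt (Real.sqrt (blockConst * ((2 : ℝ) ^ c.1 / 2 ^ c.2))) =
              Real.sqrt blockConst * blockRatio ^ ((b.2 - c.1) + (c.2 - b.1)) := by
            refine (pow_left_inj₀ (mul_nonneg (Real.sqrt_nonneg _) (Real.sqrt_nonneg _))
              (mul_nonneg (Real.sqrt_nonneg _) (pow_nonneg (Real.sqrt_nonneg _) _))
              (by norm_num : (4 : ℕ) ≠ 0)).1 ?_
            have hq : ∀ x : ℝ, 0 ≤ x → Real.sqrt (Real.sqrt x) ^ 4 = x := fun x hx => by
              rw [show (4 : ℕ) = 2 * 2 from rfl, pow_mul, Real.sq_sqrt (Real.sqrt_nonneg _),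
                Real.sq_sqrt hx]
            rw [mul_pow, mul_pow, hq _ (mul_nonneg hK (by positivity)),
              hq _ (mul_nonneg hK (by positivity)), ← pow_mul, mul_comm _ 4, pow_mul,
              hq _ (show (0 : ℝ) ≤ 1 / 2 by norm_num),
              show Real.sqrt blockConst ^ 4 = blockConst ^ 2 by
                rw [show (4 : ℕ) = 2 * 2 from rfl, pow_mul, Real.sq_sqrt hK], one_div_pow]
            have e : (2 : ℝ) ^ (b.2 - c.1 + (c.2 - b.1)) * (2 ^ b.1 * 2 ^ c.1) =
                2 ^ b.2 * 2 ^ c.2 := by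
              rw [← pow_add, ← pow_add, ← pow_add]; congr 1; omega
            field_simp
            linear_combination blockConst ^ 2 * e
          rw [mul_mul_mul_comm, key]
          ring
        · rw [zero_mul, mul_zero]
    _ ≤ Real.sqrt blockConst * (1 / (1 - blockRatio) ^ 2 *
          (pw (∑ b ∈ V'.image (block a f), mass f (V'.filter fun v => block a f v = b)) *
            pw (∑ c ∈ W'.image (block a g), mass g (W'.filter fun w => block a g w = c)))) := by
        simp only [← mul_sum]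
        exact mul_le_mul_of_nonneg_left (schur_pw _ _ blockKernel_nonneg
          (one_div_nonneg.2 (sq_nonneg _)) (fun b _ => blockKernel_row b _)
          (fun c _ => le_of_eq_of_le (sum_congr rfl fun b _ => blockKernel_comm b c)
            (blockKernel_row c _))
          (fun b _ => mass_nonneg hf _) (fun c _ => mass_nonneg hg _)) (Real.sqrt_nonneg _)
    _ ≤ _ := by
        simp only [mass]
        rw [sum_fiberwise_of_maps_to fun v hv => mem_image_of_mem _ hv,
          sum_fiberwise_of_maps_to fun w hw => mem_image_of_mem _ hw, ← mul_assoc,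
          mul_one_div, singleConst]
        refine mul_le_mul_of_nonneg_left (mul_le_mul (pw_mono ?_) (pw_mono ?_) (pw_nonneg _)
          (pw_nonneg _)) (div_nonneg (Real.sqrt_nonneg _) (sq_nonneg _))
        · exact sum_le_sum_of_subset_of_nonneg hV's fun v _ _ => mu_nonneg hf v
        · exact sum_le_sum_of_subset_of_nonneg hW's fun w _ _ => mu_nonneg hg w

end FA.DuffinSchaeffer
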