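import Fermat.Agent.DuffinSchaeffer.Moment
import Fermat.Agent.Khintchine.Main

/-!
# The conjecture of Duffin and Schaeffer

If `∑ ψ q φ q / q` diverges, almost every real number has infinitely many reduced approximations
`p / q` closer than `ψ q / q`, and almost none if it converges. The second moment bounds the limit
superior of the approximation sets from below; Gallagher's law makes its measure one.
-/

set_option autoImplicit false

noncomputable section

namespace FA.DuffinSchaeffer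

open Finset MeasureTheory Metric Filter
open FA.Khintchine (frac numer dsSet card_numer measureReal_ball measurableSet_dsSet
  norm_coe_le_abs)
open scoped Topology

theorem self_le_totient_sq (q : ℕ) : q ≤ (if Even q then 2 else 1) * q.totient ^ 2 := by
  induction q using Nat.recOnPosPrimePosCoprime with
  | prime_pow p n hp hn =>
    rw [Nat.totient_prime_pow hp hn]
    obtain ⟨m, rfl⟩ : ∃ m, n = m + 1 := ⟨n - 1, by omega⟩
    rw [Nat.add_sub_cancel]
    rcases hp.eq_two_or_odd' with rfl | hodd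
    · rw [if_pos ((Nat.even_pow' (by omega)).2 even_two), mul_pow, ← pow_mul,
        show 2 - 1 = 1 from rfl, one_pow, mul_one, ← pow_succ']
      exact Nat.pow_le_pow_right two_pos (by omega)
    · rw [if_neg (Nat.not_even_iff_odd.2 hodd.pow), one_mul, mul_pow, ← pow_mul]
      have h3 : 3 ≤ p := by
        rcases Nat.lt_or_ge p 3 with h | h
        · have := hp.two_le
          interval_cases p
          exact absurd hodd (by decide)
        · exact h
      calc p ^ (m + 1) ≤ p ^ (m * 2) * p := by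
            rw [pow_succ]
            exact Nat.mul_le_mul_right p (Nat.pow_le_pow_right hp.pos (by omega))
        _ ≤ p ^ (m * 2) * (p - 1) ^ 2 := by
            refine Nat.mul_le_mul_left _ ?_
            obtain ⟨r, rfl⟩ : ∃ r, p = r + 3 := ⟨p - 3, by omega⟩
            rw [show r + 3 - 1 = r + 2 from rfl]
            nlinarith
  | zero => simp
  | one => simp
  | coprime a b _ _ hab iha ihb =>
    rw [Nat.totient_mul hab, mul_pow]
    refine (Nat.mul_le_mul iha ihb).trans ?_
    rw [mul_mul_mul_comm]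
    refine Nat.mul_le_mul_right _ ?_
    by_cases ha : Even a <;> by_cases hb : Even b
    · exact absurd (hab ▸ Nat.dvd_gcd (even_iff_two_dvd.1 ha) (even_iff_two_dvd.1 hb)) (by decide)
    all_goals simp [ha, hb, Nat.even_mul]

theorem half_lt_mu_sqrt {q : ℕ} (hq : 0 < q) : 1 / 2 < mu (fun n => Real.sqrt n) q := by
  have hq' : (0 : ℝ) < q := Nat.cast_pos.2 hq
  have h : (q : ℝ) ≤ 2 * (q.totient : ℝ) ^ 2 := by
    have := self_le_totient_sq q
    have h2 : (if Even q then 2 else 1) * q.totient ^ 2 ≤ 2 * q.totient ^ 2 :=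
      Nat.mul_le_mul_right _ (by split_ifs <;> omega)
    exact_mod_cast this.trans h2
  obtain ⟨r, hr⟩ : ∃ r, r = Real.sqrt q := ⟨_, rfl⟩
  have hr0 : 0 < r := hr ▸ Real.sqrt_pos.2 hq'
  have hr2 : r ^ 2 = q := hr ▸ Real.sq_sqrt hq'.le
  simp only [mu, ← hr]
  rw [← hr2, ← mul_div_assoc, lt_div_iff₀ (by positivity)]
  have : r < 2 * (q.totient : ℝ) :=
    lt_of_pow_lt_pow_left₀ 2 (by positivity) (by nlinarith)
  nlinarith

/-- Divergence survives the truncation at `√ q`. -/
theorem not_summable_truncated {ψ : ℕ → ℝ} (h : ¬Summable (mu ψ)) :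
    ¬Summable (mu fun q => min (ψ q) (Real.sqrt q)) := by
  intro hs
  refine h ?_
  have hev : mu (fun q => min (ψ q) (Real.sqrt q)) =ᶠ[atTop] mu ψ := by
    filter_upwards [hs.tendsto_atTop_zero.eventually
        (gt_mem_nhds (show (0 : ℝ) < 1 / 2 by norm_num)),
      eventually_gt_atTop 0] with q hq hq0
    rcases le_total (ψ q) (Real.sqrt q) with h1 | h1
    · simp [mu, min_eq_left h1]
    · exfalso
      have h2 := half_lt_mu_sqrt hq0
      simp only [mu, min_eq_right h1] at hq h2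
      linarith
  obtain ⟨N, hN⟩ := eventually_atTop.1 hev
  exact (summable_nat_add_iff N).1
    (((summable_nat_add_iff N).2 hs).congr fun n => hN _ (Nat.le_add_left N n))

/-- **The circle form.** -/
theorem ae_mem_addWellApproximable_of_not_summable {ψ : ℕ → ℝ} (h0 : ∀ q, 0 ≤ ψ q)
    (h1 : ∀ q, ψ q ≤ Real.sqrt q) (hdiv : ¬Summable (mu ψ)) :
    ∀ᵐ x ∂(volume : Measure UnitAddCircle),
      x ∈ addWellApproximable UnitAddCircle fun q => ψ q / q := by
  obtain ⟨A, hA, hmoment⟩ := exists_second_moment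
  have hdiv' := (not_summable_iff_tendsto_nat_atTop_of_nonneg (mu_nonneg h0)).1 hdiv
  have hδ : Tendsto (fun q => ψ q / (q : ℝ)) atTop (𝓝 0) := by
    refine squeeze_zero (fun q => div_nonneg (h0 q) (Nat.cast_nonneg q))
      (fun q => (div_le_div_of_nonneg_right (h1 q) (Nat.cast_nonneg q)).trans
        (le_of_eq Real.sqrt_div_self)) ?_
    exact (Real.tendsto_sqrt_atTop.comp tendsto_natCast_atTop_atTop).inv_tendsto_atTop
  refine (AddCircle.addWellApproximable_ae_empty_or_univ _ hδ).resolve_left fun hnull => ?_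
  have hlow : ENNReal.ofReal (2 / (A + 1)) ≤
      (volume : Measure UnitAddCircle) (limsup (dsSet ψ) atTop) := by
    refine Khintchine.ofReal_le_measure_limsup (measurableSet_dsSet ψ) fun n₀ => ?_
    obtain ⟨N, hN, hbig⟩ := ((eventually_ge_atTop (n₀ + 4)).and
      (hdiv'.eventually_ge_atTop (∑ q ∈ range (n₀ + 4), mu ψ q + 1))).exists
    obtain ⟨V, hV⟩ : ∃ V, V = Ico (n₀ + 4) N := ⟨_, rfl⟩
    have hV4 : ∀ q ∈ V, 4 ≤ q ∧ n₀ ≤ q := fun q hq => by rw [hV, mem_Ico] at hq; omega
    refine ⟨V, fun q hq => (hV4 q hq).2, ?_⟩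
    obtain ⟨M, hM⟩ : ∃ M, M = mass ψ V := ⟨_, rfl⟩
    have hM1 : 1 ≤ M := by
      rw [hM, mass, hV]
      linarith [sum_range_add_sum_Ico (mu ψ) hN]
    obtain ⟨s, hs⟩ : ∃ s : Finset (Σ _ : ℕ, ℕ), s = V.sigma fun q => numer q := ⟨_, rfl⟩
    obtain ⟨E, hE⟩ : ∃ E : (Σ _ : ℕ, ℕ) → Set UnitAddCircle,
        E = fun i => ball (frac i.1 i.2) (ψ i.1 / i.1) := ⟨_, rfl⟩
    have hfirst : ∑ i ∈ s, (volume : Measure UnitAddCircle).real (E i) = 2 * M := by
      rw [hs, sum_sigma, hM, mass, mul_sum]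
      refine sum_congr rfl fun q hq => ?_
      have hq4 : (4 : ℝ) ≤ q := by exact_mod_cast (hV4 q hq).1
      have hle : 2 * (ψ q / (q : ℝ)) ≤ 1 := by
        rw [← mul_div_assoc, div_le_one (by linarith)]
        nlinarith [h1 q, Real.sqrt_nonneg (q : ℝ), Real.sq_sqrt (q.cast_nonneg (α := ℝ))]
      simp only [hE]
      rw [sum_congr rfl fun a _ => measureReal_ball (frac q a) (ψ q / q), sum_const, card_numer,
        nsmul_eq_mul, max_eq_right (le_min zero_le_one (mul_nonneg zero_le_two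
          (div_nonneg (h0 q) q.cast_nonneg))), min_eq_right hle, mu]
      ring
    have hsecond : ∑ i ∈ s, ∑ j ∈ s, (volume : Measure UnitAddCircle).real (E i ∩ E j) ≤
        (A + 1) * (2 * M ^ 2) := by
      have h := hmoment ψ h0 V fun q hq => lt_of_lt_of_le (by norm_num) (hV4 q hq).1
      rw [← hM] at h
      refine (le_of_eq ?_).trans (h.trans ?_)
      · simp only [hs, sum_sigma, hE, ballSum]
        exact sum_congr rfl fun v _ => sum_comm
      · nlinarith [mul_le_mul_of_nonneg_left hM1 (by linarith : (0 : ℝ) ≤ M)]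
    have hsub : (⋃ i ∈ s, E i) ⊆ ⋃ q ∈ V, dsSet ψ q := by
      refine Set.iUnion₂_subset fun i hi => ?_
      rw [hs, mem_sigma] at hi
      refine Set.Subset.trans ?_ (Set.subset_biUnion_of_mem (u := fun q => dsSet ψ q) hi.1)
      rw [hE]
      exact Set.subset_biUnion_of_mem (u := fun a => ball (frac i.1 a) (ψ i.1 / i.1)) hi.2
    have hCE := Khintchine.sq_sum_measureReal_le (μ := (volume : Measure UnitAddCircle)) s
      (A := E) fun i => hE ▸ isOpen_ball.measurableSet
    rw [hfirst] at hCE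
    refine le_trans ?_ (measureReal_mono hsub (measure_ne_top _ _))
    rw [div_le_iff₀ (by positivity)]
    have hU : 0 ≤ (volume : Measure UnitAddCircle).real (⋃ i ∈ s, E i) := measureReal_nonneg
    refine le_of_mul_le_mul_right ?_ (show (0 : ℝ) < 2 * M ^ 2 by positivity)
    nlinarith [mul_le_mul_of_nonneg_left hsecond hU]
  refine (ENNReal.ofReal_pos.2 (show 0 < 2 / (A + 1) by positivity)).ne' (le_antisymm
    (hlow.trans (le_of_eq ?_)) zero_le)
  refine measure_mono_null (fun x hx => ?_) (ae_iff.1 hnull)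
  simp only [Set.mem_ofPred_eq, not_not, addWellApproximable]
  rw [← Nat.cofinite_eq_atTop, cofinite.limsup_set_eq] at hx
  rw [← Nat.cofinite_eq_atTop, cofinite.blimsup_set_eq]
  refine Set.Infinite.mono (fun q hq => ?_) (hx.sdiff (Set.finite_singleton 0))
  simp only [Set.mem_sdiff, Set.mem_ofPred_eq, Set.mem_singleton_iff] at hq
  exact ⟨Nat.pos_of_ne_zero hq.2,
    Khintchine.dsSet_eq_approxAddOrderOf (Nat.pos_of_ne_zero hq.2) ▸ hq.1⟩

/-- **The conjecture of Duffin and Schaeffer.** -/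
theorem ae_infinite_of_not_summable {ψ : ℕ → ℝ} (h0 : ∀ q, 0 ≤ ψ q) (hdiv : ¬Summable (mu ψ)) :
    ∀ᵐ x : ℝ, {q : ℕ | ∃ p : ℤ, Int.gcd p q = 1 ∧ |x - p / q| < ψ q / q}.Infinite := by
  have h := ae_mem_addWellApproximable_of_not_summable
    (fun q => le_min (h0 q) (Real.sqrt_nonneg _)) (fun q => min_le_right _ _)
    (not_summable_truncated hdiv)
  filter_upwards [Khintchine.ae_real_of_ae_circle h] with x hx
  rw [UnitAddCircle.mem_addWellApproximable_iff] at hx
  refine hx.mono fun q hq => ?_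
  obtain ⟨m, hm, hg, hlt⟩ := hq
  rw [← AddCircle.coe_sub, AddCircle.norm_eq] at hlt
  simp only [one_mul, mul_one, inv_one] at hlt
  obtain ⟨z, hz⟩ : ∃ z : ℤ, z = round (x - (m : ℝ) / q) := ⟨_, rfl⟩
  rw [← hz] at hlt
  refine ⟨m + z * q, ?_, ?_⟩
  · rw [Int.gcd_add_mul_right_left]
    exact hg
  · refine lt_of_eq_of_lt (congrArg abs ?_) (hlt.trans_le
      (div_le_div_of_nonneg_right (min_le_left _ _) q.cast_nonneg))
    have hq : (q : ℝ) ≠ 0 := Nat.cast_ne_zero.2 (by omega)
    push_cast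
    field_simp
    ring

/-- **The converse.** -/
theorem ae_finite_of_summable {ψ : ℕ → ℝ} (h0 : ∀ q, 0 ≤ ψ q) (hs : Summable (mu ψ)) :
    ∀ᵐ x : ℝ, {q : ℕ | ∃ p : ℤ, Int.gcd p q = 1 ∧ |x - p / q| < ψ q / q}.Finite := by
  have hμ : ∀ q, (volume : Measure UnitAddCircle) (dsSet ψ q) ≤ ENNReal.ofReal (2 * mu ψ q) := by
    intro q
    rw [← ofReal_measureReal (measure_ne_top _ _)]
    refine ENNReal.ofReal_le_ofReal ((measureReal_biUnion_finset_le _ _).trans ?_)
    refine (sum_le_sum (g := fun _ => 2 * (ψ q / (q : ℝ))) fun a _ => ?_).trans (le_of_eq ?_)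
    · rw [measureReal_ball]
      exact max_le (mul_nonneg zero_le_two (div_nonneg (h0 q) q.cast_nonneg)) (min_le_right _ _)
    · rw [sum_const, card_numer, nsmul_eq_mul, mu]
      ring
  have hBC : ∀ᵐ y ∂(volume : Measure UnitAddCircle), ∀ᶠ q in atTop, y ∉ dsSet ψ q :=
    ae_eventually_notMem (ne_top_of_le_ne_top
      (ENNReal.ofReal_tsum_of_nonneg (fun q => by linarith [mu_nonneg h0 q]) (hs.mul_left 2) ▸
        ENNReal.ofReal_ne_top) (ENNReal.tsum_le_tsum hμ))
  filter_upwards [Khintchine.ae_real_of_ae_circle hBC] with x hx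
  obtain ⟨Q, hQ⟩ := eventually_atTop.1 hx
  refine (range Q).finite_toSet.subset fun q hq => ?_
  obtain ⟨p, hpq, hlt⟩ := hq
  have hq0 : 0 < q := by
    rcases Nat.eq_zero_or_pos q with rfl | h
    · rw [Nat.cast_zero, div_zero, div_zero, sub_zero] at hlt
      exact absurd hlt (not_lt.2 (abs_nonneg x))
    · exact h
  have hq' : (0 : ℝ) < q := Nat.cast_pos.2 hq0
  by_contra hc
  rw [mem_coe, mem_range, not_lt] at hc
  refine hQ q hc ?_
  obtain ⟨m, hm⟩ : ∃ m : ℕ, (m : ℤ) = p % q :=
    ⟨(p % q).toNat, Int.toNat_of_nonneg (Int.emod_nonneg p (by omega))⟩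
  simp only [dsSet, Set.mem_iUnion]
  refine ⟨m, mem_filter.2 ⟨mem_range.2 ?_, ?_⟩, ?_⟩
  · have := Int.emod_lt_of_pos p (show (0 : ℤ) < q by omega)
    omega
  · rw [Nat.coprime_iff_gcd_eq_one, ← Int.gcd_natCast_natCast, hm, Int.emod_def,
      sub_eq_add_neg, ← mul_neg, Int.gcd_add_mul_left_left]
    exact hpq
  · rw [mem_ball, dist_eq_norm, frac, ← AddCircle.coe_sub]
    have e : ((x - (m : ℝ) / q : ℝ) : UnitAddCircle) = ((x - p / q : ℝ) : UnitAddCircle) := by
      have hmod : (m : ℝ) = (p : ℝ) - q * ((p / q : ℤ) : ℝ) := by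
        have h2 : (m : ℤ) = p - q * (p / q) := by rw [hm]; exact Int.emod_def p q
        exact_mod_cast h2
      rw [← sub_eq_zero, ← AddCircle.coe_sub, hmod, AddCircle.coe_eq_zero_iff]
      refine ⟨p / q, ?_⟩
      rw [zsmul_one]
      field_simp
      ring
    rw [e]
    exact (norm_coe_le_abs _).trans_lt hlt

end FA.DuffinSchaeffer
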