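import Fermat.Agent.DuffinSchaeffer.Flat
import Fermat.Agent.MertensThird.Constant
import Mathlib.NumberTheory.Chebyshev
import Mathlib.NumberTheory.EulerProduct.Basic

/-!
# The mean of `n / φ n` over the numbers coprime to `N`

`∑ n / φ n ≪ X ∏ (1 - 1/p)` over the `n ≤ X` coprime to `N`, the product over `p ≤ X` dividing `N`.
The logarithm method with Chebyshev's bound reduces this to the sum of `1 / φ n`, which the Euler
product and Mertens' theorem bound.
-/

set_option autoImplicit false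

noncomputable section

namespace FA.DuffinSchaeffer

open Finset
open FA.ErdosKac (primesUpTo mem_primesUpTo)
open ArithmeticFunction (vonMangoldt vonMangoldt_sum vonMangoldt_nonneg)

/-- `n / φ n` on the numbers coprime to `N`. -/
def coprimeRatio (N n : ℕ) : ℝ := if n.Coprime N then (n : ℝ) / n.totient else 0

theorem coprimeRatio_nonneg (N n : ℕ) : 0 ≤ coprimeRatio N n := by
  rw [coprimeRatio]; split_ifs <;> positivity

theorem coprimeRatio_mul_le {N d m : ℕ} (hd : 0 < d) (hm : 0 < m) :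
    coprimeRatio N (d * m) ≤ coprimeRatio N d * coprimeRatio N m := by
  by_cases h : (d * m).Coprime N
  · rw [coprimeRatio, if_pos h, coprimeRatio, if_pos h.coprime_mul_right, coprimeRatio,
      if_pos h.coprime_mul_left, div_mul_div_comm]
    push_cast
    refine div_le_div_of_nonneg_left (by positivity) (mul_pos (Nat.cast_pos.2
      (Nat.totient_pos.2 hd)) (Nat.cast_pos.2 (Nat.totient_pos.2 hm))) ?_
    exact_mod_cast Nat.totient_super_multiplicative d m
  · rw [coprimeRatio, if_neg h]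
    exact mul_nonneg (coprimeRatio_nonneg N d) (coprimeRatio_nonneg N m)

theorem vonMangoldt_mul_coprimeRatio_le (N d : ℕ) :
    vonMangoldt d * coprimeRatio N d ≤ 2 * vonMangoldt d := by
  by_cases hd : IsPrimePow d
  · rw [mul_comm 2]
    refine mul_le_mul_of_nonneg_left ?_ vonMangoldt_nonneg
    rw [coprimeRatio]
    split_ifs
    · obtain ⟨p, k, hp, hk, rfl⟩ := (isPrimePow_nat_iff d).1 hd
      rw [div_le_iff₀ (Nat.cast_pos.2 (Nat.totient_pos.2 (pow_pos hp.pos k))),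
        Nat.totient_prime_pow hp hk]
      have e : p ^ k = p ^ (k - 1) * p := by rw [← pow_succ]; congr 1; omega
      have h2 := hp.two_le
      exact_mod_cast (show p ^ k ≤ 2 * (p ^ (k - 1) * (p - 1)) by
        rw [e, mul_left_comm]; exact Nat.mul_le_mul_left _ (by omega))
    · exact zero_le_two
  · rw [ArithmeticFunction.vonMangoldt_apply, if_neg hd]
    simp

theorem sum_vonMangoldt_le (Y : ℕ) : ∑ d ∈ Icc 1 Y, vonMangoldt d ≤ (Real.log 4 + 4) * Y := by
  refine le_of_eq_of_le ?_ (Chebyshev.psi_le_const_mul_self Y.cast_nonneg)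
  rw [Chebyshev.psi, Nat.floor_natCast]
  exact sum_congr (by ext; simp only [mem_Icc, mem_Ioc]; omega) fun _ _ => rfl

theorem sum_coprimeRatio_log_le (N X : ℕ) :
    ∑ n ∈ Icc 1 X, coprimeRatio N n * Real.log n ≤
      2 * (Real.log 4 + 4) * X * ∑ m ∈ Icc 1 X, coprimeRatio N m / m := by
  have h1 : ∀ n ∈ Icc 1 X, coprimeRatio N n * Real.log n ≤
      ∑ d ∈ Icc 1 X, if d ∣ n then vonMangoldt d * coprimeRatio N n else 0 := by
    intro n hn
    rw [mem_Icc] at hn
    rw [← vonMangoldt_sum, mul_sum, ← sum_filter]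
    refine le_of_eq_of_le (sum_congr rfl fun d _ => mul_comm _ _)
      (sum_le_sum_of_subset_of_nonneg (fun d hd => ?_) fun d _ _ =>
        mul_nonneg vonMangoldt_nonneg (coprimeRatio_nonneg N n))
    rw [Nat.mem_divisors] at hd
    have := Nat.le_of_dvd (by omega) hd.1
    have := Nat.pos_of_dvd_of_pos hd.1 (by omega)
    exact mem_filter.2 ⟨mem_Icc.2 ⟨by omega, by omega⟩, hd.1⟩
  refine (sum_le_sum h1).trans ?_
  rw [sum_comm]
  have h2 : ∀ d ∈ Icc 1 X,
      ∑ n ∈ Icc 1 X, (if d ∣ n then vonMangoldt d * coprimeRatio N n else 0) ≤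
        ∑ m ∈ Icc 1 X, if d * m ≤ X then 2 * vonMangoldt d * coprimeRatio N m else 0 := by
    intro d hd
    rw [mem_Icc] at hd
    rw [← sum_filter, ← sum_filter]
    have hinj : Set.InjOn (fun n => n / d) ((Icc 1 X).filter (d ∣ ·) : Set ℕ) := by
      intro a ha b hb h
      simp only [coe_filter, Set.mem_ofPred_eq] at ha hb
      rw [← Nat.mul_div_cancel' ha.2, ← Nat.mul_div_cancel' hb.2]
      exact congrArg (d * ·) h
    calc ∑ n ∈ (Icc 1 X).filter (d ∣ ·), vonMangoldt d * coprimeRatio N n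
        ≤ ∑ n ∈ (Icc 1 X).filter (d ∣ ·),
            2 * vonMangoldt d * coprimeRatio N (n / d) := by
          refine sum_le_sum fun n hn => ?_
          rw [mem_filter, mem_Icc] at hn
          have hm : 0 < n / d := Nat.div_pos (Nat.le_of_dvd (by omega) hn.2) (by omega)
          nth_rw 1 [← Nat.mul_div_cancel' hn.2]
          calc vonMangoldt d * coprimeRatio N (d * (n / d))
              ≤ vonMangoldt d * (coprimeRatio N d * coprimeRatio N (n / d)) :=
                mul_le_mul_of_nonneg_left (coprimeRatio_mul_le (by omega) hm) vonMangoldt_nonneg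
            _ ≤ _ := by
                rw [← mul_assoc]
                exact mul_le_mul_of_nonneg_right (vonMangoldt_mul_coprimeRatio_le N d)
                  (coprimeRatio_nonneg N _)
      _ = ∑ m ∈ ((Icc 1 X).filter (d ∣ ·)).image (· / d),
            2 * vonMangoldt d * coprimeRatio N m :=
          (sum_image (f := fun m => 2 * vonMangoldt d * coprimeRatio N m) hinj).symm
      _ ≤ _ := by
          refine sum_le_sum_of_subset_of_nonneg (fun m hm => ?_) fun m _ _ =>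
            mul_nonneg (mul_nonneg zero_le_two vonMangoldt_nonneg) (coprimeRatio_nonneg N m)
          obtain ⟨n, hn, rfl⟩ := mem_image.1 hm
          rw [mem_filter, mem_Icc] at hn
          have := Nat.mul_div_cancel' hn.2
          have := Nat.div_pos (Nat.le_of_dvd (by omega) hn.2) (by omega : 0 < d)
          have := Nat.div_le_self n d
          exact mem_filter.2 ⟨mem_Icc.2 ⟨by omega, by omega⟩, by omega⟩
  refine (sum_le_sum h2).trans ?_
  rw [sum_comm, mul_sum]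
  refine sum_le_sum fun m hm => ?_
  rw [mem_Icc] at hm
  rw [← sum_filter, ← sum_mul, ← mul_sum]
  have h3 : ∑ d ∈ (Icc 1 X).filter (fun d => d * m ≤ X), vonMangoldt d ≤
      (Real.log 4 + 4) * ((X / m : ℕ) : ℝ) := by
    refine le_trans (sum_le_sum_of_subset_of_nonneg (fun d hd => ?_) fun d _ _ =>
      vonMangoldt_nonneg) (sum_vonMangoldt_le _)
    rw [mem_filter, mem_Icc] at hd
    exact mem_Icc.2 ⟨hd.1.1, (Nat.le_div_iff_mul_le (by omega)).2 hd.2⟩
  refine (mul_le_mul_of_nonneg_right (mul_le_mul_of_nonneg_left h3 zero_le_two)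
    (coprimeRatio_nonneg N m)).trans ?_
  have h4 : ((X / m : ℕ) : ℝ) ≤ (X : ℝ) / m := Nat.cast_div_le
  refine (mul_le_mul_of_nonneg_right (mul_le_mul_of_nonneg_left (mul_le_mul_of_nonneg_left h4
    (by positivity)) zero_le_two) (coprimeRatio_nonneg N m)).trans (le_of_eq ?_)
  ring

theorem sum_coprimeRatio_mul_log_le (N X : ℕ) :
    (∑ n ∈ Icc 1 X, coprimeRatio N n) * Real.log X ≤
      (2 * (Real.log 4 + 4) + 1) * X * ∑ m ∈ Icc 1 X, coprimeRatio N m / m := by
  have h : ∀ n ∈ Icc 1 X, coprimeRatio N n * Real.log X ≤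
      coprimeRatio N n * Real.log n + X * (coprimeRatio N n / n) := by
    intro n hn
    rw [mem_Icc] at hn
    have hn0 : (0 : ℝ) < n := Nat.cast_pos.2 hn.1
    have hX0 : (0 : ℝ) < X := Nat.cast_pos.2 (hn.1.trans hn.2)
    have hl : Real.log X ≤ Real.log n + (X : ℝ) / n := by
      linarith [Real.log_div hX0.ne' hn0.ne', Real.log_le_sub_one_of_pos (div_pos hX0 hn0)]
    refine (mul_le_mul_of_nonneg_left hl (coprimeRatio_nonneg N n)).trans (le_of_eq ?_)
    ring
  rw [sum_mul]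
  refine (sum_le_sum h).trans ?_
  rw [sum_add_distrib, ← mul_sum]
  refine (add_le_add (sum_coprimeRatio_log_le N X) le_rfl).trans (le_of_eq ?_)
  ring

/-- `n ↦ 1 / n`. -/
def recipHom : ℕ →* ℝ where
  toFun n := (n : ℝ)⁻¹
  map_one' := by rw [Nat.cast_one, inv_one]
  map_mul' a b := by rw [Nat.cast_mul, mul_inv]

theorem sum_recip_coprime_le (N X : ℕ) :
    ∑ j ∈ (Icc 1 X).filter (fun j => j.Coprime N), (j : ℝ)⁻¹ ≤
      ∏ p ∈ (primesUpTo X).filter (fun p => p.Coprime N), (1 - (p : ℝ)⁻¹)⁻¹ := by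
  obtain ⟨P, hP⟩ : ∃ P, P = (primesUpTo X).filter (fun p => p.Coprime N) := ⟨_, rfl⟩
  rw [← hP]
  have hmem : ∀ j ∈ (Icc 1 X).filter (fun j => j.Coprime N), j ∈ Nat.factoredNumbers P := by
    intro j hj
    rw [mem_filter, mem_Icc] at hj
    refine Nat.mem_factoredNumbers.2 ⟨by omega, fun p hp => ?_⟩
    rw [Nat.mem_primeFactorsList (by omega)] at hp
    exact hP ▸ mem_filter.2 ⟨mem_primesUpTo.2 ⟨hp.1, (Nat.le_of_dvd (by omega) hp.2).trans hj.1.2⟩,
      hj.2.coprime_dvd_left hp.2⟩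
  have h := (EulerProduct.summable_and_hasSum_factoredNumbers_prod_filter_prime_geometric
    (f := recipHom) (fun {p} hp => ?_) P).2
  · rw [filter_eq_self.2 fun p hp => (mem_primesUpTo.1 (mem_filter.1 (hP ▸ hp)).1).1] at h
    classical
    calc ∑ j ∈ (Icc 1 X).filter (fun j => j.Coprime N), (j : ℝ)⁻¹
        = ∑ m ∈ ((Icc 1 X).filter (fun j => j.Coprime N)).subtype
            (fun n => n ∈ Nat.factoredNumbers P), ((m : ℕ) : ℝ)⁻¹ :=
          (sum_subtype_of_mem (fun n : ℕ => (n : ℝ)⁻¹) hmem).symm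
      _ ≤ _ := sum_le_hasSum _ (fun m _ => inv_nonneg.2 (Nat.cast_nonneg (m : ℕ))) h
  · change ‖(p : ℝ)⁻¹‖ < 1
    rw [Real.norm_of_nonneg (inv_nonneg.2 p.cast_nonneg)]
    exact inv_lt_one_of_one_lt₀ (Nat.one_lt_cast.2 hp.one_lt)

theorem ratio_eq_sum_powerset {n : ℕ} (hn : 0 < n) :
    (n : ℝ) / n.totient = ∑ T ∈ n.primeFactors.powerset, ∏ p ∈ T, ((p : ℝ) - 1)⁻¹ := by
  have h : (n.totient : ℝ) = n * ∏ p ∈ n.primeFactors, (1 - (p : ℝ)⁻¹) := by
    simpa using congrArg (Rat.cast (K := ℝ)) (Nat.totient_eq_mul_prod_factors n)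
  rw [← prod_one_add, h, div_mul_cancel_left₀ (Nat.cast_ne_zero.2 hn.ne'), ← prod_inv_distrib]
  refine prod_congr rfl fun p hp => ?_
  have h2 : (2 : ℝ) ≤ p := by exact_mod_cast (Nat.prime_of_mem_primeFactors hp).two_le
  have h1 : (p : ℝ) - 1 ≠ 0 := by linarith
  field_simp
  ring

theorem sum_coprimeRatio_div_le (N X : ℕ) :
    ∑ n ∈ Icc 1 X, coprimeRatio N n / n ≤
      Real.exp 4 * ∏ p ∈ (primesUpTo X).filter (fun p => p.Coprime N), (1 - (p : ℝ)⁻¹)⁻¹ := by
  obtain ⟨P, hP⟩ : ∃ P, P = primesUpTo X := ⟨_, rfl⟩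
  obtain ⟨H, hH⟩ : ∃ H, H = ∑ j ∈ (Icc 1 X).filter (fun j => j.Coprime N), (j : ℝ)⁻¹ := ⟨_, rfl⟩
  obtain ⟨c, hc⟩ : ∃ c : ℕ → ℝ, c = fun p : ℕ => ((p : ℝ) - 1)⁻¹ := ⟨_, rfl⟩
  have hc0 : ∀ T ⊆ P, 0 ≤ ∏ p ∈ T, c p := fun T hT => prod_nonneg fun p hp => by
    have := (mem_primesUpTo.1 (hP ▸ hT hp)).1.one_le
    rw [hc]
    exact inv_nonneg.2 (sub_nonneg.2 (by exact_mod_cast this))
  have hterm : ∀ n ∈ Icc 1 X, coprimeRatio N n / n ≤
      ∑ T ∈ P.powerset, if (∏ p ∈ T, p) ∣ n ∧ n.Coprime N then (∏ p ∈ T, c p) / n else 0 := by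
    intro n hn
    rw [mem_Icc] at hn
    have hnn : ∀ T ∈ P.powerset, 0 ≤
        if (∏ p ∈ T, p) ∣ n ∧ n.Coprime N then (∏ p ∈ T, c p) / (n : ℝ) else 0 := fun T hT => by
      split_ifs
      · exact div_nonneg (hc0 T (mem_powerset.1 hT)) n.cast_nonneg
      · exact le_rfl
    rw [coprimeRatio]
    split_ifs with hcop
    · rw [ratio_eq_sum_powerset hn.1, sum_div]
      have hsub : n.primeFactors ⊆ P := fun p hp => hP ▸ mem_primesUpTo.2
        ⟨Nat.prime_of_mem_primeFactors hp, (Nat.le_of_mem_primeFactors hp).trans hn.2⟩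
      refine le_trans (le_of_eq (sum_congr rfl fun T hT => ?_))
        (sum_le_sum_of_subset_of_nonneg (powerset_mono.2 hsub) fun T hT _ => hnn T hT)
      rw [if_pos ⟨(prod_dvd_prod_of_subset _ _ _ (mem_powerset.1 hT)).trans
        (Nat.prod_primeFactors_dvd n), hcop⟩, hc]
    · rw [zero_div]
      exact sum_nonneg hnn
  refine (sum_le_sum hterm).trans ?_
  rw [sum_comm]
  have hT : ∀ T ∈ P.powerset,
      ∑ n ∈ Icc 1 X, (if (∏ p ∈ T, p) ∣ n ∧ n.Coprime N then (∏ p ∈ T, c p) / (n : ℝ) else 0) ≤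
        (∏ p ∈ T, c p / p) * H := by
    intro T hT
    obtain ⟨M, hM⟩ : ∃ M, M = ∏ p ∈ T, p := ⟨_, rfl⟩
    have hM0 : 0 < M := hM ▸ prod_pos fun p hp =>
      (mem_primesUpTo.1 (hP ▸ mem_powerset.1 hT hp)).1.pos
    rw [← sum_filter, ← hM, prod_div_distrib, ← Nat.cast_prod, ← hM]
    simp only [div_eq_mul_inv, ← mul_sum, mul_assoc]
    refine mul_le_mul_of_nonneg_left ?_ (hc0 T (mem_powerset.1 hT))
    have hinj : Set.InjOn (fun n => n / M)
        ((Icc 1 X).filter (fun n => M ∣ n ∧ n.Coprime N) : Set ℕ) := by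
      intro a ha b hb h
      simp only [coe_filter, Set.mem_ofPred_eq] at ha hb
      rw [← Nat.mul_div_cancel' ha.2.1, ← Nat.mul_div_cancel' hb.2.1]
      exact congrArg (M * ·) h
    calc ∑ n ∈ (Icc 1 X).filter (fun n => M ∣ n ∧ n.Coprime N), (n : ℝ)⁻¹
        = ∑ n ∈ (Icc 1 X).filter (fun n => M ∣ n ∧ n.Coprime N),
            (M : ℝ)⁻¹ * ((n / M : ℕ) : ℝ)⁻¹ := sum_congr rfl fun n hn => by
          rw [← mul_inv, ← Nat.cast_mul, Nat.mul_div_cancel' (mem_filter.1 hn).2.1]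
      _ = (M : ℝ)⁻¹ * ∑ j ∈ ((Icc 1 X).filter (fun n => M ∣ n ∧ n.Coprime N)).image (· / M),
            (j : ℝ)⁻¹ := by
          rw [sum_image (f := fun j : ℕ => (j : ℝ)⁻¹) hinj, mul_sum]
      _ ≤ (M : ℝ)⁻¹ * H := by
          refine hH ▸ mul_le_mul_of_nonneg_left (sum_le_sum_of_subset_of_nonneg (fun j hj => ?_)
            fun j _ _ => inv_nonneg.2 j.cast_nonneg) (inv_nonneg.2 M.cast_nonneg)
          obtain ⟨n, hn, rfl⟩ := mem_image.1 hj
          rw [mem_filter, mem_Icc] at hn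
          have := Nat.div_pos (Nat.le_of_dvd (by omega) hn.2.1) hM0
          have := Nat.div_le_self n M
          exact mem_filter.2 ⟨mem_Icc.2 ⟨by omega, by omega⟩,
            hn.2.2.coprime_dvd_left (Nat.div_dvd_of_dvd hn.2.1)⟩
  refine (sum_le_sum hT).trans ?_
  rw [← sum_mul, ← prod_one_add]
  refine mul_le_mul ?_ (hH ▸ sum_recip_coprime_le N X)
    (hH ▸ sum_nonneg fun j _ => inv_nonneg.2 j.cast_nonneg) (Real.exp_pos 4).le
  have hpr : ∀ p ∈ P, (2 : ℝ) ≤ p := fun p hp => by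
    exact_mod_cast (mem_primesUpTo.1 (hP ▸ hp)).1.two_le
  refine ((prod_le_prod (fun p hp => ?_) fun p _ =>
    (add_comm _ _).trans_le (Real.add_one_le_exp _)).trans
      (le_of_eq (Real.exp_sum _ _).symm)).trans (Real.exp_le_exp.2 ?_)
  · have := hpr p hp
    rw [hc]
    exact add_nonneg zero_le_one (div_nonneg (inv_nonneg.2 (by linarith)) p.cast_nonneg)
  · refine (sum_le_sum (g := fun p : ℕ => 2 * ((p : ℝ) ^ 2)⁻¹) fun p hp => ?_).trans ?_
    · have := hpr p hp
      rw [hc, div_eq_mul_inv, ← mul_inv, ← div_eq_mul_inv, inv_eq_one_div,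
        div_le_div_iff₀ (by nlinarith) (by positivity)]
      nlinarith
    · rw [← mul_sum]
      have := sum_inv_sq_ge le_rfl P fun p hp => (mem_primesUpTo.1 (hP ▸ hp)).1.one_le
      norm_num at this
      linarith

theorem exists_prod_inv_le_log : ∃ C : ℝ, 0 ≤ C ∧ ∀ X : ℕ, 2 ≤ X →
    ∏ p ∈ primesUpTo X, (1 - (p : ℝ)⁻¹)⁻¹ ≤ C * Real.log X := by
  have h := (MertensThird.tendsto_log_mul_prod.comp tendsto_natCast_atTop_atTop).inv₀
    (Real.exp_pos _).ne'
  obtain ⟨C, hC⟩ := h.bddAbove_range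
  refine ⟨max C 0, le_max_right _ _, fun X hX => ?_⟩
  have hl : 0 < Real.log X := Real.log_pos (by exact_mod_cast hX)
  have hle := (hC ⟨X, rfl⟩).trans (le_max_left C 0)
  simp only [Function.comp_apply, Nat.floor_natCast, mul_inv, ← prod_inv_distrib] at hle
  rw [inv_mul_le_iff₀ hl] at hle
  linarith

/-- **The mean value bound.** -/
theorem exists_mean_value : ∃ C : ℝ, 0 ≤ C ∧ ∀ N X : ℕ, N ≠ 0 →
    ∑ n ∈ Icc 1 X, coprimeRatio N n ≤
      C * X * ∏ p ∈ N.primeFactors.filter (· ≤ X), (1 - (p : ℝ)⁻¹) := by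
  obtain ⟨C₁, hC₁, hmer⟩ := exists_prod_inv_le_log
  obtain ⟨A, hA⟩ : ∃ A, A = 2 * (Real.log 4 + 4) + 1 := ⟨_, rfl⟩
  have hA0 : 1 ≤ A := by
    have := Real.log_nonneg (show (1 : ℝ) ≤ 4 by norm_num)
    rw [hA]; linarith
  refine ⟨max 1 (A * (Real.exp 4 * C₁)), zero_le_one.trans (le_max_left _ _),
    fun N X hN => ?_⟩
  obtain ⟨Q, hQ⟩ : ∃ Q, Q = ∏ p ∈ N.primeFactors.filter (· ≤ X), (1 - (p : ℝ)⁻¹) := ⟨_, rfl⟩
  have hpos : ∀ p : ℕ, p.Prime → (0 : ℝ) < 1 - (p : ℝ)⁻¹ := fun p hp =>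
    sub_pos.2 (inv_lt_one_of_one_lt₀ (Nat.one_lt_cast.2 hp.one_lt))
  have hQ0 : 0 < Q := hQ ▸ prod_pos fun p hp =>
    hpos p (Nat.prime_of_mem_primeFactors (mem_filter.1 hp).1)
  rw [← hQ]
  rcases le_or_gt X 1 with hX | hX
  · interval_cases X
    · simp
    · have e : N.primeFactors.filter (· ≤ 1) = ∅ := filter_eq_empty_iff.2 fun p hp => by
        have := (Nat.prime_of_mem_primeFactors hp).two_le
        omega
      rw [hQ, e, prod_empty, Icc_self, sum_singleton, coprimeRatio, Nat.totient_one,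
        if_pos (Nat.coprime_one_left N)]
      simp
  · obtain ⟨R, hR⟩ : ∃ R, R = ∏ p ∈ (primesUpTo X).filter (fun p => p.Coprime N),
        (1 - (p : ℝ)⁻¹)⁻¹ := ⟨_, rfl⟩
    have hsplit : R = (∏ p ∈ primesUpTo X, (1 - (p : ℝ)⁻¹)⁻¹) * Q := by
      rw [← prod_filter_mul_prod_filter_not (primesUpTo X) (fun p => p.Coprime N), ← hR]
      have e : (primesUpTo X).filter (fun p => ¬p.Coprime N) =
          N.primeFactors.filter (· ≤ X) := by
        ext p
        simp only [mem_filter, mem_primesUpTo, Nat.mem_primeFactors]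
        constructor
        · rintro ⟨⟨hp, hle⟩, hnc⟩
          exact ⟨⟨hp, by_contra fun h => hnc (hp.coprime_iff_not_dvd.2 h), hN⟩, hle⟩
        · rintro ⟨⟨hp, hd, -⟩, hle⟩
          exact ⟨⟨hp, hle⟩, fun h => hp.coprime_iff_not_dvd.1 h hd⟩
      rw [e, prod_inv_distrib (s := N.primeFactors.filter (· ≤ X)), ← hQ, mul_assoc,
        inv_mul_cancel₀ hQ0.ne', mul_one]
    have hl : 0 < Real.log X := Real.log_pos (by exact_mod_cast hX)
    refine le_of_mul_le_mul_right ?_ hl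
    refine (sum_coprimeRatio_mul_log_le N X).trans ?_
    rw [← hA]
    refine (mul_le_mul_of_nonneg_left (sum_coprimeRatio_div_le N X)
      (by positivity)).trans ?_
    rw [← hR, hsplit]
    calc A * X * (Real.exp 4 * ((∏ p ∈ primesUpTo X, (1 - (p : ℝ)⁻¹)⁻¹) * Q))
        ≤ A * X * (Real.exp 4 * (C₁ * Real.log X * Q)) := by
          gcongr
          exact hmer X hX
      _ = A * (Real.exp 4 * C₁) * X * Q * Real.log X := by ring
      _ ≤ _ := by
          gcongr
          exact le_max_right _ _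

end FA.DuffinSchaeffer
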