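import Fermat.Agent.DuffinSchaeffer.Overlap
import Fermat.Agent.DuffinSchaeffer.Bilinear

/-!
# The second moment of the approximation sets

The overlaps of the balls at the reduced fractions of denominators `v`, `w` total
`≪ μ v μ w ∏ p / (p - 1)`. Where the product is large the pair satisfies, at a dyadic scale
`2 ^ k`, the hypotheses of the bound on weighted pairs, whose saving `exp (- 10 * 2 ^ k)` absorbs
the product: the second moment of a finite set of denominators is `≪ M + M ^ 2`.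
-/

set_option autoImplicit false

noncomputable section

namespace FA.DuffinSchaeffer

open Finset MeasureTheory Metric
open FA.Khintchine (frac numer nearPairs card_numer measureReal_ball)

theorem exists_det {g v' w' a b : ℕ} (hg : 0 < g) (hv : 0 < v') (hw : 0 < w')
    (ha : a ∈ numer (v' * g)) (hb : b ∈ numer (w' * g)) {Δ : ℝ}
    (h : ‖frac (v' * g) a - frac (w' * g) b‖ < Δ) :
    ∃ n : ℤ, |(n : ℝ)| < Δ * ((v' * w' * g : ℕ) : ℝ) ∧ (n ≠ 0 → (a, b) ∈ detPairs g v' w' n) ∧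
      (n = 0 → v' = w' ∧ a = b) := by
  obtain ⟨z, hz⟩ : ∃ z : ℤ, z = round ((a : ℝ) / (v' * g : ℕ) - (b : ℝ) / (w' * g : ℕ)) :=
    ⟨_, rfl⟩
  rw [frac, frac, ← AddCircle.coe_sub, AddCircle.norm_eq] at h
  simp only [one_mul, mul_one, inv_one] at h
  rw [← hz] at h
  refine ⟨(a : ℤ) * w' - (b : ℤ) * v' - z * (v' * w' * g), ?_,
    fun _ => by classical exact mem_filter.2 ⟨mem_product.2 ⟨ha, hb⟩, z, rfl⟩,
    fun h0 => ?_⟩
  · have hL : (0 : ℝ) < ((v' * w' * g : ℕ) : ℝ) := Nat.cast_pos.2 (by positivity)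
    refine lt_of_eq_of_lt ?_ (mul_lt_mul_of_pos_right h hL)
    have hv' : (0 : ℝ) < v' := Nat.cast_pos.2 hv
    have hw' : (0 : ℝ) < w' := Nat.cast_pos.2 hw
    have hg' : (0 : ℝ) < g := Nat.cast_pos.2 hg
    rw [← abs_of_pos hL]
    rw [← abs_mul]
    congr 1
    push_cast
    field_simp
  · rw [numer, mem_filter, mem_range] at ha hb
    have d1 : (v' : ℤ) ∣ (a : ℤ) * w' := ⟨(b : ℤ) + z * w' * g, by linarith⟩
    have d2 : (w' : ℤ) ∣ (b : ℤ) * v' := ⟨(a : ℤ) - z * v' * g, by linarith⟩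
    rw [← Nat.cast_mul, Int.natCast_dvd_natCast] at d1 d2
    have e1 : v' ∣ w' :=
      (Nat.Coprime.coprime_dvd_left (dvd_mul_right v' g) ha.2.symm).dvd_of_dvd_mul_left d1
    have e2 : w' ∣ v' :=
      (Nat.Coprime.coprime_dvd_left (dvd_mul_right w' g) hb.2.symm).dvd_of_dvd_mul_left d2
    have e := Nat.dvd_antisymm e1 e2
    subst e
    refine ⟨rfl, Nat.ModEq.eq_of_lt_of_lt (m := v' * g) ?_ ha.1 hb.1⟩
    rw [Nat.modEq_iff_dvd]
    refine ⟨-z, mul_right_cancel₀ (b := (v' : ℤ)) (Nat.cast_ne_zero.2 hv.ne') ?_⟩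
    push_cast
    linarith

/-- **Neighbouring reduced fractions.** -/
theorem exists_nearPairs_bound : ∃ C : ℝ, 0 ≤ C ∧ ∀ g v' w' : ℕ, 0 < g → 0 < v' → 0 < w' →
    v'.Coprime w' → ∀ (Δ : ℝ) (X : ℕ), X = ⌊Δ * ((v' * w' * g : ℕ) : ℝ)⌋₊ →
      ((nearPairs (v' * g) (w' * g) Δ).card : ℝ) *
          ∏ p ∈ (v' * w').primeFactors.filter (X < ·), (1 - (p : ℝ)⁻¹) ≤
        (if v' = w' then ((v' * g).totient : ℝ) else 0) +
          C * (g * (((v' * g).totient : ℝ) / (v' * g : ℕ) *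
            (((w' * g).totient : ℝ) / (w' * g : ℕ)))) * X := by
  obtain ⟨C, hC, hmean⟩ := exists_mean_value
  refine ⟨2 * C, by positivity, fun g v' w' hg hv hw hcop Δ X hX => ?_⟩
  obtain ⟨A, hA⟩ : ∃ A, A = (g : ℝ) * (((v' * g).totient : ℝ) / (v' * g : ℕ) *
    (((w' * g).totient : ℝ) / (w' * g : ℕ))) := ⟨_, rfl⟩
  rw [← hA]
  have hA0 : 0 ≤ A := hA ▸ by positivity
  obtain ⟨Dg, hDg⟩ : ∃ Dg : Finset (ℕ × ℕ),
      Dg = if v' = w' then (numer (v' * g)).image (fun a => (a, a)) else ∅ := ⟨_, rfl⟩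
  have hcard : (nearPairs (v' * g) (w' * g) Δ).card ≤ Dg.card +
      ∑ m ∈ Icc 1 X, ((detPairs g v' w' m).card + (detPairs g v' w' (-(m : ℤ))).card) := by
    refine (card_le_card (t := Dg ∪ (Icc 1 X).biUnion fun m : ℕ =>
      detPairs g v' w' m ∪ detPairs g v' w' (-(m : ℤ))) ?_).trans
        ((card_union_le _ _).trans (add_le_add le_rfl (card_biUnion_le.trans
          (sum_le_sum fun m _ => card_union_le _ _))))
    rintro ⟨a, b⟩ hab
    rw [nearPairs, mem_filter, mem_product] at hab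
    simp only at hab
    obtain ⟨n, hlt, hne, heq⟩ := exists_det hg hv hw hab.1.1 hab.1.2 hab.2
    rw [mem_union]
    rcases eq_or_ne n 0 with h0 | h0
    · obtain ⟨e, rfl⟩ := heq h0
      exact Or.inl (by rw [hDg, if_pos e]; exact mem_image_of_mem _ hab.1.1)
    · refine Or.inr (mem_biUnion.2 ⟨n.natAbs, mem_Icc.2 ⟨Int.natAbs_pos.2 h0,
        hX ▸ Nat.le_floor ?_⟩, ?_⟩)
      · rw [Nat.cast_natAbs, Int.cast_abs]
        exact hlt.le
      · rw [mem_union]
        rcases Int.natAbs_eq n with h | h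
        · rw [← h]; exact Or.inl (hne h0)
        · rw [← h]; exact Or.inr (hne h0)
  obtain ⟨N, hN⟩ : ∃ N, N = (v' * w').primeFactors := ⟨_, rfl⟩
  have hNp : ∀ p ∈ N, (0 : ℝ) < 1 - (p : ℝ)⁻¹ := fun p hp =>
    one_sub_inv_pos (Nat.prime_of_mem_primeFactors (hN ▸ hp))
  obtain ⟨Q₁, hQ₁⟩ : ∃ Q₁, Q₁ = ∏ p ∈ N.filter (· ≤ X), (1 - (p : ℝ)⁻¹) := ⟨_, rfl⟩
  obtain ⟨Q₂, hQ₂⟩ : ∃ Q₂, Q₂ = ∏ p ∈ N.filter (X < ·), (1 - (p : ℝ)⁻¹) := ⟨_, rfl⟩
  have hQ₁0 : 0 < Q₁ := hQ₁ ▸ prod_pos fun p hp => hNp p (mem_filter.1 hp).1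
  have hQ₂0 : 0 < Q₂ := hQ₂ ▸ prod_pos fun p hp => hNp p (mem_filter.1 hp).1
  have hQ₂1 : Q₂ ≤ 1 := hQ₂ ▸ prod_le_one (fun p hp => (hNp p (mem_filter.1 hp).1).le)
    fun p _ => sub_le_self _ (inv_nonneg.2 p.cast_nonneg)
  have hQ : ∏ p ∈ N, (1 - (p : ℝ)⁻¹) = Q₂ * Q₁ := by
    rw [hQ₁, hQ₂, mul_comm, ← prod_filter_mul_prod_filter_not N (· ≤ X)]
    congr 1
    exact prod_congr (filter_congr fun p _ => not_le) fun _ _ => rfl
  rw [← hN, ← hQ₂]
  obtain ⟨D, hD⟩ : ∃ D : ℕ, D = ∑ m ∈ Icc 1 X,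
      ((detPairs g v' w' m).card + (detPairs g v' w' (-(m : ℤ))).card) := ⟨_, rfl⟩
  rw [← hD] at hcard
  have hDle : (D : ℝ) * Q₂ ≤ 2 * C * A * X := by
    refine le_of_mul_le_mul_right ?_ hQ₁0
    rw [mul_assoc, ← hQ, hD, Nat.cast_sum, sum_mul]
    calc ∑ m ∈ Icc 1 X,
          (((detPairs g v' w' m).card + (detPairs g v' w' (-(m : ℤ))).card : ℕ) : ℝ) *
            ∏ p ∈ N, (1 - (p : ℝ)⁻¹)
        ≤ ∑ m ∈ Icc 1 X, 2 * A * coprimeRatio (v' * w') m := by
          refine sum_le_sum fun m hm => ?_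
          rw [mem_Icc] at hm
          have h1 := card_detPairs_mul_le hg hv hw hcop (n := (m : ℤ)) (by omega)
          have h2 := card_detPairs_mul_le hg hv hw hcop (n := -(m : ℤ)) (by omega)
          rw [Int.natAbs_natCast, ← hA, ← hN] at h1
          rw [Int.natAbs_neg, Int.natAbs_natCast, ← hA, ← hN] at h2
          push_cast
          linarith
      _ ≤ 2 * A * (C * X * Q₁) := by
          rw [← mul_sum, hQ₁, hN]
          exact mul_le_mul_of_nonneg_left (hmean _ X (Nat.mul_pos hv hw).ne') (by positivity)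
      _ = _ := by ring
  have hDg' : (Dg.card : ℝ) * Q₂ ≤ if v' = w' then ((v' * g).totient : ℝ) else 0 := by
    refine (mul_le_of_le_one_right (Nat.cast_nonneg _) hQ₂1).trans ?_
    rw [hDg]
    split_ifs
    · exact_mod_cast card_image_le.trans (card_numer _).le
    · simp
  refine (mul_le_mul_of_nonneg_right (Nat.cast_le.2 hcard) hQ₂0.le).trans ?_
  push_cast
  linarith

/-- The overlaps of the balls of two denominators. -/
def ballSum (ψ : ℕ → ℝ) (v w : ℕ) : ℝ :=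
  ∑ a ∈ numer v, ∑ b ∈ numer w, (volume : Measure UnitAddCircle).real
    (ball (frac v a) (ψ v / v) ∩ ball (frac w b) (ψ w / w))

theorem ballSum_le_nearPairs {ψ : ℕ → ℝ} (hψ : ∀ q, 0 ≤ ψ q) (v w : ℕ) :
    ballSum ψ v w ≤ (nearPairs v w (ψ v / v + ψ w / w)).card *
      (2 * min (ψ v / v) (ψ w / w)) := by
  rw [ballSum, ← sum_product', nearPairs, card_filter, Nat.cast_sum, sum_mul]
  refine sum_le_sum fun ab _ => ?_
  split_ifs with h
  · rw [Nat.cast_one, one_mul]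
    rcases le_total (ψ v / v : ℝ) (ψ w / w) with h' | h'
    · rw [min_eq_left h']
      refine (measureReal_mono Set.inter_subset_left).trans ?_
      rw [measureReal_ball]
      exact max_le (mul_nonneg two_pos.le (div_nonneg (hψ v) v.cast_nonneg)) (min_le_right _ _)
    · rw [min_eq_right h']
      refine (measureReal_mono Set.inter_subset_right).trans ?_
      rw [measureReal_ball]
      exact max_le (mul_nonneg two_pos.le (div_nonneg (hψ w) w.cast_nonneg)) (min_le_right _ _)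
  · have he : ball (frac v ab.1) (ψ v / v) ∩ ball (frac w ab.2) (ψ w / w) = ∅ :=
      Set.eq_empty_of_forall_notMem fun x hx => h (by
        rw [← dist_eq_norm]
        exact (dist_triangle_left _ _ x).trans_lt
          (add_lt_add (mem_ball.1 hx.1) (mem_ball.1 hx.2)))
    rw [Nat.cast_zero, zero_mul, he, measureReal_empty]

/-- **The overlap of two denominators.** -/
theorem exists_overlap_bound : ∃ C : ℝ, 0 ≤ C ∧ ∀ ψ : ℕ → ℝ, (∀ q, 0 ≤ ψ q) →
    ∀ v w : ℕ, 0 < v → 0 < w → ∃ X : ℕ,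
      ψ v * w ≤ ((X : ℝ) + 1) * (Nat.gcd v w : ℕ) ∧ ψ w * v ≤ ((X : ℝ) + 1) * (Nat.gcd v w : ℕ) ∧
      ballSum ψ v w ≤ (if v = w then 2 * mu ψ v else 0) +
        if 1 ≤ X then C * (mu ψ v * mu ψ w) *
          (∏ p ∈ (diffPrimes v w).filter (X < ·), (1 - (p : ℝ)⁻¹))⁻¹ else 0 := by
  obtain ⟨C, hC, hnear⟩ := exists_nearPairs_bound
  refine ⟨4 * C, by positivity, fun ψ hψ v₀ w₀ hv₀ hw₀ => ?_⟩
  obtain ⟨g, v', w', hg, hcop, rfl, rfl⟩ := Nat.exists_coprime' (Nat.gcd_pos_of_pos_left w₀ hv₀)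
  have hv : 0 < v' := Nat.pos_of_mul_pos_right hv₀
  have hw : 0 < w' := Nat.pos_of_mul_pos_right hw₀
  have hv' : (0 : ℝ) < v' := Nat.cast_pos.2 hv
  have hw' : (0 : ℝ) < w' := Nat.cast_pos.2 hw
  have hg' : (0 : ℝ) < g := Nat.cast_pos.2 hg
  obtain ⟨δ, hδ⟩ : ∃ δ, δ = ψ (v' * g) / ((v' * g : ℕ) : ℝ) := ⟨_, rfl⟩
  obtain ⟨ε, hε⟩ : ∃ ε, ε = ψ (w' * g) / ((w' * g : ℕ) : ℝ) := ⟨_, rfl⟩
  have hδ0 : 0 ≤ δ := hδ ▸ div_nonneg (hψ _) (Nat.cast_nonneg _)
  have hε0 : 0 ≤ ε := hε ▸ div_nonneg (hψ _) (Nat.cast_nonneg _)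
  obtain ⟨X, hX⟩ : ∃ X, X = ⌊(δ + ε) * ((v' * w' * g : ℕ) : ℝ)⌋₊ := ⟨_, rfl⟩
  have hgcd : Nat.gcd (v' * g) (w' * g) = g := by
    rw [Nat.gcd_mul_right, hcop.gcd_eq_one, one_mul]
  have hlt : (δ + ε) * ((v' * w' * g : ℕ) : ℝ) < (X : ℝ) + 1 := by
    rw [hX]
    exact Nat.lt_floor_add_one _
  have e1 : δ * ((v' * w' * g : ℕ) : ℝ) = ψ (v' * g) * w' := by
    rw [hδ]; push_cast; field_simp
  have e2 : ε * ((v' * w' * g : ℕ) : ℝ) = ψ (w' * g) * v' := by
    rw [hε]; push_cast; field_simp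
  rw [add_mul, e1, e2] at hlt
  refine ⟨X, ?_, ?_, ?_⟩
  · rw [hgcd, Nat.cast_mul, ← mul_assoc]
    refine mul_le_mul_of_nonneg_right ?_ hg'.le
    linarith [mul_nonneg (hψ (w' * g)) hv'.le]
  · rw [hgcd, Nat.cast_mul, ← mul_assoc]
    refine mul_le_mul_of_nonneg_right ?_ hg'.le
    linarith [mul_nonneg (hψ (v' * g)) hw'.le]
  refine (ballSum_le_nearPairs hψ _ _).trans ?_
  rw [← hδ, ← hε, diffPrimes_mul hg hv hw hcop]
  have hn := hnear g v' w' hg hv hw hcop (δ + ε) X hX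
  obtain ⟨Q, hQ⟩ : ∃ Q, Q = ∏ p ∈ (v' * w').primeFactors.filter (X < ·), (1 - (p : ℝ)⁻¹) :=
    ⟨_, rfl⟩
  have hQ0 : 0 < Q := hQ ▸ prod_pos fun p hp =>
    one_sub_inv_pos (Nat.prime_of_mem_primeFactors (mem_filter.1 hp).1)
  rw [← hQ] at hn ⊢
  obtain ⟨E', hE'⟩ : ∃ E', E' = ((v' * g).totient : ℝ) / (v' * g : ℕ) *
    (((w' * g).totient : ℝ) / (w' * g : ℕ)) := ⟨_, rfl⟩
  rw [← hE'] at hn
  have hE0 : 0 ≤ E' := hE' ▸ by positivity
  have hiff : v' * g = w' * g ↔ v' = w' := ⟨Nat.eq_of_mul_eq_mul_right hg, fun h => h ▸ rfl⟩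
  have hdiag : (if v' = w' then ((v' * g).totient : ℝ) else 0) * (2 * min δ ε) ≤
      Q * if v' * g = w' * g then 2 * mu ψ (v' * g) else 0 := by
    simp only [hiff]
    split_ifs with h
    · have hQ1 : Q = 1 := by
        subst h
        rw [(Nat.coprime_self v').1 hcop] at hQ
        simpa using hQ
      rw [hQ1, one_mul, mu]
      refine (mul_le_mul_of_nonneg_left (mul_le_mul_of_nonneg_left (min_le_left δ ε) zero_le_two)
        (Nat.cast_nonneg _)).trans (le_of_eq ?_)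
      rw [hδ]; ring
    · simp
  have hmain : C * (g * E') * X * (2 * min δ ε) ≤
      if 1 ≤ X then 4 * C * (mu ψ (v' * g) * mu ψ (w' * g)) else 0 := by
    split_ifs with h1
    · have h2 : (X : ℝ) * min δ ε ≤ 2 * (δ * ε) * ((v' * w' * g : ℕ) : ℝ) := by
        have hXle : (X : ℝ) ≤ (δ + ε) * ((v' * w' * g : ℕ) : ℝ) := by
          rw [hX]; exact Nat.floor_le (by positivity)
        refine (mul_le_mul_of_nonneg_right hXle (le_min hδ0 hε0)).trans ?_
        rw [mul_right_comm]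
        refine mul_le_mul_of_nonneg_right ?_ (Nat.cast_nonneg _)
        rcases le_total δ ε with h | h
        · rw [min_eq_left h]; nlinarith
        · rw [min_eq_right h]; nlinarith
      calc C * (g * E') * X * (2 * min δ ε) = 2 * (C * (g * E')) * ((X : ℝ) * min δ ε) := by ring
        _ ≤ 2 * (C * (g * E')) * (2 * (δ * ε) * ((v' * w' * g : ℕ) : ℝ)) :=
            mul_le_mul_of_nonneg_left h2 (by positivity)
        _ = _ := by
            rw [mu, mu, hE', hδ, hε]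
            push_cast
            field_simp
            ring
    · have : X = 0 := by omega
      simp [this]
  refine le_of_mul_le_mul_left ?_ hQ0
  rw [← mul_assoc, mul_comm Q ((nearPairs (v' * g) (w' * g) (δ + ε)).card : ℝ)]
  refine (mul_le_mul_of_nonneg_right hn (mul_nonneg zero_le_two (le_min hδ0 hε0))).trans ?_
  rw [add_mul, mul_add]
  refine add_le_add hdiag (hmain.trans (le_of_eq ?_))
  split_ifs with h
  · field_simp
  · rw [mul_zero]

/-- The sum of `1 / p` over the elements `≥ t`. -/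
def recipFrom (s : Finset ℕ) (t : ℕ) : ℝ := ∑ p ∈ s.filter (t ≤ ·), (1 : ℝ) / p

theorem recipFrom_le_add_one (s : Finset ℕ) {a b : ℕ} (ha : 1 ≤ a) (hb : b ≤ 2 * a) :
    recipFrom s a ≤ recipFrom s b + 1 := by
  rw [recipFrom, recipFrom, ← sum_filter_add_sum_filter_not (s.filter (a ≤ ·)) (b ≤ ·)]
  refine add_le_add (sum_le_sum_of_subset_of_nonneg (fun p hp => ?_) fun p _ _ => by positivity) ?_
  · simp only [mem_filter] at hp ⊢
    exact ⟨hp.1.1, hp.2⟩
  · refine (sum_le_card_nsmul _ _ ((1 : ℝ) / a) fun p hp => ?_).trans ?_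
    · simp only [mem_filter] at hp
      exact one_div_le_one_div_of_le (Nat.cast_pos.2 ha) (Nat.cast_le.2 hp.1.2)
    · have hc : ((s.filter (a ≤ ·)).filter fun p => ¬b ≤ p).card ≤ a :=
        (card_le_card (t := Ico a (2 * a)) fun p hp => by
          simp only [mem_filter] at hp
          exact mem_Ico.2 ⟨hp.1.2, by omega⟩).trans (by rw [Nat.card_Ico]; omega)
      rw [nsmul_eq_mul, mul_one_div, div_le_one (Nat.cast_pos.2 ha)]
      exact_mod_cast hc

theorem exists_scale (s : Finset ℕ) {B j : ℕ} (hs : ∀ p ∈ s, p ≤ B)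
    (h : 10 ≤ recipFrom s (2 ^ j)) :
    ∃ k, j ≤ k ∧ k < B + 1 ∧ 10 ≤ recipFrom s (2 ^ k) ∧ recipFrom s (2 ^ j) ≤ 11 + k := by
  have hlt : ∀ k, 10 ≤ recipFrom s (2 ^ k) → k < B + 1 := by
    intro k hk
    by_contra hc
    have : s.filter (2 ^ k ≤ ·) = ∅ := filter_eq_empty_iff.2 fun p hp => by
      have := hs p hp
      have := Nat.lt_two_pow_self (n := k)
      omega
    rw [recipFrom, this, sum_empty] at hk
    linarith
  obtain ⟨k, hk, hmax⟩ := exists_max_image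
    ((range (B + 1)).filter fun k => j ≤ k ∧ 10 ≤ recipFrom s (2 ^ k)) id
    ⟨j, mem_filter.2 ⟨mem_range.2 (hlt j h), le_rfl, h⟩⟩
  simp only [mem_filter, mem_range, id] at hk hmax
  obtain ⟨hkB, hjk, hk10⟩ := hk
  have hnext : recipFrom s (2 ^ (k + 1)) < 10 := by
    by_contra hc
    push Not at hc
    have := hmax (k + 1) ⟨hlt _ hc, by omega, hc⟩
    omega
  have hstep : ∀ d, recipFrom s (2 ^ j) ≤ recipFrom s (2 ^ (j + d)) + d := by
    intro d
    induction d with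
    | zero => simp
    | succ d ih =>
      have h1 := recipFrom_le_add_one s (a := 2 ^ (j + d)) (b := 2 ^ (j + d + 1))
        Nat.one_le_two_pow (by rw [pow_succ, mul_comm])
      push_cast
      rw [← add_assoc j d 1]
      linarith
  refine ⟨k, hjk, hkB, hk10, ?_⟩
  obtain ⟨d, rfl⟩ := Nat.exists_eq_add_of_le hjk
  have h1 := recipFrom_le_add_one s (a := 2 ^ (j + d)) (b := 2 ^ (j + d + 1))
    Nat.one_le_two_pow (by rw [pow_succ, mul_comm])
  have h2 := hstep d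
  push_cast
  have : (0 : ℝ) ≤ j := Nat.cast_nonneg j
  linarith

theorem inv_prod_le_exp {s : Finset ℕ} (hs : ∀ p ∈ s, p.Prime) {X : ℕ} (hX : 1 ≤ X) :
    (∏ p ∈ s.filter (X < ·), (1 - (p : ℝ)⁻¹))⁻¹ ≤
      Real.exp (recipFrom s (2 ^ (Nat.log 2 X + 1)) + 5) := by
  obtain ⟨T, hT⟩ : ∃ T, T = s.filter (X < ·) := ⟨_, rfl⟩
  rw [← hT]
  have hTp : ∀ p ∈ T, p.Prime := fun p hp => hs p (mem_filter.1 (hT ▸ hp)).1
  rw [← prod_inv_distrib]
  refine ((prod_le_prod (g := fun p : ℕ => Real.exp ((1 : ℝ) / p + 2 * ((p : ℝ) ^ 2)⁻¹))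
    (fun p hp => inv_nonneg.2 (one_sub_inv_pos (hTp p hp)).le) fun p hp => ?_).trans
      (le_of_eq (Real.exp_sum _ _).symm)).trans (Real.exp_le_exp.2 ?_)
  · have h2 : (2 : ℝ) ≤ p := by exact_mod_cast (hTp p hp).two_le
    refine le_trans ?_ (Real.add_one_le_exp _)
    rw [inv_eq_one_div, div_le_iff₀ (one_sub_inv_pos (hTp p hp))]
    field_simp
    nlinarith
  · rw [sum_add_distrib, ← mul_sum]
    have h1 := sum_inv_sq_ge le_rfl T fun p hp => (hTp p hp).one_le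
    have h2 : ∑ p ∈ T, (1 : ℝ) / p ≤ recipFrom s (2 ^ (Nat.log 2 X + 1)) + 1 := by
      have hle := Nat.pow_log_le_self 2 (Nat.one_le_iff_ne_zero.1 hX)
      refine le_trans ?_ (recipFrom_le_add_one s (a := X + 1) (by omega)
        (by rw [pow_succ]; omega))
      rw [hT, recipFrom]
      exact le_of_eq (sum_congr (filter_congr fun p _ => by omega) fun _ _ => rfl)
    norm_num at h1
    linarith

theorem scale_decay (k : ℕ) :
    Real.exp k * (Real.sqrt ((2 : ℝ) ^ k) * Real.exp (-(((2 ^ k : ℕ) : ℝ) * 10))) ≤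
      Real.exp (-1) ^ k := by
  have h1 : Real.sqrt ((2 : ℝ) ^ k) ≤ Real.exp k := by
    refine Real.sqrt_le_iff.2 ⟨(Real.exp_pos _).le, ?_⟩
    rw [← mul_one (k : ℝ), Real.exp_nat_mul, ← pow_mul, mul_comm, pow_mul]
    exact pow_le_pow_left₀ zero_le_two (by nlinarith [Real.add_one_le_exp 1]) k
  have h2 : (k : ℝ) ≤ ((2 ^ k : ℕ) : ℝ) := Nat.cast_le.2 Nat.lt_two_pow_self.le
  rw [← Real.exp_nat_mul, mul_neg_one]
  refine (mul_le_mul_of_nonneg_left (mul_le_mul_of_nonneg_right h1 (Real.exp_pos _).le)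
    (Real.exp_pos _).le).trans ?_
  rw [← Real.exp_add, ← Real.exp_add]
  refine Real.exp_le_exp.2 ?_
  have : (0 : ℝ) ≤ k := Nat.cast_nonneg k
  linarith

open Classical in
/-- **The second moment.** -/
theorem exists_second_moment : ∃ A : ℝ, 0 ≤ A ∧ ∀ ψ : ℕ → ℝ, (∀ q, 0 ≤ ψ q) →
    ∀ V : Finset ℕ, (∀ v ∈ V, 0 < v) →
      ∑ v ∈ V, ∑ w ∈ V, ballSum ψ v w ≤ A * (mass ψ V + mass ψ V ^ 2) := by
  obtain ⟨C, hC, hov⟩ := exists_overlap_bound
  obtain ⟨Cb, hCb, hpairs⟩ := exists_gcd_pairs_bound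
  obtain ⟨A, hA⟩ : ∃ A, A = C * Real.exp 16 * Cb * 2 := ⟨_, rfl⟩
  have hA0 : 0 ≤ A := hA ▸ by positivity
  refine ⟨2 + C * Real.exp 16 + 2 * A, by positivity, fun ψ hψ V hV => ?_⟩
  obtain ⟨B, hB⟩ : ∃ B, B = V.sup id + 1 := ⟨_, rfl⟩
  obtain ⟨M, hM⟩ : ∃ M, M = mass ψ V := ⟨_, rfl⟩
  have hM0 : 0 ≤ M := hM ▸ mass_nonneg hψ V
  rw [← hM]
  obtain ⟨term, hterm⟩ : ∃ term : ℕ → ℕ → ℕ → ℝ, term = fun k v w =>
      if ψ v * w ≤ (2 : ℝ) ^ k * (Nat.gcd v w : ℕ) ∧ ψ w * v ≤ (2 : ℝ) ^ k * (Nat.gcd v w : ℕ) ∧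
        10 ≤ ∑ p ∈ (diffPrimes v w).filter (2 ^ k ≤ ·), (1 : ℝ) / p
      then mu ψ v * mu ψ w else 0 := ⟨_, rfl⟩
  have hterm0 : ∀ k v w, 0 ≤ term k v w := fun k v w => by
    rw [hterm]; simp only []; split_ifs
    · exact mul_nonneg (mu_nonneg hψ v) (mu_nonneg hψ w)
    · exact le_rfl
  have hpair : ∀ v ∈ V, ∀ w ∈ V, ballSum ψ v w ≤ (if v = w then 2 * mu ψ v else 0) +
      C * Real.exp 16 * (mu ψ v * mu ψ w) +
        C * Real.exp 16 * ∑ k ∈ range B, Real.exp k * term k v w := by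
    intro v hv w hw
    obtain ⟨X, hXv, hXw, hb⟩ := hov ψ hψ v w (hV v hv) (hV w hw)
    have hmm : 0 ≤ mu ψ v * mu ψ w := mul_nonneg (mu_nonneg hψ v) (mu_nonneg hψ w)
    have hnn : 0 ≤ ∑ k ∈ range B, Real.exp k * term k v w :=
      sum_nonneg fun k _ => mul_nonneg (Real.exp_pos _).le (hterm0 k v w)
    refine hb.trans ?_
    rw [add_assoc]
    refine add_le_add le_rfl ?_
    split_ifs with h1
    swap
    · positivity
    have hp : ∀ p ∈ diffPrimes v w, p.Prime ∧ p ≤ V.sup id := fun p hp => by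
      rcases mem_union.1 (mem_filter.1 hp).1 with h | h
      · exact ⟨Nat.prime_of_mem_primeFactors h,
          (Nat.le_of_mem_primeFactors h).trans (le_sup (f := id) hv)⟩
      · exact ⟨Nat.prime_of_mem_primeFactors h,
          (Nat.le_of_mem_primeFactors h).trans (le_sup (f := id) hw)⟩
    refine (mul_le_mul_of_nonneg_left (inv_prod_le_exp (fun p h => (hp p h).1) h1)
      (mul_nonneg hC hmm)).trans ?_
    obtain ⟨j, hj⟩ : ∃ j, j = Nat.log 2 X + 1 := ⟨_, rfl⟩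
    rw [← hj]
    rcases le_or_gt 10 (recipFrom (diffPrimes v w) (2 ^ j)) with h10 | h10
    · obtain ⟨k, hjk, hkB, hk10, hkle⟩ := exists_scale _ (fun p h => (hp p h).2) h10
      have hXk : (X : ℝ) + 1 ≤ (2 : ℝ) ^ k := by
        have h2 : X < 2 ^ j := hj ▸ Nat.lt_pow_succ_log_self one_lt_two X
        exact_mod_cast (Nat.succ_le_of_lt h2).trans (Nat.pow_le_pow_right two_pos hjk)
      have ht : term k v w = mu ψ v * mu ψ w := by
        rw [hterm]
        exact if_pos ⟨hXv.trans (mul_le_mul_of_nonneg_right hXk (Nat.cast_nonneg _)),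
          hXw.trans (mul_le_mul_of_nonneg_right hXk (Nat.cast_nonneg _)), hk10⟩
      have hs := single_le_sum (f := fun k : ℕ => Real.exp k * term k v w)
        (fun k _ => mul_nonneg (Real.exp_pos _).le (hterm0 k v w)) (mem_range.2 (hB ▸ hkB))
      simp only [ht] at hs
      refine le_trans ?_ (le_add_of_nonneg_left (by positivity))
      refine le_trans ?_ (mul_le_mul_of_nonneg_left hs (by positivity))
      rw [show C * Real.exp 16 * (Real.exp k * (mu ψ v * mu ψ w)) =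
        C * (mu ψ v * mu ψ w) * (Real.exp 16 * Real.exp k) by ring, ← Real.exp_add]
      exact mul_le_mul_of_nonneg_left (Real.exp_le_exp.2 (by linarith)) (mul_nonneg hC hmm)
    · refine le_trans ?_ (le_add_of_nonneg_right (mul_nonneg (by positivity) hnn))
      rw [mul_right_comm C (Real.exp 16)]
      exact mul_le_mul_of_nonneg_left (Real.exp_le_exp.2 (by linarith)) (mul_nonneg hC hmm)
  have hscale : ∀ k ∈ range B, Real.exp k * ∑ v ∈ V, ∑ w ∈ V, term k v w ≤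
      Real.exp (-1) ^ k * (Cb * (M * Real.sqrt M)) := by
    intro k _
    have h := hpairs (2 ^ k) Nat.one_le_two_pow ψ hψ ((2 : ℝ) ^ k) 10 (by positivity) V V hV hV
    rw [pw_sq_eq (mass_nonneg hψ V), ← hM] at h
    rw [hterm]
    refine (mul_le_mul_of_nonneg_left h (Real.exp_pos _).le).trans ?_
    refine le_of_eq_of_le ?_ (mul_le_mul_of_nonneg_right (scale_decay k) (by positivity))
    ring
  have hgeo : ∑ k ∈ range B, Real.exp (-1) ^ k ≤ 2 := by
    have he : Real.exp (-1) ≤ 1 / 2 := by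
      rw [Real.exp_neg, inv_eq_one_div]
      exact one_div_le_one_div_of_le two_pos (by linarith [Real.add_one_le_exp 1])
    refine (sum_pow_image (Real.exp_pos _).le (by linarith) _ id (Set.injOn_id _)).trans ?_
    rw [div_le_iff₀ (by linarith)]
    linarith
  calc ∑ v ∈ V, ∑ w ∈ V, ballSum ψ v w
      ≤ ∑ v ∈ V, ∑ w ∈ V, ((if v = w then 2 * mu ψ v else 0) +
          C * Real.exp 16 * (mu ψ v * mu ψ w) +
          C * Real.exp 16 * ∑ k ∈ range B, Real.exp k * term k v w) :=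
        sum_le_sum fun v hv => sum_le_sum fun w hw => hpair v hv w hw
    _ = 2 * M + C * Real.exp 16 * (M * M) +
          C * Real.exp 16 * ∑ k ∈ range B, Real.exp k * ∑ v ∈ V, ∑ w ∈ V, term k v w := by
        simp only [sum_add_distrib]
        congr 1
        · congr 1
          · rw [hM, mass, mul_sum]
            exact sum_congr rfl fun v hv => by rw [sum_ite_eq, if_pos hv]
          · rw [hM, mass, sum_mul_sum, mul_sum]
            exact sum_congr rfl fun v _ => by rw [mul_sum]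
        · simp only [mul_sum]
          rw [sum_comm (s := range B)]
          exact sum_congr rfl fun v _ => sum_comm
    _ ≤ 2 * M + C * Real.exp 16 * (M * M) +
          C * Real.exp 16 * (2 * (Cb * (M * Real.sqrt M))) := by
        refine add_le_add le_rfl (mul_le_mul_of_nonneg_left ?_ (by positivity))
        refine (sum_le_sum hscale).trans ?_
        rw [← sum_mul]
        exact mul_le_mul_of_nonneg_right hgeo (by positivity)
    _ ≤ _ := by
        have hs : M * Real.sqrt M ≤ M + M ^ 2 := by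
          rw [sq, ← mul_one_add]
          refine mul_le_mul_of_nonneg_left (Real.sqrt_le_iff.2 ⟨by linarith, ?_⟩) hM0
          nlinarith
        have hAe : C * Real.exp 16 * (2 * (Cb * (M * Real.sqrt M))) = A * (M * Real.sqrt M) := by
          rw [hA]; ring
        rw [hAe]
        have := mul_le_mul_of_nonneg_left hs hA0
        have h16 : 0 ≤ C * Real.exp 16 * M := by positivity
        have hM2 : 0 ≤ A * (M + M ^ 2) := by positivity
        nlinarith [sq_nonneg M]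

end FA.DuffinSchaeffer
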