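import Fermat.Agent.DuffinSchaeffer.MeanValue
import Fermat.Agent.Khintchine.Overlap

/-!
# Neighbouring reduced fractions

For `v`, `w` with gcd `g` the reduced fractions `a / v`, `b / w` with `a w' - b v' ≡ n` modulo the
least common multiple are counted prime by prime. With the mean value this bounds the pairs at
distance `< δ v + δ w` by `g (φ v / v) (φ w / w) D ∏ p / (p - 1)`, `D = lcm max (δ v, δ w)`, the
product over the primes above `2 D` at which the valuations differ.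
-/

set_option autoImplicit false

noncomputable section

namespace FA.DuffinSchaeffer

open Finset
open FA.Khintchine (frac numer nearPairs)

/-- Residues avoiding given classes at distinct primes. -/
theorem card_avoiding_le {T : Finset ℕ} (hT : ∀ p ∈ T, p.Prime) {g : ℕ}
    (hdvd : (∏ p ∈ T, p) ∣ g) (F : ℕ → Finset ℕ) (hF : ∀ p ∈ T, F p ⊆ range p) (s : Finset ℕ)
    (hs : ∀ i ∈ s, i < g ∧ ∀ p ∈ T, i % p ∉ F p) :
    (s.card : ℝ) ≤ g * ∏ p ∈ T, (1 - ((F p).card : ℝ) / p) := by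
  obtain ⟨M, hM⟩ : ∃ M, M = ∏ p ∈ T, p := ⟨_, rfl⟩
  have hM0 : 0 < M := hM ▸ prod_pos fun p hp => (hT p hp).pos
  rw [← hM] at hdvd
  obtain ⟨q, hq⟩ := hdvd
  have hcard : s.card ≤ (∏ p ∈ T, (p - (F p).card)) * q := by
    refine (card_le_card_of_injOn (t := (T.pi fun p => range p \ F p) ×ˢ range q)
      (fun i => (fun p (_ : p ∈ T) => i % p, i / M)) ?_ ?_).trans (le_of_eq ?_)
    · intro i hi
      obtain ⟨hlt, hav⟩ := hs i hi
      refine mem_product.2 ⟨mem_pi.2 fun p hp => mem_sdiff.2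
        ⟨mem_range.2 (Nat.mod_lt _ (hT p hp).pos), hav p hp⟩, mem_range.2 ?_⟩
      rw [Nat.div_lt_iff_lt_mul hM0, mul_comm]
      omega
    · intro i _ j _ h
      simp only [Prod.mk.injEq] at h
      have hd : ∀ p ∈ T, (p : ℤ) ∣ (j : ℤ) - i := fun p hp =>
        Nat.modEq_iff_dvd.1 (congrFun (congrFun h.1 p) hp)
      have hall : (∏ p ∈ T, (p : ℤ)) ∣ (j : ℤ) - i := by
        refine Finset.prod_dvd_of_coprime (fun p hp p' hp' hne => ?_) hd
        exact Nat.isCoprime_iff_coprime.2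
          ((Nat.coprime_primes (hT p hp) (hT p' hp')).2 hne)
      have hm : i ≡ j [MOD M] := by
        rw [Nat.modEq_iff_dvd, hM, Nat.cast_prod]
        exact hall
      rw [← Nat.div_add_mod i M, ← Nat.div_add_mod j M, h.2, hm]
    · rw [card_product, card_pi, card_range]
      congr 1
      refine prod_congr rfl fun p hp => ?_
      rw [card_sdiff_of_subset (hF p hp), card_range]
  refine (Nat.cast_le.2 hcard).trans (le_of_eq ?_)
  rw [Nat.cast_mul, Nat.cast_prod, hq, Nat.cast_mul, hM, Nat.cast_prod]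
  rw [mul_comm _ (q : ℝ), mul_comm _ (q : ℝ), mul_assoc, ← prod_mul_distrib]
  refine congrArg _ (prod_congr rfl fun p hp => ?_)
  have hp0 : (p : ℝ) ≠ 0 := Nat.cast_ne_zero.2 (hT p hp).ne_zero
  rw [Nat.cast_sub ((card_le_card (hF p hp)).trans (card_range p).le)]
  field_simp

/-- A linear congruence with unit slope has a solution below `p`. -/
theorem exists_root {p : ℕ} (hp : p.Prime) {u : ℕ} (hu : ¬p ∣ u) (c : ℤ) :
    ∃ i < p, (p : ℤ) ∣ c + i * u := by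
  have := Fact.mk hp
  have hu' : (u : ZMod p) ≠ 0 := fun h => hu ((ZMod.natCast_eq_zero_iff u p).1 h)
  refine ⟨(-(c : ZMod p) / u).val, ZMod.val_lt _, ?_⟩
  rw [← ZMod.intCast_zmod_eq_zero_iff_dvd]
  push_cast
  rw [ZMod.natCast_zmod_val, div_mul_cancel₀ _ hu', add_neg_cancel]

theorem totient_div_eq_prod {n : ℕ} (hn : 0 < n) :
    (n.totient : ℝ) / n = ∏ p ∈ n.primeFactors, (1 - (p : ℝ)⁻¹) := by
  rw [show (n.totient : ℝ) = n * ∏ p ∈ n.primeFactors, (1 - (p : ℝ)⁻¹) by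
    simpa using congrArg (Rat.cast (K := ℝ)) (Nat.totient_eq_mul_prod_factors n),
    mul_div_cancel_left₀ _ (Nat.cast_ne_zero.2 hn.ne')]

theorem one_sub_inv_pos {p : ℕ} (hp : p.Prime) : (0 : ℝ) < 1 - (p : ℝ)⁻¹ :=
  sub_pos.2 (inv_lt_one_of_one_lt₀ (Nat.one_lt_cast.2 hp.one_lt))

/-- The local bound at the primes of the gcd. -/
theorem prod_local_le {g v' w' n : ℕ} (hg : 0 < g) (hv : 0 < v') (hw : 0 < w') (hn : 0 < n)
    (hcop : v'.Coprime w') (hnN : n.Coprime (v' * w')) (F : ℕ → Finset ℕ)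
    (hsub : ∀ p ∈ g.primeFactors, F p ⊆ range p)
    (h1 : ∀ p ∈ g.primeFactors, 1 ≤ (F p).card)
    (h2 : ∀ p ∈ g.primeFactors, ¬p ∣ v' * w' → ¬p ∣ n → 2 ≤ (F p).card) :
    (∏ p ∈ g.primeFactors, (1 - ((F p).card : ℝ) / p)) *
        ∏ p ∈ (v' * w').primeFactors, (1 - (p : ℝ)⁻¹) ≤
      ((v' * g).totient : ℝ) / (v' * g : ℕ) * (((w' * g).totient : ℝ) / (w' * g : ℕ)) *
        coprimeRatio (v' * w') n := by
  obtain ⟨u, hu⟩ : ∃ u : ℕ → ℝ, u = fun p : ℕ => 1 - (p : ℝ)⁻¹ := ⟨_, rfl⟩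
  obtain ⟨T, hT⟩ : ∃ T, T = g.primeFactors := ⟨_, rfl⟩
  obtain ⟨N, hN⟩ : ∃ N, N = (v' * w').primeFactors := ⟨_, rfl⟩
  obtain ⟨A, hA⟩ : ∃ A, A = T \ N := ⟨_, rfl⟩
  have hTp : ∀ p ∈ T, p.Prime := fun p hp => Nat.prime_of_mem_primeFactors (hT ▸ hp)
  have hu0 : ∀ p ∈ T, 0 < u p := fun p hp => hu ▸ one_sub_inv_pos (hTp p hp)
  have hr : coprimeRatio (v' * w') n = ∏ p ∈ n.primeFactors, (u p)⁻¹ := by
    rw [coprimeRatio, if_pos hnN, ← inv_div, totient_div_eq_prod hn, hu, prod_inv_distrib]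
  have hmain : ((v' * g).totient : ℝ) / (v' * g : ℕ) * (((w' * g).totient : ℝ) / (w' * g : ℕ)) =
      (∏ p ∈ T, u p) * (∏ p ∈ A, u p) * ∏ p ∈ N, u p := by
    rw [totient_div_eq_prod (Nat.mul_pos hv hg), totient_div_eq_prod (Nat.mul_pos hw hg),
      Nat.primeFactors_mul hv.ne' hg.ne', Nat.primeFactors_mul hw.ne' hg.ne', ← prod_union_inter,
      ← hT, hu, hA, mul_assoc (∏ p ∈ T, _), ← prod_union sdiff_disjoint, sdiff_union_self_eq_union,
      mul_comm (∏ p ∈ T, _)]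
    congr 2
    · rw [hN, Nat.primeFactors_mul hv.ne' hw.ne']
      ext p; simp only [mem_union]; tauto
    · ext p
      simp only [mem_inter, mem_union]
      refine ⟨fun ⟨h1, h2⟩ => ?_, fun h => ⟨Or.inr h, Or.inr h⟩⟩
      rcases h1 with h1 | h1
      · rcases h2 with h2 | h2
        · exact absurd (disjoint_left.1 hcop.disjoint_primeFactors h1 h2) id
        · exact h2
      · exact h1
  have hloc : ∀ p ∈ T, 1 - ((F p).card : ℝ) / p ≤
      u p * if p ∈ A then (if p ∣ n then 1 else u p) else 1 := by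
    intro p hp
    have hp0 : (0 : ℝ) < p := Nat.cast_pos.2 (hTp p hp).pos
    have hb : ∀ k : ℕ, k ≤ (F p).card → 1 - ((F p).card : ℝ) / p ≤ 1 - (k : ℝ) * (p : ℝ)⁻¹ := by
      intro k hk
      rw [← div_eq_mul_inv]
      gcongr
    split_ifs with hpA hpn
    · simpa [hu] using hb 1 (h1 p (hT ▸ hp))
    · have hpN : ¬p ∣ v' * w' := fun h => (mem_sdiff.1 (hA ▸ hpA)).2 (hN ▸
        Nat.mem_primeFactors.2 ⟨hTp p hp, h, (Nat.mul_pos hv hw).ne'⟩)
      have h := hb 2 (h2 p (hT ▸ hp) hpN hpn)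
      rw [hu]
      push_cast at h
      simp only []
      nlinarith [sq_nonneg ((p : ℝ)⁻¹)]
    · simpa [hu] using hb 1 (h1 p (hT ▸ hp))
  have hge : ∀ p ∈ T, 0 ≤ 1 - ((F p).card : ℝ) / p := fun p hp => sub_nonneg.2
    (div_le_one_of_le₀ (Nat.cast_le.2 ((card_le_card (hsub p (hT ▸ hp))).trans (card_range p).le))
      p.cast_nonneg)
  rw [← hT, ← hN]
  refine (mul_le_mul_of_nonneg_right (prod_le_prod hge hloc) (prod_nonneg fun p hp =>
    (one_sub_inv_pos (Nat.prime_of_mem_primeFactors (hN ▸ hp))).le)).trans ?_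
  rw [hmain, hr, prod_mul_distrib, prod_ite_mem, inter_eq_right.2 (hA ▸ sdiff_subset)]
  rw [mul_right_comm _ _ (∏ p ∈ n.primeFactors, (u p)⁻¹)]
  rw [show ∏ i ∈ N, (1 - (i : ℝ)⁻¹) = ∏ p ∈ N, u p by rw [hu]]
  apply mul_le_mul_of_nonneg_right
  swap
  · refine prod_nonneg fun p hp => ?_
    rw [hu]; exact (one_sub_inv_pos (Nat.prime_of_mem_primeFactors (hN ▸ hp))).le
  rw [mul_assoc (∏ p ∈ T, u p)]
  refine mul_le_mul_of_nonneg_left ?_ (prod_nonneg fun p hp => (hu0 p hp).le)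
  calc ∏ p ∈ A, (if p ∣ n then 1 else u p)
      = (∏ p ∈ A, u p) * ∏ p ∈ A.filter (· ∣ n), (u p)⁻¹ := by
        rw [prod_filter, ← prod_mul_distrib]
        refine prod_congr rfl fun p hp => ?_
        split_ifs with h
        · rw [mul_inv_cancel₀ (hu0 p (mem_sdiff.1 (hA ▸ hp)).1).ne']
        · rw [mul_one]
    _ ≤ _ := by
        refine mul_le_mul_of_nonneg_left (prod_le_prod_of_subset_of_one_le (fun p hp => ?_)
          (fun p hp => inv_nonneg.2 (hu0 p (mem_sdiff.1 (hA ▸ (mem_filter.1 hp).1)).1).le)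
          fun p hp _ => ?_) (prod_nonneg fun p hp => (hu0 p (mem_sdiff.1 (hA ▸ hp)).1).le)
        · obtain ⟨hpA, hpn⟩ := mem_filter.1 hp
          exact Nat.mem_primeFactors.2 ⟨hTp p (mem_sdiff.1 (hA ▸ hpA)).1, hpn, hn.ne'⟩
        · rw [hu]
          exact (one_le_inv₀ (one_sub_inv_pos (Nat.prime_of_mem_primeFactors hp))).2
            (sub_le_self _ (inv_nonneg.2 p.cast_nonneg))

/-- The reduced fractions with a given determinant modulo the least common multiple. -/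
def detPairs (g v' w' : ℕ) (n : ℤ) : Finset (ℕ × ℕ) :=
  open Classical in (numer (v' * g) ×ˢ numer (w' * g)).filter fun ab =>
    ∃ z : ℤ, (ab.1 : ℤ) * w' - (ab.2 : ℤ) * v' - z * (v' * w' * g) = n

/-- **The count for one determinant.** -/
theorem card_detPairs_mul_le {g v' w' : ℕ} (hg : 0 < g) (hv : 0 < v') (hw : 0 < w')
    (hcop : v'.Coprime w') {n : ℤ} (hn : n ≠ 0) :
    ((detPairs g v' w' n).card : ℝ) * ∏ p ∈ (v' * w').primeFactors, (1 - (p : ℝ)⁻¹) ≤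
      g * (((v' * g).totient : ℝ) / (v' * g : ℕ) * (((w' * g).totient : ℝ) / (w' * g : ℕ))) *
        coprimeRatio (v' * w') n.natAbs := by
  have hrhs := coprimeRatio_nonneg (v' * w') n.natAbs
  rcases (detPairs g v' w' n).eq_empty_or_nonempty with he | ⟨⟨a₀, b₀⟩, h₀⟩
  · rw [he, card_empty, Nat.cast_zero, zero_mul]
    positivity
  have hmem : ∀ ab ∈ detPairs g v' w' n, ((ab.1 < v' * g ∧ ab.1.Coprime (v' * g)) ∧
      (ab.2 < w' * g ∧ ab.2.Coprime (w' * g))) ∧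
      ∃ z : ℤ, (ab.1 : ℤ) * w' - (ab.2 : ℤ) * v' - z * (v' * w' * g) = n := fun ab h => by
    simpa [detPairs, numer] using h
  obtain ⟨⟨⟨-, hac⟩, -, hbc⟩, z₀, e₀⟩ := hmem _ h₀
  simp only at hac hbc e₀
  -- the determinant is coprime to `v' w'`
  have hnN : n.natAbs.Coprime (v' * w') := by
    refine Nat.coprime_of_dvd fun p hp hd hdN => ?_
    have hdn : (p : ℤ) ∣ n := Int.natCast_dvd.2 hd
    rcases hp.dvd_mul.1 hdN with h | h
    · have : (p : ℤ) ∣ (a₀ : ℤ) * w' := by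
        rw [show (a₀ : ℤ) * w' = n + (v' : ℤ) * (b₀ + z₀ * w' * g) by linarith]
        exact dvd_add hdn (dvd_mul_of_dvd_left (Int.natCast_dvd_natCast.2 h) _)
      rw [← Nat.cast_mul, Int.natCast_dvd_natCast] at this
      rcases hp.dvd_mul.1 this with h' | h'
      · exact hp.not_dvd_one (hac ▸ Nat.dvd_gcd h' (dvd_mul_of_dvd_left h g))
      · exact hp.not_dvd_one (hcop ▸ Nat.dvd_gcd h h')
    · have : (p : ℤ) ∣ (b₀ : ℤ) * v' := by
        rw [show (b₀ : ℤ) * v' = (w' : ℤ) * (a₀ - z₀ * v' * g) - n by linarith]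
        exact dvd_sub (dvd_mul_of_dvd_left (Int.natCast_dvd_natCast.2 h) _) hdn
      rw [← Nat.cast_mul, Int.natCast_dvd_natCast] at this
      rcases hp.dvd_mul.1 this with h' | h'
      · exact hp.not_dvd_one (hbc ▸ Nat.dvd_gcd h' (dvd_mul_of_dvd_left h g))
      · exact hp.not_dvd_one (hcop ▸ Nat.dvd_gcd h' h)
  obtain ⟨r, hr⟩ : ∃ r, r = a₀ % v' := ⟨_, rfl⟩
  obtain ⟨c, hc⟩ : ∃ c : ℤ, c = (b₀ : ℤ) - (a₀ / v' : ℕ) * w' + z₀ * w' * g := ⟨_, rfl⟩
  have hrw : (r : ℤ) * w' - c * v' = n := by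
    have h0 := Nat.mod_add_div a₀ v'
    rw [← hr] at h0
    have := congrArg (Nat.cast (R := ℤ)) h0
    push_cast at this
    rw [hc, ← e₀]
    push_cast
    linear_combination (w' : ℤ) * this
  have hform : ∀ ab ∈ detPairs g v' w' n, ab.1 = r + ab.1 / v' * v' ∧
      ∃ z : ℤ, (ab.2 : ℤ) = c + (ab.1 / v' : ℕ) * w' - z * (w' * g) := by
    intro ab hab
    obtain ⟨-, z, e⟩ := hmem ab hab
    have hd : (v' : ℤ) ∣ ((ab.1 : ℤ) - a₀) * w' :=
      ⟨(ab.2 : ℤ) - b₀ + (z - z₀) * w' * g, by linarith⟩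
    have hd' : (v' : ℤ) ∣ (ab.1 : ℤ) - a₀ :=
      (Nat.isCoprime_iff_coprime.2 hcop).dvd_of_dvd_mul_right hd
    have hmod : ab.1 % v' = r := hr ▸ ((Nat.modEq_iff_dvd.2 hd').symm : ab.1 ≡ a₀ [MOD v'])
    have ha : ab.1 = r + ab.1 / v' * v' := by
      rw [← hmod, Nat.mod_add_div' ab.1 v']
    refine ⟨ha, z, mul_right_cancel₀ (b := (v' : ℤ)) (Nat.cast_ne_zero.2 hv.ne') ?_⟩
    have e' := congrArg (Nat.cast (R := ℤ)) ha
    push_cast at e'
    push_cast
    linear_combination (w' : ℤ) * e' - e + hrw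
  obtain ⟨F, hF⟩ : ∃ F : ℕ → Finset ℕ, F = fun p => (range p).filter fun i : ℕ =>
      (p : ℤ) ∣ (r : ℤ) + i * v' ∨ (p : ℤ) ∣ c + i * w' := ⟨_, rfl⟩
  have hFsub : ∀ p, F p ⊆ range p := fun p => hF ▸ filter_subset _ _
  have hinj : Set.InjOn (fun ab => ab.1 / v') (detPairs g v' w' n : Set (ℕ × ℕ)) := by
    intro x hx y hy h
    simp only at h
    obtain ⟨hx1, zx, hx2⟩ := hform x hx
    obtain ⟨hy1, zy, hy2⟩ := hform y hy
    rw [h] at hx1 hx2
    refine Prod.ext (hx1.trans hy1.symm) (Nat.ModEq.eq_of_lt_of_lt (m := w' * g) ?_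
      (hmem x hx).1.2.1 (hmem y hy).1.2.1)
    rw [Nat.modEq_iff_dvd, hx2, hy2]
    push_cast
    exact ⟨zx - zy, by ring⟩
  have hav : ∀ i ∈ (detPairs g v' w' n).image (fun ab => ab.1 / v'),
      i < g ∧ ∀ p ∈ g.primeFactors, i % p ∉ F p := by
    intro i hi
    obtain ⟨ab, hab, rfl⟩ := mem_image.1 hi
    obtain ⟨⟨⟨halt, hac'⟩, -, hbc'⟩, -⟩ := hmem ab hab
    obtain ⟨ha, z, hb⟩ := hform ab hab
    refine ⟨Nat.div_lt_iff_lt_mul hv |>.2 (by rwa [mul_comm]), fun p hp hbad => ?_⟩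
    obtain ⟨hpp, hpg, -⟩ := Nat.mem_primeFactors.1 hp
    have hdiff : (p : ℤ) ∣ ((ab.1 / v' : ℕ) : ℤ) - ((ab.1 / v' % p : ℕ) : ℤ) :=
      Nat.modEq_iff_dvd.1 (Nat.mod_modEq _ _)
    rw [hF, mem_filter] at hbad
    obtain ⟨k, hk⟩ : ∃ k, k = ab.1 / v' := ⟨_, rfl⟩
    obtain ⟨k', hk'⟩ : ∃ k', k' = ab.1 / v' % p := ⟨_, rfl⟩
    rw [← hk'] at hbad hdiff
    rw [← hk] at ha hb hdiff
    clear hk hk'
    rcases hbad.2 with h | h
    · refine hpp.not_dvd_one (hac' ▸ Nat.dvd_gcd ?_ (dvd_mul_of_dvd_right hpg v'))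
      rw [← Int.natCast_dvd_natCast, ha]
      push_cast
      rw [show (r : ℤ) + (k : ℤ) * v' = r + (k' : ℤ) * v' + ((k : ℤ) - k') * v' by ring]
      exact dvd_add h (dvd_mul_of_dvd_left hdiff _)
    · refine hpp.not_dvd_one (hbc' ▸ Nat.dvd_gcd ?_ (dvd_mul_of_dvd_right hpg w'))
      rw [← Int.natCast_dvd_natCast, hb]
      rw [show c + (k : ℤ) * w' - z * (w' * g) =
        c + (k' : ℤ) * w' + ((k : ℤ) - k') * w' - z * ((w' : ℤ) * g) by ring]
      exact dvd_sub (dvd_add h (dvd_mul_of_dvd_left hdiff _))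
        (dvd_mul_of_dvd_right (dvd_mul_of_dvd_right (Int.natCast_dvd_natCast.2 hpg) _) z)
  have h1 : ∀ p ∈ g.primeFactors, 1 ≤ (F p).card := by
    intro p hp
    have hpp := Nat.prime_of_mem_primeFactors hp
    refine card_pos.2 ?_
    by_cases hpv : p ∣ v'
    · have hpw : ¬p ∣ w' := fun h => hpp.not_dvd_one (hcop ▸ Nat.dvd_gcd hpv h)
      obtain ⟨i, hi, hd⟩ := exists_root hpp hpw c
      exact ⟨i, hF ▸ mem_filter.2 ⟨mem_range.2 hi, Or.inr hd⟩⟩
    · obtain ⟨i, hi, hd⟩ := exists_root hpp hpv r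
      exact ⟨i, hF ▸ mem_filter.2 ⟨mem_range.2 hi, Or.inl hd⟩⟩
  have h2 : ∀ p ∈ g.primeFactors, ¬p ∣ v' * w' → ¬p ∣ n.natAbs → 2 ≤ (F p).card := by
    intro p hp hpN hpn
    have hpp := Nat.prime_of_mem_primeFactors hp
    obtain ⟨i, hi, hdi⟩ := exists_root hpp (fun h => hpN (dvd_mul_of_dvd_left h w')) r
    obtain ⟨j, hj, hdj⟩ := exists_root hpp (fun h => hpN (dvd_mul_of_dvd_right h v')) c
    refine one_lt_card.2 ⟨i, hF ▸ mem_filter.2 ⟨mem_range.2 hi, Or.inl hdi⟩, j,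
      hF ▸ mem_filter.2 ⟨mem_range.2 hj, Or.inr hdj⟩, fun h => hpn ?_⟩
    subst h
    rw [← Int.natCast_dvd, ← hrw]
    rw [show (r : ℤ) * w' - c * v' = ((r : ℤ) + i * v') * w' - (c + i * w') * v' by ring]
    exact dvd_sub (dvd_mul_of_dvd_left hdi _) (dvd_mul_of_dvd_left hdj _)
  have hcount := card_avoiding_le (fun p hp => Nat.prime_of_mem_primeFactors hp)
    (Nat.prod_primeFactors_dvd g) F (fun p _ => hFsub p) _ hav
  rw [card_image_of_injOn hinj] at hcount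
  refine (mul_le_mul_of_nonneg_right hcount (prod_nonneg fun p hp =>
    (one_sub_inv_pos (Nat.prime_of_mem_primeFactors hp)).le)).trans ?_
  rw [mul_assoc, mul_assoc (g : ℝ)]
  exact mul_le_mul_of_nonneg_left (prod_local_le hg hv hw (Int.natAbs_pos.2 hn) hcop hnN F
    (fun p _ => hFsub p) h1 h2) g.cast_nonneg

theorem diffPrimes_mul {g v' w' : ℕ} (hg : 0 < g) (hv : 0 < v') (hw : 0 < w')
    (hcop : v'.Coprime w') : diffPrimes (v' * g) (w' * g) = (v' * w').primeFactors := by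
  ext p
  simp only [diffPrimes, mem_filter, mem_union, mem_primeFactors_iff_factorization,
    Nat.factorization_mul hv.ne' hg.ne', Nat.factorization_mul hw.ne' hg.ne',
    Nat.factorization_mul hv.ne' hw.ne', Finsupp.add_apply]
  have h : v'.factorization p = 0 ∨ w'.factorization p = 0 := by
    by_contra h
    push Not at h
    exact disjoint_left.1 hcop.disjoint_primeFactors (mem_primeFactors_iff_factorization.2 h.1)
      (mem_primeFactors_iff_factorization.2 h.2)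
  omega

end FA.DuffinSchaeffer
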