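import Fermat.Agent.DuffinSchaeffer.Valuation
import Mathlib.Data.Nat.Totient
import Mathlib.Data.Nat.Factorization.Basic
import Mathlib.Analysis.Complex.ExponentialBounds

/-!
# Weighted pairs and the step at one prime

For weights `f`, `g` the pairs `(v, w)` with `f v * w ≤ gcd` and `g w * v ≤ gcd` are weighted by
`μ f v * μ g w * exp (t L)`, `μ f v = f v φ v / v`, `L` the sum of `1/p` over `p ≥ t` at which the
valuations differ. Splitting by the valuations at one prime reduces a bound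
`C (μ V μ W) ^ (3/4)` to the same bound for a smaller set of primes.
-/

set_option autoImplicit false

noncomputable section

namespace FA.DuffinSchaeffer

open Finset

/-- The measure of one denominator. -/
def mu (f : ℕ → ℝ) (v : ℕ) : ℝ := f v * ((v.totient : ℝ) / v)

/-- The primes at which the valuations differ. -/
def diffPrimes (v w : ℕ) : Finset ℕ :=
  (v.primeFactors ∪ w.primeFactors).filter fun p => v.factorization p ≠ w.factorization p

/-- `exp (t L)`. -/
def pairWeight (t v w : ℕ) : ℝ :=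
  ∏ p ∈ (diffPrimes v w).filter (t ≤ ·), Real.exp (t / p)

/-- The pairs counted. -/
def Admissible (f g : ℕ → ℝ) (v w : ℕ) : Prop :=
  f v * w ≤ (Nat.gcd v w : ℕ) ∧ g w * v ≤ (Nat.gcd v w : ℕ)

open Classical in
/-- The term of one pair. -/
def pairTerm (t : ℕ) (f g : ℕ → ℝ) (v w : ℕ) : ℝ :=
  if Admissible f g v w then mu f v * mu g w * pairWeight t v w else 0

/-- The sum over the pairs. -/
def pairSum (t : ℕ) (f g : ℕ → ℝ) (V W : Finset ℕ) : ℝ :=
  ∑ v ∈ V, ∑ w ∈ W, pairTerm t f g v w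

/-- The mass of a set of denominators. -/
def mass (f : ℕ → ℝ) (V : Finset ℕ) : ℝ := ∑ v ∈ V, mu f v

/-- The bound for numbers made of the primes of `S`. -/
def PairBound (t : ℕ) (S : Finset ℕ) (C : ℝ) : Prop :=
  ∀ (f g : ℕ → ℝ) (V W : Finset ℕ), (∀ v, 0 ≤ f v) → (∀ w, 0 ≤ g w) →
    (∀ v ∈ V, 0 < v ∧ v.primeFactors ⊆ S) → (∀ w ∈ W, 0 < w ∧ w.primeFactors ⊆ S) →
      pairSum t f g V W ≤ C * (pw (mass f V) * pw (mass g W))

/-- `p ^ (-1/4)`. -/
def primeRoot (p : ℕ) : ℝ := Real.sqrt (Real.sqrt (1 / (p : ℝ)))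

theorem primeRoot_nonneg (p : ℕ) : 0 ≤ primeRoot p := Real.sqrt_nonneg _

theorem primeRoot_pow_four (p : ℕ) : primeRoot p ^ 4 = 1 / (p : ℝ) := by
  rw [primeRoot, show (4 : ℕ) = 2 * 2 from rfl, pow_mul, Real.sq_sqrt (Real.sqrt_nonneg _),
    Real.sq_sqrt (by positivity)]

theorem primeRoot_le_nine_tenths {p : ℕ} (hp : 2 ≤ p) : primeRoot p ≤ 9 / 10 := by
  refine le_of_pow_le_pow_left₀ (by norm_num : (4 : ℕ) ≠ 0) (by norm_num) ?_
  rw [primeRoot_pow_four, div_le_iff₀ (by positivity)]
  have : (2 : ℝ) ≤ p := by exact_mod_cast hp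
  norm_num
  linarith

theorem primeRoot_le_half {p : ℕ} (hp : 16 ≤ p) : primeRoot p ≤ 1 / 2 := by
  refine le_of_pow_le_pow_left₀ (by norm_num : (4 : ℕ) ≠ 0) (by norm_num) ?_
  rw [primeRoot_pow_four, div_le_iff₀ (by positivity)]
  have : (16 : ℝ) ≤ p := by exact_mod_cast hp
  norm_num
  linarith

theorem mu_nonneg {f : ℕ → ℝ} (hf : ∀ v, 0 ≤ f v) (v : ℕ) : 0 ≤ mu f v :=
  mul_nonneg (hf v) (by positivity)

theorem mass_nonneg {f : ℕ → ℝ} (hf : ∀ v, 0 ≤ f v) (V : Finset ℕ) : 0 ≤ mass f V :=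
  sum_nonneg fun v _ => mu_nonneg hf v

theorem pairWeight_nonneg (t v w : ℕ) : 0 ≤ pairWeight t v w :=
  prod_nonneg fun _ _ => (Real.exp_pos _).le

theorem pairTerm_nonneg {t : ℕ} {f g : ℕ → ℝ} (hf : ∀ v, 0 ≤ f v) (hg : ∀ w, 0 ≤ g w)
    (v w : ℕ) : 0 ≤ pairTerm t f g v w := by
  rw [pairTerm]
  split_ifs
  · exact mul_nonneg (mul_nonneg (mu_nonneg hf v) (mu_nonneg hg w)) (pairWeight_nonneg t v w)
  · exact le_rfl

/-- The factor `1 - 1/p` of a positive exponent. -/
def expFactor (p i : ℕ) : ℝ := if i = 0 then 1 else 1 - 1 / (p : ℝ)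

theorem expFactor_pos {p : ℕ} (hp : p.Prime) (i : ℕ) : 0 < expFactor p i := by
  rw [expFactor]
  split_ifs
  · exact one_pos
  · have : (2 : ℝ) ≤ p := by exact_mod_cast hp.two_le
    rw [sub_pos, div_lt_one (by linarith)]
    linarith

theorem expFactor_le_one (p i : ℕ) : expFactor p i ≤ 1 := by
  rw [expFactor]
  split_ifs
  · exact le_rfl
  · exact sub_le_self _ (by positivity)

theorem totient_div_split {p i v : ℕ} (hp : p.Prime) (hcop : Nat.Coprime p v) :
    ((p ^ i * v).totient : ℝ) / (p ^ i * v : ℕ) = expFactor p i * ((v.totient : ℝ) / v) := by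
  rcases Nat.eq_zero_or_pos i with rfl | hi
  · simp [expFactor]
  rw [Nat.totient_mul (hcop.pow_left i), Nat.totient_prime_pow hp hi, expFactor, if_neg hi.ne']
  have h1 : (1 : ℕ) ≤ p := hp.one_le
  have hp0 : (p : ℝ) ≠ 0 := Nat.cast_ne_zero.2 hp.ne_zero
  have e : (p : ℝ) ^ i = p ^ (i - 1) * p := by rw [← pow_succ]; congr 1; omega
  push_cast [Nat.cast_sub h1]
  rw [e]
  field_simp

theorem gcd_split {p i j v w : ℕ} (hp : p.Prime) (hv : ¬p ∣ v) (hw : ¬p ∣ w) :
    Nat.gcd (p ^ i * v) (p ^ j * w) = p ^ min i j * Nat.gcd v w := by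
  have hcv := (hp.coprime_iff_not_dvd.2 hv)
  have hcw := (hp.coprime_iff_not_dvd.2 hw)
  rcases le_total i j with h | h
  · rw [min_eq_left h, ← Nat.add_sub_cancel' h, pow_add, mul_assoc, Nat.gcd_mul_left,
      Nat.Coprime.gcd_mul_left_cancel_right w (hcv.pow_left _)]
  · rw [min_eq_right h, ← Nat.add_sub_cancel' h, pow_add, mul_assoc, Nat.gcd_mul_left,
      Nat.Coprime.gcd_mul_left_cancel v (hcw.pow_left _)]

theorem admissible_split {p i j v w : ℕ} (hp : p.Prime) (hv : ¬p ∣ v) (hw : ¬p ∣ w)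
    (f g : ℕ → ℝ) (h : Admissible f g (p ^ i * v) (p ^ j * w)) :
    Admissible (fun x => f (p ^ i * x) * (p : ℝ) ^ (j - i))
      (fun x => g (p ^ j * x) * (p : ℝ) ^ (i - j)) v w := by
  obtain ⟨h1, h2⟩ := h
  rw [gcd_split hp hv hw] at h1 h2
  push_cast at h1 h2
  have hp0 : (0 : ℝ) < p := Nat.cast_pos.2 hp.pos
  have ej : (p : ℝ) ^ j = p ^ min i j * p ^ (j - i) := by rw [← pow_add]; congr 1; omega
  have ei : (p : ℝ) ^ i = p ^ min i j * p ^ (i - j) := by rw [← pow_add]; congr 1; omega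
  constructor
  · refine le_of_mul_le_mul_left (le_of_eq_of_le ?_ h1) (pow_pos hp0 (min i j))
    rw [ej]; ring
  · refine le_of_mul_le_mul_left (le_of_eq_of_le ?_ h2) (pow_pos hp0 (min i j))
    rw [ei]; ring

theorem pairWeight_split {p i j v w : ℕ} (hp : p.Prime) (hv : ¬p ∣ v) (hw : ¬p ∣ w)
    (hv0 : v ≠ 0) (hw0 : w ≠ 0) (t : ℕ) :
    pairWeight t (p ^ i * v) (p ^ j * w) ≤ (if i = j then 1 else 3) * pairWeight t v w := by
  have fv : ∀ q, (p ^ i * v).factorization q = (if q = p then i else 0) + v.factorization q := by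
    intro q
    rw [Nat.factorization_mul (pow_ne_zero _ hp.ne_zero) hv0, hp.factorization_pow,
      Finsupp.add_apply, Finsupp.single_apply]
    simp [eq_comm]
  have fw : ∀ q, (p ^ j * w).factorization q = (if q = p then j else 0) + w.factorization q := by
    intro q
    rw [Nat.factorization_mul (pow_ne_zero _ hp.ne_zero) hw0, hp.factorization_pow,
      Finsupp.add_apply, Finsupp.single_apply]
    simp [eq_comm]
  have fv0 : v.factorization p = 0 := Nat.factorization_eq_zero_of_not_dvd hv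
  have fw0 : w.factorization p = 0 := Nat.factorization_eq_zero_of_not_dvd hw
  have hsub : ∀ q ∈ diffPrimes (p ^ i * v) (p ^ j * w),
      (q = p ∧ i ≠ j) ∨ q ∈ diffPrimes v w := by
    intro q hq
    rw [diffPrimes, mem_filter, fv, fw] at hq
    by_cases hqp : q = p
    · subst hqp
      rw [if_pos rfl, fv0, fw0] at hq
      exact Or.inl ⟨rfl, by simpa using hq.2⟩
    · rw [if_neg hqp, zero_add, if_neg hqp, zero_add] at hq
      refine Or.inr (mem_filter.2 ⟨?_, hq.2⟩)
      rw [mem_union, ← Nat.support_factorization, ← Nat.support_factorization,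
        Finsupp.mem_support_iff,
        Finsupp.mem_support_iff]
      omega
  have h1 : ∀ q ∈ (diffPrimes v w).filter (t ≤ ·), 1 ≤ Real.exp (t / q : ℝ) :=
    fun q _ => Real.one_le_exp (by positivity)
  split_ifs with hij
  · rw [one_mul, pairWeight, pairWeight]
    refine prod_le_prod_of_subset_of_one_le ?_ (fun q _ => (Real.exp_pos _).le)
      fun q hq _ => h1 q hq
    intro q hq
    rw [mem_filter] at hq ⊢
    exact ⟨(hsub q hq.1).resolve_left fun h => h.2 hij, hq.2⟩
  · rw [pairWeight, pairWeight]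
    by_cases htp : t ≤ p
    · have hnot : p ∉ (diffPrimes v w).filter (t ≤ ·) := by
        simp [diffPrimes, fv0, fw0]
      calc ∏ q ∈ (diffPrimes (p ^ i * v) (p ^ j * w)).filter (t ≤ ·), Real.exp (t / q : ℝ)
          ≤ ∏ q ∈ insert p ((diffPrimes v w).filter (t ≤ ·)), Real.exp (t / q : ℝ) := by
            refine prod_le_prod_of_subset_of_one_le ?_ (fun q _ => (Real.exp_pos _).le)
              fun q _ _ => Real.one_le_exp (by positivity)
            intro q hq
            rw [mem_filter] at hq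
            rw [mem_insert, mem_filter]
            rcases hsub q hq.1 with h | h
            · exact Or.inl h.1
            · exact Or.inr ⟨h, hq.2⟩
        _ ≤ _ := by
            rw [prod_insert hnot]
            refine mul_le_mul_of_nonneg_right ?_ (prod_nonneg fun q _ => (Real.exp_pos _).le)
            refine (Real.exp_le_exp.2 (div_le_one_of_le₀ (Nat.cast_le.2 htp)
              (Nat.cast_nonneg p))).trans ?_
            linarith [Real.exp_one_lt_d9]
    · refine le_trans (prod_le_prod_of_subset_of_one_le ?_ (fun q _ => (Real.exp_pos _).le)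
        fun q hq _ => h1 q hq) (le_mul_of_one_le_left
          (prod_nonneg fun q _ => (Real.exp_pos _).le) (by norm_num))
      intro q hq
      rw [mem_filter] at hq ⊢
      exact ⟨(hsub q hq.1).resolve_left fun h => htp (h.1 ▸ hq.2), hq.2⟩

theorem mem_erase_support {p v : ℕ} {S : Finset ℕ} (hv : 0 < v) (hS : v.primeFactors ⊆ S)
    (hp : p.Prime) : 0 < v / p ^ v.factorization p ∧
      (v / p ^ v.factorization p).primeFactors ⊆ S.erase p ∧
        ¬p ∣ v / p ^ v.factorization p := by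
  have hnd := Nat.not_dvd_ordCompl hp hv.ne'
  refine ⟨Nat.ordCompl_pos p hv.ne', fun q hq => mem_erase.2 ⟨fun h => hnd ?_, hS ?_⟩, hnd⟩
  · have hdvd := Nat.dvd_of_mem_primeFactors hq
    rwa [h] at hdvd
  · exact Nat.primeFactors_mono (Nat.ordCompl_dvd v p) hv.ne' hq

/-- **The step at one prime.** -/
theorem pairSum_fibre_le {t p i j : ℕ} (hp : p.Prime) {S : Finset ℕ} {C : ℝ} (hC0 : 0 ≤ C)
    (hC : PairBound t (S.erase p) C) {f g : ℕ → ℝ} (hf : ∀ v, 0 ≤ f v) (hg : ∀ w, 0 ≤ g w)
    {V W : Finset ℕ} (hV : ∀ v ∈ V, 0 < v ∧ v.primeFactors ⊆ S ∧ v.factorization p = i)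
    (hW : ∀ w ∈ W, 0 < w ∧ w.primeFactors ⊆ S ∧ w.factorization p = j) :
    pairSum t f g V W ≤
      C * (valKernel (primeRoot p) i j * (pw (mass f V) * pw (mass g W))) := by
  obtain ⟨f', hf'⟩ : ∃ f' : ℕ → ℝ, f' = fun x => f (p ^ i * x) * (p : ℝ) ^ (j - i) := ⟨_, rfl⟩
  obtain ⟨g', hg'⟩ : ∃ g' : ℕ → ℝ, g' = fun x => g (p ^ j * x) * (p : ℝ) ^ (i - j) := ⟨_, rfl⟩
  have hf'0 : ∀ x, 0 ≤ f' x := fun x => by rw [hf']; exact mul_nonneg (hf _) (by positivity)
  have hg'0 : ∀ x, 0 ≤ g' x := fun x => by rw [hg']; exact mul_nonneg (hg _) (by positivity)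
  have back : ∀ (U : Finset ℕ) (e : ℕ), (∀ v ∈ U, 0 < v ∧ v.primeFactors ⊆ S ∧
      v.factorization p = e) → ∀ v ∈ U, p ^ e * (v / p ^ e) = v := by
    intro U e hU v hv
    obtain ⟨-, -, he⟩ := hU v hv
    exact Nat.mul_div_cancel' (he ▸ Nat.ordProj_dvd v p)
  have inj : ∀ (U : Finset ℕ) (e : ℕ), (∀ v ∈ U, 0 < v ∧ v.primeFactors ⊆ S ∧
      v.factorization p = e) → Set.InjOn (fun v => v / p ^ e) (U : Set ℕ) := by
    intro U e hU a ha b hb hab
    simp only [] at hab
    rw [← back U e hU a ha, ← back U e hU b hb, hab]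
  have good : ∀ (U : Finset ℕ) (e : ℕ), (∀ v ∈ U, 0 < v ∧ v.primeFactors ⊆ S ∧
      v.factorization p = e) → ∀ x ∈ U.image (fun v => v / p ^ e),
        0 < x ∧ x.primeFactors ⊆ S.erase p ∧ ¬p ∣ x := by
    intro U e hU x hx
    obtain ⟨v, hv, rfl⟩ := mem_image.1 hx
    obtain ⟨h0, h1, rfl⟩ := hU v hv
    exact mem_erase_support h0 h1 hp
  have hmassV : mass f' (V.image fun v => v / p ^ i) =
      (p : ℝ) ^ (j - i) / expFactor p i * mass f V := by
    rw [mass, sum_image (inj V i hV), mass, mul_sum]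
    refine sum_congr rfl fun v hv => ?_
    have hnd := (good V i hV _ (mem_image_of_mem _ hv)).2.2
    have e := totient_div_split (i := i) hp (hp.coprime_iff_not_dvd.2 hnd)
    rw [back V i hV v hv] at e
    simp only [mu, hf']
    rw [back V i hV v hv, e]
    field_simp [(expFactor_pos hp i).ne']
  have hmassW : mass g' (W.image fun w => w / p ^ j) =
      (p : ℝ) ^ (i - j) / expFactor p j * mass g W := by
    rw [mass, sum_image (inj W j hW), mass, mul_sum]
    refine sum_congr rfl fun w hw => ?_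
    have hnd := (good W j hW _ (mem_image_of_mem _ hw)).2.2
    have e := totient_div_split (i := j) hp (hp.coprime_iff_not_dvd.2 hnd)
    rw [back W j hW w hw] at e
    simp only [mu, hg']
    rw [back W j hW w hw, e]
    field_simp [(expFactor_pos hp j).ne']
  obtain ⟨A, hA⟩ : ∃ A, A = (p : ℝ) ^ (j - i) / expFactor p i *
      ((p : ℝ) ^ (i - j) / expFactor p j) := ⟨_, rfl⟩
  have hp0 : (0 : ℝ) < p := Nat.cast_pos.2 hp.pos
  have hA0 : 0 < A := hA ▸ mul_pos (div_pos (pow_pos hp0 _) (expFactor_pos hp i))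
    (div_pos (pow_pos hp0 _) (expFactor_pos hp j))
  obtain ⟨k, hk⟩ : ∃ k : ℝ, k = if i = j then 1 else 3 := ⟨_, rfl⟩
  have hk0 : 0 ≤ k := by rw [hk]; split_ifs <;> norm_num
  have hterm : ∀ v ∈ V, ∀ w ∈ W,
      pairTerm t f g v w ≤ k / A * pairTerm t f' g' (v / p ^ i) (w / p ^ j) := by
    intro v hv w hw
    have gv := good V i hV _ (mem_image_of_mem _ hv)
    have gw := good W j hW _ (mem_image_of_mem _ hw)
    rw [pairTerm]
    split_ifs with hadm
    · rw [pairTerm, if_pos]
      · have ev := totient_div_split (i := i) hp (hp.coprime_iff_not_dvd.2 gv.2.2)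
        have ew := totient_div_split (i := j) hp (hp.coprime_iff_not_dvd.2 gw.2.2)
        rw [back V i hV v hv] at ev
        rw [back W j hW w hw] at ew
        have hwt := pairWeight_split (i := i) (j := j) hp gv.2.2 gw.2.2 gv.1.ne' gw.1.ne' t
        rw [back V i hV v hv, back W j hW w hw, ← hk] at hwt
        refine (mul_le_mul_of_nonneg_left hwt
          (mul_nonneg (mu_nonneg hf v) (mu_nonneg hg w))).trans (le_of_eq ?_)
        simp only [mu, hf', hg']
        rw [back V i hV v hv, back W j hW w hw, ev, ew, hA]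
        have := (expFactor_pos hp i).ne'
        have := (expFactor_pos hp j).ne'
        field_simp
      · rw [hf', hg']
        exact admissible_split hp gv.2.2 gw.2.2 f g (by rwa [back V i hV v hv, back W j hW w hw])
    · exact mul_nonneg (div_nonneg hk0 hA0.le) (pairTerm_nonneg hf'0 hg'0 _ _)
  have hrec := hC f' g' _ _ hf'0 hg'0 (fun x hx => ⟨(good V i hV x hx).1, (good V i hV x hx).2.1⟩)
    (fun x hx => ⟨(good W j hW x hx).1, (good W j hW x hx).2.1⟩)
  rw [pairSum, sum_image (inj V i hV), hmassV, hmassW] at hrec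
  simp only [sum_image (inj W j hW)] at hrec
  have hsum : pairSum t f g V W ≤ k / A * (C * (pw (mass f V) * pw (mass g W) * pw A)) := by
    refine (sum_le_sum fun v hv => sum_le_sum fun w hw => hterm v hv w hw).trans ?_
    simp only [← mul_sum]
    refine mul_le_mul_of_nonneg_left (hrec.trans (le_of_eq ?_)) (div_nonneg hk0 hA0.le)
    have hX : 0 ≤ (p : ℝ) ^ (j - i) / expFactor p i :=
      div_nonneg (by positivity) (expFactor_pos hp i).le
    have hY : 0 ≤ (p : ℝ) ^ (i - j) / expFactor p j :=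
      div_nonneg (by positivity) (expFactor_pos hp j).le
    rw [hA, pw_mul hX (mass f V), pw_mul hY (mass g W),
      pw_mul hX ((p : ℝ) ^ (i - j) / expFactor p j)]
    ring
  refine hsum.trans ?_
  have hfin : pw A / A ≤ primeRoot p ^ Nat.dist i j := by
    refine le_of_pow_le_pow_left₀ (by norm_num : (4 : ℕ) ≠ 0)
      (pow_nonneg (primeRoot_nonneg p) _) ?_
    rw [div_pow, pw_pow_four hA0.le, ← pow_mul, mul_comm (Nat.dist i j) 4, pow_mul,
      primeRoot_pow_four, show A ^ 3 / A ^ 4 = 1 / A by field_simp, div_pow, one_pow]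
    refine one_div_le_one_div_of_le (pow_pos hp0 _) ?_
    rw [hA, div_mul_div_comm, ← pow_add, show j - i + (i - j) = Nat.dist i j by
      simp [Nat.dist]; omega]
    exact le_div_self (by positivity) (mul_pos (expFactor_pos hp i) (expFactor_pos hp j))
      (mul_le_one₀ (expFactor_le_one p i) (expFactor_pos hp j).le (expFactor_le_one p j))
  have hker : k * primeRoot p ^ Nat.dist i j = valKernel (primeRoot p) i j := by
    rw [hk, valKernel]; split_ifs with h <;> simp [h]
  calc k / A * (C * (pw (mass f V) * pw (mass g W) * pw A))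
      = C * ((k * (pw A / A)) * (pw (mass f V) * pw (mass g W))) := by ring
    _ ≤ _ := by
      rw [← hker]
      exact mul_le_mul_of_nonneg_left (mul_le_mul_of_nonneg_right
        (mul_le_mul_of_nonneg_left hfin hk0) (mul_nonneg (pw_nonneg _) (pw_nonneg _))) hC0

/-- The valuations at `p` occurring in two sets. -/
def exponents (p : ℕ) (V W : Finset ℕ) : Finset ℕ :=
  (V ∪ W).image fun v => v.factorization p

theorem mass_fibres (f : ℕ → ℝ) (p : ℕ) {V : Finset ℕ} {s : Finset ℕ}
    (hs : ∀ v ∈ V, v.factorization p ∈ s) :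
    ∑ i ∈ s, mass f (V.filter fun v => v.factorization p = i) = mass f V :=
  sum_fiberwise_of_maps_to hs _

/-- **Splitting by the valuation at one prime.** -/
theorem pairSum_le_kernel {t p : ℕ} (hp : p.Prime) {S : Finset ℕ} {C : ℝ} (hC0 : 0 ≤ C)
    (hC : PairBound t (S.erase p) C) {f g : ℕ → ℝ} (hf : ∀ v, 0 ≤ f v) (hg : ∀ w, 0 ≤ g w)
    {V W : Finset ℕ} (hV : ∀ v ∈ V, 0 < v ∧ v.primeFactors ⊆ S)
    (hW : ∀ w ∈ W, 0 < w ∧ w.primeFactors ⊆ S) :
    pairSum t f g V W ≤ C * ∑ i ∈ exponents p V W, ∑ j ∈ exponents p V W,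
      valKernel (primeRoot p) i j * (pw (mass f (V.filter fun v => v.factorization p = i)) *
        pw (mass g (W.filter fun w => w.factorization p = j))) := by
  have mV : ∀ v ∈ V, v.factorization p ∈ exponents p V W := fun v hv =>
    mem_image_of_mem _ (mem_union_left _ hv)
  have mW : ∀ w ∈ W, w.factorization p ∈ exponents p V W := fun w hw =>
    mem_image_of_mem _ (mem_union_right _ hw)
  rw [pairSum, ← sum_fiberwise_of_maps_to mV, mul_sum]
  refine sum_le_sum fun i _ => ?_
  rw [mul_sum]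
  calc ∑ v ∈ V.filter (fun v => v.factorization p = i), ∑ w ∈ W, pairTerm t f g v w
      = ∑ j ∈ exponents p V W, pairSum t f g (V.filter fun v => v.factorization p = i)
          (W.filter fun w => w.factorization p = j) := by
        simp only [pairSum]
        rw [sum_comm (s := exponents p V W)]
        refine sum_congr rfl fun v _ => ?_
        rw [sum_fiberwise_of_maps_to mW]
    _ ≤ _ := sum_le_sum fun j _ => pairSum_fibre_le hp hC0 hC hf hg
        (fun v hv => ⟨(hV v (mem_filter.1 hv).1).1, (hV v (mem_filter.1 hv).1).2,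
          (mem_filter.1 hv).2⟩)
        (fun w hw => ⟨(hW w (mem_filter.1 hw).1).1, (hW w (mem_filter.1 hw).1).2,
          (mem_filter.1 hw).2⟩)

/-- The crude step. -/
theorem pairSum_le_crude {t p : ℕ} (hp : p.Prime) {S : Finset ℕ} {C R : ℝ} (hC0 : 0 ≤ C)
    (hC : PairBound t (S.erase p) C) (hR : 1 + 6 * primeRoot p / (1 - primeRoot p) ≤ R)
    {f g : ℕ → ℝ} (hf : ∀ v, 0 ≤ f v) (hg : ∀ w, 0 ≤ g w)
    {V W : Finset ℕ} (hV : ∀ v ∈ V, 0 < v ∧ v.primeFactors ⊆ S)
    (hW : ∀ w ∈ W, 0 < w ∧ w.primeFactors ⊆ S) :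
    pairSum t f g V W ≤ C * R * (pw (mass f V) * pw (mass g W)) := by
  have ha := primeRoot_le_nine_tenths hp.two_le
  have h0 := primeRoot_nonneg p
  have hR0 : 0 ≤ R :=
    le_trans (add_nonneg zero_le_one (div_nonneg (by positivity) (by linarith))) hR
  refine (pairSum_le_kernel hp hC0 hC hf hg hV hW).trans ?_
  rw [mul_assoc C]
  refine mul_le_mul_of_nonneg_left ?_ hC0
  refine (schur_pw _ _ (valKernel_nonneg h0) hR0
    (fun i _ => (valKernel_row h0 (by linarith) _ i).trans hR)
    (fun j _ => le_trans (le_of_eq (sum_congr rfl fun i _ => valKernel_comm _ i j))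
      ((valKernel_row h0 (by linarith) _ j).trans hR))
    (fun i _ => mass_nonneg hf _) (fun i _ => mass_nonneg hg _)).trans (le_of_eq ?_)
  rw [mass_fibres f p (s := exponents p V W) fun v hv => mem_image_of_mem _ (mem_union_left _ hv),
    mass_fibres g p (s := exponents p V W) fun w hw => mem_image_of_mem _ (mem_union_right _ hw)]

/-- **A prime is harmless or flat.** -/
theorem pairSum_le_or_flat {t p : ℕ} (hp : p.Prime) (h16 : 16 ≤ p) {S : Finset ℕ} {C : ℝ}
    (hC0 : 0 ≤ C) (hC : PairBound t (S.erase p) C) {f g : ℕ → ℝ} (hf : ∀ v, 0 ≤ f v)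
    (hg : ∀ w, 0 ≤ g w) {V W : Finset ℕ} (hV : ∀ v ∈ V, 0 < v ∧ v.primeFactors ⊆ S)
    (hW : ∀ w ∈ W, 0 < w ∧ w.primeFactors ⊆ S) :
    pairSum t f g V W ≤ C * (pw (mass f V) * pw (mass g W)) ∨
      ∃ k : ℕ, mass f (V.filter fun v => v.factorization p ≠ k) ≤
          2 * flatConst / p * mass f V ∧
        mass g (W.filter fun w => w.factorization p ≠ k) ≤ 2 * flatConst / p * mass g W := by
  have hs : ∀ v ∈ V, v.factorization p ∈ exponents p V W := fun v hv =>
    mem_image_of_mem _ (mem_union_left _ hv)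
  have hs' : ∀ w ∈ W, w.factorization p ∈ exponents p V W := fun w hw =>
    mem_image_of_mem _ (mem_union_right _ hw)
  have hflat : ∀ (h : ℕ → ℝ) (U : Finset ℕ) (k : ℕ),
      (∀ u ∈ U, u.factorization p ∈ exponents p V W) →
      ∑ i ∈ (exponents p V W).erase k, mass h (U.filter fun u => u.factorization p = i) =
        mass h (U.filter fun u => u.factorization p ≠ k) := by
    intro h U k hU
    rw [← mass_fibres h p (V := U.filter fun u => u.factorization p ≠ k)
      (s := (exponents p V W).erase k) fun u hu =>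
        mem_erase.2 ⟨(mem_filter.1 hu).2, hU u (mem_filter.1 hu).1⟩]
    refine sum_congr rfl fun i hi => ?_
    rw [filter_filter]
    refine congrArg _ (filter_congr fun u _ => ⟨fun h => ⟨h ▸ ne_of_mem_erase hi, h⟩, fun h => h.2⟩)
  rcases valuation_dichotomy (primeRoot_nonneg p) (primeRoot_le_half h16) (exponents p V W)
    (x := fun i => mass f (V.filter fun v => v.factorization p = i))
    (y := fun i => mass g (W.filter fun w => w.factorization p = i))
    (fun i _ => mass_nonneg hf _) (fun i _ => mass_nonneg hg _) with h | ⟨k, -, h1, h2⟩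
  · rw [mass_fibres f p hs, mass_fibres g p hs'] at h
    exact Or.inl ((pairSum_le_kernel hp hC0 hC hf hg hV hW).trans
      (mul_le_mul_of_nonneg_left h hC0))
  · rw [hflat f V k hs, mass_fibres f p hs, primeRoot_pow_four, mul_one_div, ← mul_div_assoc] at h1
    rw [hflat g W k hs', mass_fibres g p hs', primeRoot_pow_four, mul_one_div, ← mul_div_assoc]
      at h2
    exact Or.inr ⟨k, h1, h2⟩

end FA.DuffinSchaeffer
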