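import Mathlib.Analysis.SpecialFunctions.Sqrt
import Mathlib.Algebra.Order.BigOperators.Ring.Finset
import Mathlib.Algebra.BigOperators.Field
import Mathlib.Data.Nat.Dist
import Mathlib.Analysis.SpecificLimits.Basic
import Mathlib.Tactic

/-!
# The inequality for the valuations at one prime

For masses `x i`, `y j` indexed by exponents and the kernel `3 a ^ |i - j|` off the diagonal, `1` on
it, the sum of `(x i y j) ^ (3/4)` is at most `(∑ x) ^ (3/4) (∑ y) ^ (3/4)` unless both masses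
concentrate at one exponent up to a share `O (a ^ 4)`; with `a = p ^ (-1/4)` the share is `O (1/p)`.
-/

set_option autoImplicit false

noncomputable section

namespace FA.DuffinSchaeffer

open Finset

/-- `x ^ (3/4)`. -/
def pw (x : ℝ) : ℝ := Real.sqrt x * Real.sqrt (Real.sqrt x)

theorem pw_nonneg (x : ℝ) : 0 ≤ pw x := mul_nonneg (Real.sqrt_nonneg _) (Real.sqrt_nonneg _)

theorem pw_one : pw 1 = 1 := by simp [pw]

theorem pw_zero : pw 0 = 0 := by simp [pw]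

theorem pw_mul {x : ℝ} (hx : 0 ≤ x) (y : ℝ) : pw (x * y) = pw x * pw y := by
  rw [pw, pw, pw, Real.sqrt_mul hx, Real.sqrt_mul (Real.sqrt_nonneg _)]
  ring

theorem pw_mono {x y : ℝ} (h : x ≤ y) : pw x ≤ pw y :=
  mul_le_mul (Real.sqrt_le_sqrt h) (Real.sqrt_le_sqrt (Real.sqrt_le_sqrt h))
    (Real.sqrt_nonneg _) (Real.sqrt_nonneg _)

theorem pw_sq {x : ℝ} (hx : 0 ≤ x) : pw x ^ 2 = x * Real.sqrt x := by
  rw [pw, mul_pow, Real.sq_sqrt hx, Real.sq_sqrt (Real.sqrt_nonneg _)]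

theorem pw_pow_four {x : ℝ} (hx : 0 ≤ x) : pw x ^ 4 = x ^ 3 := by
  rw [show (4 : ℕ) = 2 * 2 from rfl, pow_mul, pw_sq hx, mul_pow, Real.sq_sqrt hx]
  ring

theorem pw_le_self_of_one_le {x : ℝ} (hx : 1 ≤ x) : pw x ≤ x := by
  calc pw x ≤ Real.sqrt x * Real.sqrt x :=
        mul_le_mul_of_nonneg_left (Real.sqrt_le_sqrt (Real.sqrt_le_iff.2
          ⟨by linarith, le_self_pow₀ hx two_ne_zero⟩)) (Real.sqrt_nonneg _)
    _ = x := Real.mul_self_sqrt (by linarith)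

/-- The kernel. -/
def valKernel (a : ℝ) (i j : ℕ) : ℝ := if i = j then 1 else 3 * a ^ Nat.dist i j

theorem valKernel_nonneg {a : ℝ} (ha : 0 ≤ a) (i j : ℕ) : 0 ≤ valKernel a i j := by
  rw [valKernel]; split_ifs <;> positivity

theorem valKernel_comm (a : ℝ) (i j : ℕ) : valKernel a i j = valKernel a j i := by
  rw [valKernel, valKernel, Nat.dist_comm]
  simp [eq_comm]

theorem sum_pow_image {ι : Type*} {r : ℝ} (h0 : 0 ≤ r) (h1 : r < 1) (s : Finset ι) (f : ι → ℕ)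
    (hf : Set.InjOn f s) : ∑ i ∈ s, r ^ f i ≤ 1 / (1 - r) := by
  rw [← sum_image (f := fun n => r ^ n) hf, one_div, ← tsum_geometric_of_lt_one h0 h1]
  exact (summable_geometric_of_lt_one h0 h1).sum_le_tsum _ fun i _ => pow_nonneg h0 _

/-- Both sides of a point. -/
theorem sum_pow_dist {r : ℝ} (h0 : 0 ≤ r) (h1 : r < 1) (s : Finset ℕ) (k : ℕ) :
    ∑ j ∈ s.erase k, r ^ Nat.dist k j ≤ 2 * r / (1 - r) := by
  have key : ∀ t : Finset ℕ, (∀ j ∈ t, j ≠ k) → Set.InjOn (fun j => Nat.dist k j) t →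
      ∑ j ∈ t, r ^ Nat.dist k j ≤ r / (1 - r) := by
    intro t hne hinj
    have e : ∀ j ∈ t, r ^ Nat.dist k j = r * r ^ (Nat.dist k j - 1) := fun j hj => by
      rw [← pow_succ']
      congr 1
      have := hne j hj
      simp only [Nat.dist] at *
      omega
    rw [sum_congr rfl e, ← mul_sum, div_eq_mul_one_div]
    refine mul_le_mul_of_nonneg_left (sum_pow_image h0 h1 t _ fun u hu v hv huv => ?_) h0
    refine hinj hu hv ?_
    have := hne u hu
    have := hne v hv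
    simp only [Nat.dist] at *
    omega
  rw [← sum_filter_add_sum_filter_not (s.erase k) (· < k)]
  have hA := key ((s.erase k).filter (· < k)) (fun j hj => (mem_filter.1 hj).2.ne)
    fun u hu v hv huv => by
      have := (mem_filter.1 hu).2
      have := (mem_filter.1 hv).2
      simp only [Nat.dist] at huv
      omega
  have hB := key ((s.erase k).filter fun j => ¬j < k)
    (fun j hj => ne_of_mem_erase (mem_filter.1 hj).1) fun u hu v hv huv => by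
      have := (mem_filter.1 hu).2
      have := (mem_filter.1 hv).2
      simp only [Nat.dist] at huv
      omega
  linarith [show 2 * r / (1 - r) = r / (1 - r) + r / (1 - r) by ring]

theorem valKernel_row {a : ℝ} (h0 : 0 ≤ a) (h1 : a < 1) (s : Finset ℕ) (i : ℕ) :
    ∑ j ∈ s, valKernel a i j ≤ 1 + 6 * a / (1 - a) := by
  have h := sum_pow_dist h0 h1 s i
  have e : ∑ j ∈ s.erase i, valKernel a i j ≤ 3 * (2 * a / (1 - a)) := by
    refine le_trans (le_of_eq ?_) (mul_le_mul_of_nonneg_left h (by norm_num : (0 : ℝ) ≤ 3))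
    rw [mul_sum]
    exact sum_congr rfl fun j hj => by rw [valKernel, if_neg (ne_of_mem_erase hj).symm]
  by_cases hi : i ∈ s
  · rw [← add_sum_erase s _ hi, valKernel, if_pos rfl]
    linarith [show 3 * (2 * a / (1 - a)) = 6 * a / (1 - a) by ring]
  · rw [erase_eq_of_notMem hi] at e
    linarith [show 3 * (2 * a / (1 - a)) = 6 * a / (1 - a) by ring]

/-- **Schur's test.** -/
theorem schur_test {α β : Type*} (s : Finset α) (t : Finset β) {T : α → β → ℝ} {u : α → ℝ}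
    {v : β → ℝ} {R : ℝ} (hT : ∀ i j, 0 ≤ T i j) (hR : 0 ≤ R)
    (hrow : ∀ i ∈ s, ∑ j ∈ t, T i j ≤ R) (hcol : ∀ j ∈ t, ∑ i ∈ s, T i j ≤ R) :
    ∑ i ∈ s, ∑ j ∈ t, T i j * u i * v j ≤
      R * (Real.sqrt (∑ i ∈ s, u i ^ 2) * Real.sqrt (∑ j ∈ t, v j ^ 2)) := by
  rw [← sum_product']
  have h := sum_mul_sq_le_sq_mul_sq (s ×ˢ t) (fun q => Real.sqrt (T q.1 q.2) * u q.1)
    (fun q => Real.sqrt (T q.1 q.2) * v q.2)
  have e : ∀ q : α × β, Real.sqrt (T q.1 q.2) * u q.1 * (Real.sqrt (T q.1 q.2) * v q.2) =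
      T q.1 q.2 * u q.1 * v q.2 := fun q => by
    rw [mul_mul_mul_comm, Real.mul_self_sqrt (hT _ _), mul_assoc]
  simp only [e, mul_pow, Real.sq_sqrt (hT _ _)] at h
  have b1 : ∑ q ∈ s ×ˢ t, T q.1 q.2 * u q.1 ^ 2 ≤ R * ∑ i ∈ s, u i ^ 2 := by
    rw [sum_product, mul_sum]
    exact sum_le_sum fun i hi => by
      simp only [← sum_mul]
      exact mul_le_mul_of_nonneg_right (hrow i hi) (sq_nonneg _)
  have b2 : ∑ q ∈ s ×ˢ t, T q.1 q.2 * v q.2 ^ 2 ≤ R * ∑ j ∈ t, v j ^ 2 := by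
    rw [sum_product_right, mul_sum]
    exact sum_le_sum fun j hj => by
      simp only [← sum_mul]
      exact mul_le_mul_of_nonneg_right (hcol j hj) (sq_nonneg _)
  have hu : 0 ≤ ∑ i ∈ s, u i ^ 2 := sum_nonneg fun i _ => sq_nonneg _
  have hv : 0 ≤ ∑ j ∈ t, v j ^ 2 := sum_nonneg fun j _ => sq_nonneg _
  have hX : 0 ≤ R * (Real.sqrt (∑ i ∈ s, u i ^ 2) * Real.sqrt (∑ j ∈ t, v j ^ 2)) := by positivity
  refine (abs_le_of_sq_le_sq' ?_ hX).2
  refine h.trans ((mul_le_mul b1 b2 (sum_nonneg fun q _ => mul_nonneg (hT _ _) (sq_nonneg _))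
    (mul_nonneg hR hu)).trans (le_of_eq ?_))
  rw [mul_pow, mul_pow, Real.sq_sqrt hu, Real.sq_sqrt hv]
  ring

theorem sum_pw_sq_le {α : Type*} (s : Finset α) {x : α → ℝ} (hx : ∀ i ∈ s, 0 ≤ x i) :
    ∑ i ∈ s, pw (x i) ^ 2 ≤ pw (∑ i ∈ s, x i) ^ 2 := by
  rw [pw_sq (sum_nonneg hx), sum_mul]
  refine sum_le_sum fun i hi => ?_
  rw [pw_sq (hx i hi)]
  exact mul_le_mul_of_nonneg_left (Real.sqrt_le_sqrt (single_le_sum hx hi)) (hx i hi)

/-- Schur's test with the exponent `3/4`. -/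
theorem schur_pw {α β : Type*} (s : Finset α) (t : Finset β) {T : α → β → ℝ} {x : α → ℝ}
    {y : β → ℝ} {R : ℝ} (hT : ∀ i j, 0 ≤ T i j) (hR : 0 ≤ R)
    (hrow : ∀ i ∈ s, ∑ j ∈ t, T i j ≤ R) (hcol : ∀ j ∈ t, ∑ i ∈ s, T i j ≤ R)
    (hx : ∀ i ∈ s, 0 ≤ x i) (hy : ∀ j ∈ t, 0 ≤ y j) :
    ∑ i ∈ s, ∑ j ∈ t, T i j * (pw (x i) * pw (y j)) ≤
      R * (pw (∑ i ∈ s, x i) * pw (∑ j ∈ t, y j)) := by
  have h := schur_test s t (u := fun i => pw (x i)) (v := fun j => pw (y j)) hT hR hrow hcol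
  simp only [mul_assoc] at h
  refine h.trans (mul_le_mul_of_nonneg_left (mul_le_mul ?_ ?_ (Real.sqrt_nonneg _) (pw_nonneg _))
    hR) <;> refine Real.sqrt_le_iff.2 ⟨pw_nonneg _, ?_⟩
  · exact sum_pw_sq_le s hx
  · exact sum_pw_sq_le t hy

/-- Hölder's inequality with exponents `4` and `4/3`. -/
theorem holder_pw {α : Type*} (s : Finset α) {b x : α → ℝ} (hb : ∀ i ∈ s, 0 ≤ b i)
    (hx : ∀ i ∈ s, 0 ≤ x i) :
    (∑ i ∈ s, b i * pw (x i)) ^ 4 ≤ (∑ i ∈ s, b i ^ 4) * (∑ i ∈ s, x i) ^ 3 := by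
  -- two applications of Cauchy's inequality
  have h1 := sum_mul_sq_le_sq_mul_sq s (fun i => Real.sqrt (x i))
    (fun i => b i * Real.sqrt (Real.sqrt (x i)))
  have h2 := sum_mul_sq_le_sq_mul_sq s (fun i => b i ^ 2) (fun i => Real.sqrt (x i))
  have e1 : ∑ i ∈ s, Real.sqrt (x i) * (b i * Real.sqrt (Real.sqrt (x i))) =
      ∑ i ∈ s, b i * pw (x i) := sum_congr rfl fun i _ => by rw [pw]; ring
  have e2 : ∑ i ∈ s, Real.sqrt (x i) ^ 2 = ∑ i ∈ s, x i :=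
    sum_congr rfl fun i hi => Real.sq_sqrt (hx i hi)
  have e3 : ∑ i ∈ s, (b i * Real.sqrt (Real.sqrt (x i))) ^ 2 =
      ∑ i ∈ s, b i ^ 2 * Real.sqrt (x i) := sum_congr rfl fun i _ => by
    rw [mul_pow, Real.sq_sqrt (Real.sqrt_nonneg _)]
  have e4 : ∑ i ∈ s, (b i ^ 2) ^ 2 = ∑ i ∈ s, b i ^ 4 := sum_congr rfl fun i _ => by ring
  rw [e1, e2, e3] at h1
  rw [e2, e4] at h2
  have hX : 0 ≤ ∑ i ∈ s, x i := sum_nonneg hx
  have h0 : 0 ≤ ∑ i ∈ s, b i * pw (x i) :=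
    sum_nonneg fun i hi => mul_nonneg (hb i hi) (pw_nonneg _)
  calc (∑ i ∈ s, b i * pw (x i)) ^ 4 = ((∑ i ∈ s, b i * pw (x i)) ^ 2) ^ 2 := by ring
    _ ≤ ((∑ i ∈ s, x i) * ∑ i ∈ s, b i ^ 2 * Real.sqrt (x i)) ^ 2 :=
        pow_le_pow_left₀ (sq_nonneg _) h1 2
    _ = (∑ i ∈ s, x i) ^ 2 * (∑ i ∈ s, b i ^ 2 * Real.sqrt (x i)) ^ 2 := by ring
    _ ≤ (∑ i ∈ s, x i) ^ 2 * ((∑ i ∈ s, b i ^ 4) * ∑ i ∈ s, x i) :=
        mul_le_mul_of_nonneg_left h2 (sq_nonneg _)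
    _ = _ := by ring

/-- The share off the main exponent which the inequality cannot exclude. -/
def flatConst : ℝ := 288 ^ 4

theorem dichotomy_normalised {a : ℝ} (ha0 : 0 ≤ a) (ha : a ≤ 1 / 2) (s : Finset ℕ) {x y : ℕ → ℝ}
    (hx : ∀ i ∈ s, 0 ≤ x i) (hy : ∀ i ∈ s, 0 ≤ y i) (hX : ∑ i ∈ s, x i = 1)
    (hY : ∑ i ∈ s, y i = 1) :
    ∑ i ∈ s, ∑ j ∈ s, valKernel a i j * (pw (x i) * pw (y j)) ≤ 1 ∨
      ∃ k ∈ s, ∑ i ∈ s.erase k, (x i + y i) ≤ 2 * (flatConst * a ^ 4) := by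
  obtain ⟨z, hz⟩ : ∃ z : ℕ → ℝ, z = fun i => (x i + y i) / 2 := ⟨_, rfl⟩
  have hne : s.Nonempty := nonempty_of_ne_empty fun h => by simp [h] at hX
  have hz0 : ∀ i ∈ s, 0 ≤ z i := fun i hi => by
    rw [hz]; exact div_nonneg (add_nonneg (hx i hi) (hy i hi)) two_pos.le
  have hz1 : ∑ i ∈ s, z i = 1 := by
    rw [hz]; simp only [← sum_div, sum_add_distrib, hX, hY]; norm_num
  obtain ⟨k, hk, hmax⟩ := exists_max_image s z hne
  obtain ⟨Z, hZ⟩ : ∃ Z, Z = ∑ i ∈ s.erase k, z i := ⟨_, rfl⟩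
  have hz' : ∀ i ∈ s.erase k, 0 ≤ z i := fun i hi => hz0 i (mem_of_mem_erase hi)
  have hZ0 : 0 ≤ Z := hZ ▸ sum_nonneg hz'
  have hzk : z k + Z = 1 := by rw [hZ, add_sum_erase s z hk, hz1]
  have hZ1 : Z ≤ 1 := by linarith [hz0 k hk]
  by_cases hsmall : Z ≤ flatConst * a ^ 4
  · refine Or.inr ⟨k, hk, ?_⟩
    have : ∑ i ∈ s.erase k, (x i + y i) = 2 * Z := by
      rw [hZ, hz, mul_sum]; exact sum_congr rfl fun i _ => by ring
    linarith
  refine Or.inl ?_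
  push Not at hsmall
  obtain ⟨r, hr⟩ : ∃ r, r = Real.sqrt (1 / 2) := ⟨_, rfl⟩
  have hr34 : r ≤ 3 / 4 := hr ▸ Real.sqrt_le_iff.2 ⟨by norm_num, by norm_num⟩
  -- the diagonal
  have hdiag : ∑ i ∈ s, pw (x i) * pw (y i) ≤ 1 - Z / 4 := by
    have e : ∀ i ∈ s, pw (x i) * pw (y i) ≤ z i * Real.sqrt (z i) := fun i hi => by
      rw [← pw_mul (hx i hi), ← pw_sq (hz0 i hi), sq, ← pw_mul (hz0 i hi)]
      refine pw_mono ?_
      rw [hz]
      nlinarith [sq_nonneg (x i - y i)]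
    refine (sum_le_sum e).trans ?_
    by_cases hhalf : Z ≤ 1 / 2
    · rw [← add_sum_erase s _ hk]
      have h1 : z k * Real.sqrt (z k) ≤ z k :=
        mul_le_of_le_one_right (hz0 k hk) (Real.sqrt_le_one.2 (by linarith))
      have h2 : ∑ i ∈ s.erase k, z i * Real.sqrt (z i) ≤ ∑ i ∈ s.erase k, z i * r :=
        sum_le_sum fun i hi => mul_le_mul_of_nonneg_left (hr ▸ Real.sqrt_le_sqrt (by
          linarith [single_le_sum hz' hi])) (hz' i hi)
      rw [← sum_mul, ← hZ] at h2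
      nlinarith [mul_le_mul_of_nonneg_left hr34 hZ0]
    · push Not at hhalf
      have h2 : ∑ i ∈ s, z i * Real.sqrt (z i) ≤ ∑ i ∈ s, z i * r :=
        sum_le_sum fun i hi => mul_le_mul_of_nonneg_left (hr ▸ Real.sqrt_le_sqrt (by
          linarith [hmax i hi])) (hz0 i hi)
      rw [← sum_mul, hz1] at h2
      linarith
  -- off the diagonal
  obtain ⟨T, hT⟩ : ∃ T : ℕ → ℕ → ℝ,
      T = fun i j => if i = j then 0 else valKernel a i j := ⟨_, rfl⟩
  have hT0 : ∀ i j, 0 ≤ T i j := fun i j => by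
    rw [hT]; simp only []; split_ifs
    · exact le_rfl
    · exact valKernel_nonneg ha0 i j
  have hTs : ∀ i j, T i j = T j i := fun i j => by
    rw [hT]; simp only []; rw [valKernel_comm]; simp [eq_comm]
  have hTrow : ∀ (u : Finset ℕ) i, ∑ j ∈ u, T i j ≤ 12 * a := by
    intro u i
    have h : ∑ j ∈ u, T i j = 3 * ∑ j ∈ u.erase i, a ^ Nat.dist i j := by
      rw [mul_sum, ← sum_subset (erase_subset i u) fun j hj hj' => ?_]
      · exact sum_congr rfl fun j hj => by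
          rw [hT]; simp [valKernel, (ne_of_mem_erase hj).symm]
      · have : j = i := by_contra fun h => hj' (mem_erase.2 ⟨h, hj⟩)
        rw [hT]; simp [this]
    have h2 := sum_pow_dist ha0 (by linarith) u i
    have h3 : 2 * a / (1 - a) ≤ 4 * a := by
      rw [div_le_iff₀ (by linarith)]; nlinarith
    rw [h]; linarith
  have e : ∀ i ∈ s, ∀ j ∈ s, pw (x i) * pw (y j) ≤ 3 * (pw (z i) * pw (z j)) := by
    intro i hi j hj
    have h4 : pw 4 ≤ 3 :=
      le_of_pow_le_pow_left₀ (by norm_num : (4 : ℕ) ≠ 0) (by norm_num)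
        (by rw [pw_pow_four (by norm_num)]; norm_num)
    rw [← pw_mul (hx i hi), ← pw_mul (hz0 i hi)]
    refine le_trans (pw_mono (show x i * y j ≤ 4 * (z i * z j) by
      rw [hz]; nlinarith [hx i hi, hy i hi, hx j hj, hy j hj])) ?_
    rw [pw_mul (by norm_num : (0 : ℝ) ≤ 4)]
    exact mul_le_mul_of_nonneg_right h4 (pw_nonneg _)
  have hcross : ∑ j ∈ s.erase k, T k j * pw (z j) ≤ 6 * a * pw Z := by
    refine le_of_pow_le_pow_left₀ (by norm_num : (4 : ℕ) ≠ 0)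
      (mul_nonneg (by positivity) (pw_nonneg _)) ?_
    refine (holder_pw (s.erase k) (fun j _ => hT0 k j) hz').trans ?_
    rw [← hZ, mul_pow, pw_pow_four hZ0]
    refine mul_le_mul_of_nonneg_right ?_ (pow_nonneg hZ0 3)
    have e4 : ∀ j ∈ s.erase k, T k j ^ 4 = 81 * (a ^ 4) ^ Nat.dist k j := fun j hj => by
      rw [hT]
      simp only [valKernel, if_neg (ne_of_mem_erase hj).symm]
      rw [mul_pow, ← pow_mul, ← pow_mul, mul_comm (Nat.dist k j) 4]
      norm_num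
    have ha4 : a ^ 4 ≤ 1 / 16 := (pow_le_pow_left₀ ha0 ha 4).trans (by norm_num)
    have h2 := sum_pow_dist (pow_nonneg ha0 4) (by linarith) s k
    rw [sum_congr rfl e4, ← mul_sum]
    have h3 : 2 * a ^ 4 / (1 - a ^ 4) ≤ 4 * a ^ 4 := by
      rw [div_le_iff₀ (by linarith)]; nlinarith [pow_nonneg ha0 4]
    rw [mul_pow]
    nlinarith [pow_nonneg ha0 4]
  have hoff : ∑ i ∈ s, ∑ j ∈ s, T i j * (pw (z i) * pw (z j)) ≤ 24 * a * pw Z := by
    have hsplit : ∀ i, ∑ j ∈ s, T i j * (pw (z i) * pw (z j)) =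
        T i k * (pw (z i) * pw (z k)) + ∑ j ∈ s.erase k, T i j * (pw (z i) * pw (z j)) :=
      fun i => (add_sum_erase s _ hk).symm
    simp only [hsplit, sum_add_distrib]
    rw [← add_sum_erase s (fun i => T i k * (pw (z i) * pw (z k))) hk,
      ← add_sum_erase s (fun i => ∑ j ∈ s.erase k, T i j * (pw (z i) * pw (z j))) hk]
    have hTkk : T k k = 0 := by rw [hT]; simp
    have hz_k : pw (z k) ≤ 1 := pw_one ▸ pw_mono (by linarith)
    have hA : ∑ i ∈ s.erase k, T i k * (pw (z i) * pw (z k)) ≤ 6 * a * pw Z := by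
      calc _ = pw (z k) * ∑ i ∈ s.erase k, T k i * pw (z i) := by
            rw [mul_sum]; exact sum_congr rfl fun i _ => by rw [hTs i k]; ring
        _ ≤ 1 * (6 * a * pw Z) := mul_le_mul hz_k hcross
            (sum_nonneg fun i _ => mul_nonneg (hT0 _ _) (pw_nonneg _)) zero_le_one
        _ = _ := one_mul _
    have hB : ∑ j ∈ s.erase k, T k j * (pw (z k) * pw (z j)) ≤ 6 * a * pw Z := by
      refine le_of_eq_of_le ?_ hA
      exact sum_congr rfl fun i _ => by rw [hTs k i]; ring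
    have hC : ∑ i ∈ s.erase k, ∑ j ∈ s.erase k, T i j * (pw (z i) * pw (z j)) ≤
        12 * a * pw Z := by
      refine (schur_pw _ _ hT0 (by positivity) (fun i _ => hTrow _ i)
        (fun j _ => le_of_eq_of_le (sum_congr rfl fun i _ => hTs i j) (hTrow _ j)) hz' hz').trans
        ?_
      rw [← hZ]
      refine mul_le_mul_of_nonneg_left ?_ (by positivity)
      exact mul_le_of_le_one_left (pw_nonneg _) (pw_one ▸ pw_mono hZ1)
    rw [hTkk, zero_mul, zero_add]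
    linarith
  have hfinal : 72 * a * pw Z ≤ Z / 4 := by
    rw [flatConst] at hsmall
    refine le_of_pow_le_pow_left₀ (by norm_num : (4 : ℕ) ≠ 0) (by positivity) ?_
    rw [mul_pow, pw_pow_four hZ0, div_pow]
    have := mul_le_mul_of_nonneg_left hsmall.le (pow_nonneg hZ0 3)
    nlinarith
  calc ∑ i ∈ s, ∑ j ∈ s, valKernel a i j * (pw (x i) * pw (y j))
      = ∑ i ∈ s, (pw (x i) * pw (y i) + ∑ j ∈ s, T i j * (pw (x i) * pw (y j))) := by
        refine sum_congr rfl fun i hi => ?_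
        rw [← add_sum_erase s _ hi,
          ← add_sum_erase s (fun j => T i j * (pw (x i) * pw (y j))) hi, hT]
        simp only [valKernel, if_true, zero_mul, zero_add, one_mul]
        refine congrArg _ (sum_congr rfl fun j hj => ?_)
        simp only [if_neg (ne_of_mem_erase hj).symm]
    _ ≤ (1 - Z / 4) + ∑ i ∈ s, ∑ j ∈ s, T i j * (3 * (pw (z i) * pw (z j))) := by
        rw [sum_add_distrib]
        exact add_le_add hdiag (sum_le_sum fun i hi => sum_le_sum fun j hj =>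
          mul_le_mul_of_nonneg_left (e i hi j hj) (hT0 _ _))
    _ = (1 - Z / 4) + 3 * ∑ i ∈ s, ∑ j ∈ s, T i j * (pw (z i) * pw (z j)) := by
        congr 1
        simp only [mul_sum]
        exact sum_congr rfl fun i _ => sum_congr rfl fun j _ => by ring
    _ ≤ 1 := by linarith

/-- **The dichotomy at one prime.** -/
theorem valuation_dichotomy {a : ℝ} (ha0 : 0 ≤ a) (ha : a ≤ 1 / 2) (s : Finset ℕ) {x y : ℕ → ℝ}
    (hx : ∀ i ∈ s, 0 ≤ x i) (hy : ∀ i ∈ s, 0 ≤ y i) :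
    ∑ i ∈ s, ∑ j ∈ s, valKernel a i j * (pw (x i) * pw (y j)) ≤
        pw (∑ i ∈ s, x i) * pw (∑ i ∈ s, y i) ∨
      ∃ k ∈ s, ∑ i ∈ s.erase k, x i ≤ 2 * (flatConst * a ^ 4) * ∑ i ∈ s, x i ∧
        ∑ i ∈ s.erase k, y i ≤ 2 * (flatConst * a ^ 4) * ∑ i ∈ s, y i := by
  rcases eq_or_lt_of_le (sum_nonneg hx) with hX | hX
  · refine Or.inl (le_of_eq_of_le ?_ (mul_nonneg (pw_nonneg _) (pw_nonneg _)))
    have h0 := (sum_eq_zero_iff_of_nonneg hx).1 hX.symm
    exact sum_eq_zero fun i hi => sum_eq_zero fun j _ => by simp [h0 i hi, pw_zero]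
  rcases eq_or_lt_of_le (sum_nonneg hy) with hY | hY
  · refine Or.inl (le_of_eq_of_le ?_ (mul_nonneg (pw_nonneg _) (pw_nonneg _)))
    have h0 := (sum_eq_zero_iff_of_nonneg hy).1 hY.symm
    exact sum_eq_zero fun i _ => sum_eq_zero fun j hj => by simp [h0 j hj, pw_zero]
  obtain ⟨X, hXd⟩ : ∃ X, X = ∑ i ∈ s, x i := ⟨_, rfl⟩
  obtain ⟨Y, hYd⟩ : ∃ Y, Y = ∑ i ∈ s, y i := ⟨_, rfl⟩
  rw [← hXd] at hX ⊢
  rw [← hYd] at hY ⊢
  have h1 : ∑ i ∈ s, x i / X = 1 := by rw [← sum_div, ← hXd, div_self hX.ne']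
  have h2 : ∑ i ∈ s, y i / Y = 1 := by rw [← sum_div, ← hYd, div_self hY.ne']
  rcases dichotomy_normalised ha0 ha s (fun i hi => div_nonneg (hx i hi) hX.le)
    (fun i hi => div_nonneg (hy i hi) hY.le) h1 h2 with h | ⟨k, hk, h⟩
  · left
    refine le_of_eq_of_le ?_
      (mul_le_of_le_one_right (mul_nonneg (pw_nonneg X) (pw_nonneg Y)) h)
    simp only [mul_sum]
    refine sum_congr rfl fun i _ => sum_congr rfl fun j _ => ?_
    conv_lhs => rw [← mul_div_cancel₀ (x i) hX.ne', ← mul_div_cancel₀ (y j) hY.ne',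
      pw_mul hX.le, pw_mul hY.le]
    ring
  · right
    rw [sum_add_distrib, ← sum_div, ← sum_div] at h
    have e1 : 0 ≤ (∑ i ∈ s.erase k, x i) / X :=
      div_nonneg (sum_nonneg fun i hi => hx i (mem_of_mem_erase hi)) hX.le
    have e2 : 0 ≤ (∑ i ∈ s.erase k, y i) / Y :=
      div_nonneg (sum_nonneg fun i hi => hy i (mem_of_mem_erase hi)) hY.le
    exact ⟨k, hk, (div_le_iff₀ hX).1 (by linarith), (div_le_iff₀ hY).1 (by linarith)⟩

end FA.DuffinSchaeffer
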